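/-
Lib/FFL (finite flat local theory at `p`), architect file 1: DEFINITIONS and the exact statements
(as `Prop`s) of the leaves of layer 1.  Sub-architect: helper80.  Blueprint: NOTES/blueprint-FFL.md.

Setting: `P` a valuation subring of `ℚ̄` over `p`, `I = P.inertiaSubgroupIn ℚ`.  For a finite
Galois module `W` (action `act`):
* `augOn P act N` : the subgroup generated by `act σ v - v`, `σ ∈ I`, `v ∈ N`; `augI P act` is the
  case `N = ⊤`: `W ⧸ augI` is the module of inertia coinvariants (largest unramified quotient);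
* `redKer P B`   : for a set `B` of functions `W → ℚ̄`, the points `w` with `f w ≡ f 0` modulo the
  maximal ideal of `P` for all `f ∈ B` (kernel of reduction of the points of a Hopf order);
* `ComulClosed B`: `f (w + w') = ∑ g i w * h i w'` with `g i, h i ∈ B` (explicit form of
  `Δ(B) ⊆ B ⊗ B`; no tensor products);
* `TransInv V₁ f`: `f` is invariant under translation by `V₁`;
* `inertiaRing P`: the ring `R' = P ∩ ℚ̄^I`.

MAIN THEOREM of layer 1 (`MainProp`): for a Hopf order `O` on `W` (Lib/FlatMod `HopfOrder`),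
`redKer P O.alg = augI P act`: the connected part is Galois-theoretic.  Interface for the
consumers (`ExactProp`): inertia coinvariants are EXACT on flat Galois modules.
-/
import Fermat.Agent.Lib.FlatMod.Order
import Fermat.Prelude.Def_FLTPrelim_Ramification

set_option autoImplicit false

namespace Fermat.Agent.FFL

open Fermat.Agent.FlatMod GaloisRep

local notation "Kb" => AlgebraicClosure ℚ
local notation "GK" => (AlgebraicClosure ℚ ≃ₐ[ℚ] AlgebraicClosure ℚ)

/-- The subgroup generated by the `act σ v - v`, `σ` in the inertia group of `P`, `v ∈ N`. -/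
def augOn (P : ValuationSubring Kb) {W : Type*} [AddCommGroup W] (act : GK → W → W)
    (N : Set W) : AddSubgroup W :=
  AddSubgroup.closure {w | ∃ σ ∈ P.inertiaSubgroupIn ℚ, ∃ v ∈ N, w = act σ v - v}

/-- The augmentation subgroup of inertia: `W ⧸ augI` is the module of inertia coinvariants. -/
def augI (P : ValuationSubring Kb) {W : Type*} [AddCommGroup W] (act : GK → W → W) :
    AddSubgroup W :=
  augOn P act Set.univ

/-- The kernel of reduction modulo the maximal ideal of `P` with respect to a set of functions. -/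
def redKer (P : ValuationSubring Kb) {W : Type*} [Zero W] (B : Set (W → Kb)) : Set W :=
  {w | ∀ f ∈ B, f w - f 0 ∈ P.nonunits}

/-- `B` is closed under comultiplication (explicit form). -/
def ComulClosed {L : Type*} [CommSemiring L] {W : Type*} [Add W] (B : Set (W → L)) : Prop :=
  ∀ f ∈ B, ∃ (n : ℕ) (g h : Fin n → (W → L)), (∀ i, g i ∈ B) ∧ (∀ i, h i ∈ B) ∧
    ∀ w w' : W, f (w + w') = ∑ i, g i w * h i w'

/-- `f` is invariant under translation by the elements of `V₁`. -/
def TransInv {L : Type*} {W : Type*} [Add W] (V₁ : Set W) (f : W → L) : Prop :=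
  ∀ v : W, ∀ w ∈ V₁, f (v + w) = f v

/-- The ring `R' = P ∩ ℚ̄^I` of inertia-fixed elements of `P`. -/
def inertiaRing (P : ValuationSubring Kb) : Subring Kb where
  carrier := {a | a ∈ P ∧ ∀ σ ∈ P.inertiaSubgroupIn ℚ, σ a = a}
  mul_mem' := fun {a b} ha hb => ⟨P.mul_mem _ _ ha.1 hb.1, fun σ hσ => by
    rw [map_mul, ha.2 σ hσ, hb.2 σ hσ]⟩
  one_mem' := ⟨P.one_mem, fun σ _ => map_one σ⟩
  add_mem' := fun {a b} ha hb => ⟨P.add_mem _ _ ha.1 hb.1, fun σ hσ => by
    rw [map_add, ha.2 σ hσ, hb.2 σ hσ]⟩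
  zero_mem' := ⟨P.zero_mem, fun σ _ => map_zero σ⟩
  neg_mem' := fun {a} ha => ⟨P.neg_mem _ ha.1, fun σ hσ => by rw [map_neg, ha.2 σ hσ]⟩

theorem mem_inertiaRing {P : ValuationSubring Kb} {a : Kb} :
    a ∈ inertiaRing P ↔ a ∈ P ∧ ∀ σ ∈ P.inertiaSubgroupIn ℚ, σ a = a := Iff.rfl

/-! ### Leaves of layer 1, as `Prop`s (each is proved in the file named in the blueprint) -/

/-- **ARCH**: a nonunit of `P` has a power divisible by `p`. -/
def ArchProp (p : ℕ) (P : ValuationSubring Kb) : Prop :=
  ∀ t ∈ P.nonunits, ∃ n : ℕ, t ^ n / (p : Kb) ∈ P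

/-- **INT** (complete integral closedness): bounded powers are integral. -/
def IntProp (p : ℕ) (P : ValuationSubring Kb) : Prop :=
  ∀ y : Kb, (∃ N : ℕ, ∀ n : ℕ, (p : Kb) ^ N * y ^ n ∈ P) → y ∈ P

/-- **DVD**: every nonzero element divides a power of `p` in `P`. -/
def DvdProp (p : ℕ) (P : ValuationSubring Kb) : Prop :=
  ∀ x : Kb, x ≠ 0 → ∃ m : ℕ, (p : Kb) ^ m / x ∈ P

/-- **CYC**: `(ζ - 1) / p` is not integral at `P`, for `ζ ≠ 1` a root of unity of prime order
`ℓ` (`p` odd). -/
def CycProp (p : ℕ) (P : ValuationSubring Kb) : Prop :=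
  ∀ (ℓ : ℕ), ℓ.Prime → ∀ ζ : Kb, ζ ^ ℓ = 1 → ζ ≠ 1 → (ζ - 1) / (p : Kb) ∉ P

/-- **UNR**: the fixed field of inertia is unramified: an inertia-fixed nonunit of `P` is
divisible by `p` in `P`. -/
def UnrProp (p : ℕ) (P : ValuationSubring Kb) : Prop :=
  ∀ x ∈ P.nonunits, (∀ σ ∈ P.inertiaSubgroupIn ℚ, σ x = x) → x / (p : Kb) ∈ P

/-- **CORE** (helper41's lemma): there is no comultiplication-closed family of functions on
`ℤ/ℓ` of full rank all of whose elements satisfy `f 1 ≡ f 0` modulo `p P`. -/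
def CoreProp (p : ℕ) (P : ValuationSubring Kb) : Prop :=
  ∀ (ℓ : ℕ) [Fact ℓ.Prime] (A : Set (ZMod ℓ → Kb)), ComulClosed A →
    (∃ N : ℕ, ∀ c : ZMod ℓ, (fun c' : ZMod ℓ => if c' = c then (p : Kb) ^ N else 0) ∈ A) →
    (∀ f ∈ A, (f 1 - f 0) / (p : Kb) ∈ P) → False

/-- **MAIN** (R2'): the kernel of reduction of a Hopf order is the augmentation subgroup of
inertia. -/
def MainProp (p : ℕ) (P : ValuationSubring Kb) : Prop :=
  ∀ (W : Type) [AddCommGroup W] (act : GK → W → W) (O : HopfOrder p W act),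
    redKer P (O.alg : Set (W → Kb)) = (augI P act : Set W)

/-- **EXACT** (interface of layer 1): inertia coinvariants are exact on flat Galois modules:
for a Galois-stable subgroup `N` of a flat module `M`, `N ∩ augI M = augI N`. -/
def ExactProp (p : ℕ) (P : ValuationSubring Kb) : Prop :=
  ∀ (M : Type) [AddCommGroup M] (act : GK → M → M), IsFlatGaloisModule p M act →
    ∀ N : AddSubgroup M, (∀ σ : GK, ∀ n ∈ N, act σ n ∈ N) →
      ∀ x ∈ N, x ∈ augI P act → x ∈ augOn P act (N : Set M)

end Fermat.Agent.FFL
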