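/-
Lib/FFL, seat FFL-UNR (helper26): the fixed field of inertia is unramified.

`unrProp p hp P hP : UnrProp p P` — an inertia-fixed nonunit of a valuation subring `P` of `ℚ̄`
over `p` is divisible by `p` in `P`.

Proof.  `x ∈ 𝔪_P` fixed by `I = P.inertiaSubgroupIn ℚ`; `F/ℚ` finite Galois containing `x`,
`𝔓 = 𝔪_P ∩ 𝓞_F`, `H = 𝔓.inertia Gal(F/ℚ)`, `E = F^H`.  Every element of `H` lifts to `I`
(`Minkowski.exists_mem_inertiaSubgroupIn_restrict`), so `x ∈ E`.  The prime `𝔭 = 𝔓 ∩ 𝓞_E` has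
ramification index `1` over `ℤ` (`ramificationIdx_under_inertiaField`: `e(𝔓|𝔭) = #H = e(𝔓|p)` by
Mathlib's `Ideal.card_inertia_eq_ramificationIdxIn`, applied to `H` acting on `𝓞_F` over `𝓞_E`
and to `Gal(F/ℚ)` over `ℤ`, + the tower law).  So `p 𝓞_E = 𝔭 Q` with `Q ⊄ 𝔭`; write `x = a / s`,
`a ∈ 𝔭`, `s ∈ 𝓞_E ∖ 𝔭` (`exists_integral_mul_mem`), pick `t ∈ Q ∖ 𝔭`: `a t = p b`, and
`x / p = b / (s t) ∈ P`.
-/
import Fermat.Agent.Lib.FFL.Defs
import Fermat.Agent.Lib.HermiteMinkowski.Unramified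

set_option autoImplicit false

namespace Fermat.Agent.FFL

open NumberField Polynomial Fermat.Agent.FrobExists Fermat.Agent.Minkowski

/-! ### The inertia field is unramified (number fields) -/

section Abstract

variable (F : Type) [Field F] [NumberField F] [IsGalois ℚ F]

/-- The prime of the inertia field `E = F^{I(𝔓)}` below `𝔓` has ramification index `1` over
`ℤ`. -/
theorem ramificationIdx_under_inertiaField (𝔓 : Ideal (𝓞 F)) [h𝔓 : 𝔓.IsPrime] :
    (𝔓.under (𝓞 (FixedPoints.intermediateField (𝔓.inertia Gal(F/ℚ)) :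
      IntermediateField ℚ F))).ramificationIdx ℤ = 1 := by
  set H : Subgroup Gal(F/ℚ) := 𝔓.inertia Gal(F/ℚ) with hH
  set E : IntermediateField ℚ F := FixedPoints.intermediateField H with hE
  have hGE : IsGaloisGroup H E F := IsGaloisGroup.subgroup Gal(F/ℚ) ℚ F H
  have hGO : IsGaloisGroup H (𝓞 E) (𝓞 F) := IsGaloisGroup.of_isFractionRing H (𝓞 E) (𝓞 F) E F
  set 𝔭E : Ideal (𝓞 E) := 𝔓.under (𝓞 E) with h𝔭E
  have hlies : 𝔓.LiesOver 𝔭E := ⟨rfl⟩
  have hliesZ : 𝔓.LiesOver (𝔓.under ℤ) := ⟨rfl⟩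
  have htower := Ideal.ramificationIdx_tower (R := ℤ) 𝔭E 𝔓
  have h1 := Ideal.card_inertia_eq_ramificationIdxIn (G := H) 𝔭E 𝔓
  have h2 := Ideal.card_inertia_eq_ramificationIdxIn (G := Gal(F/ℚ)) (𝔓.under ℤ) 𝔓
  have h3 := Ideal.ramificationIdxIn_eq_ramificationIdx 𝔭E 𝔓 H
  have h4 := Ideal.ramificationIdxIn_eq_ramificationIdx (𝔓.under ℤ) 𝔓 Gal(F/ℚ)
  have htop : 𝔓.inertia H = ⊤ := by
    rw [eq_top_iff]
    intro h _ x
    exact h.2 x
  have hcard : Nat.card (𝔓.inertia H) = Nat.card H := by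
    rw [htop]
    exact Nat.card_congr Subgroup.topEquiv.toEquiv
  have hpos : 0 < Nat.card H := Nat.card_pos
  rw [h3] at h1
  rw [h4] at h2
  rw [hcard] at h1
  rw [← h2, ← h1] at htower
  have h5 : 𝔭E.ramificationIdx ℤ * Nat.card H = 1 * Nat.card H := by
    rw [one_mul]; exact htower.symm
  exact Nat.eq_of_mul_eq_mul_right hpos h5

end Abstract

/-! ### The key lemma, with the denominator in a given subfield -/

attribute [local instance] isAlgebraic_Qb isAlgClosure_Qb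

theorem hornerTail_mem_intermediateField (E' : IntermediateField ℚ Qb) {x : Qb} (hxE : x ∈ E')
    (q : ℤ[X]) (m : ℕ) : hornerTail x q m ∈ E' := by
  unfold hornerTail
  rw [aeval_eq_sum_range]
  refine sum_mem fun i _ => ?_
  exact zsmul_mem (pow_mem hxE i) _

/-- Every element `x` of `V ∩ E'` is a quotient of two algebraic integers of `E'`, with
denominator a unit of `V`. -/
theorem exists_integral_mul_mem (V : ValuationSubring Qb) (E' : IntermediateField ℚ Qb) (x : Qb)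
    (hx : x ∈ V) (hxE : x ∈ E') :
    ∃ s : Qb, s ∈ E' ∧ IsIntegral ℤ s ∧ s ∉ V.nonunits ∧ IsIntegral ℤ (s * x) := by
  obtain ⟨q, hprim, hq⟩ := exists_isPrimitive_aeval_eq_zero x
  by_contra hcon
  have htail : ∀ m : ℕ, hornerTail x q (m + 1) ∈ V.nonunits := by
    intro m
    by_contra hm
    refine hcon ⟨_, hornerTail_mem_intermediateField E' hxE q (m + 1),
      isIntegral_hornerTail x q hq (m + 1), hm, ?_⟩
    have h := hornerTail_succ x q m
    have h2 : hornerTail x q (m + 1) * x = hornerTail x q m - (q.coeff m : Qb) := by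
      rw [h]; ring
    rw [h2]
    exact (isIntegral_hornerTail x q hq m).sub isIntegral_algebraMap
  have htail0 : ∀ m : ℕ, hornerTail x q m ∈ V.nonunits := by
    intro m
    cases m with
    | zero => rw [hornerTail_zero, hq]; exact V.nonunits.zero_mem
    | succ m => exact htail m
  have hcoeff : ∀ m : ℕ, ((q.coeff m : ℤ) : Qb) ∈ V.nonunits := by
    intro m
    have h := hornerTail_succ x q m
    have h2 : ((q.coeff m : ℤ) : Qb) = hornerTail x q m - x * hornerTail x q (m + 1) := by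
      rw [h]; ring
    rw [h2]
    exact V.nonunits.sub_mem (htail0 m) (mul_mem_nonunits_of_mem V hx (htail m))
  let I : Ideal ℤ := Ideal.comap (Int.castRingHom V) (IsLocalRing.maximalIdeal V)
  have hI : ∀ n : ℤ, n ∈ I ↔ (n : Qb) ∈ V.nonunits := by
    intro n
    rw [Ideal.mem_comap, ← ValuationSubring.coe_mem_nonunits_iff]
    simp
  have hItop : I ≠ ⊤ := by
    intro h
    have h1 : (1 : ℤ) ∈ I := h ▸ Submodule.mem_top
    rw [hI, ValuationSubring.mem_nonunits_iff] at h1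
    simp at h1
  obtain ⟨d, hd⟩ : ∃ d : ℤ, I = Ideal.span {d} :=
    ⟨_, (Submodule.IsPrincipal.span_singleton_generator I).symm⟩
  have hdvd : C d ∣ q := by
    rw [C_dvd_iff_dvd_coeff]
    intro i
    rw [← Ideal.mem_span_singleton, ← hd, hI]
    exact hcoeff i
  have hunit : IsUnit d := hprim d hdvd
  exact hItop (hd ▸ Ideal.span_singleton_eq_top.mpr hunit)

/-- An element of `V` which is not a nonunit has its inverse in `V`. -/
theorem inv_mem_of_not_mem_nonunits (V : ValuationSubring Qb) {u : Qb} (hu : u ∈ V)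
    (hu' : u ∉ V.nonunits) : u⁻¹ ∈ V := by
  rw [ValuationSubring.mem_nonunits_iff, not_lt] at hu'
  have h1 : V.valuation u ≤ 1 := (V.valuation_le_one_iff u).mpr hu
  have h2 : V.valuation u = 1 := le_antisymm h1 hu'
  rw [← V.valuation_le_one_iff, map_inv₀, h2, inv_one]

/-! ### The theorem -/

/-- **UNR**: the fixed field of inertia is unramified: an inertia-fixed nonunit of `P` is
divisible by `p` in `P`. -/
theorem unrProp (p : ℕ) (hp : p.Prime) (P : ValuationSubring Qb) (hP : P.LiesOverPrime p) :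
    UnrProp p P := by
  intro x hx hfix
  -- a finite Galois field `F` containing `x`
  have hxint : IsIntegral ℚ x := (isAlgebraic_Qb.isAlgebraic x).isIntegral
  let F : IntermediateField ℚ Qb := IntermediateField.adjoin ℚ ((minpoly ℚ x).rootSet Qb)
  have hfin : FiniteDimensional ℚ F := by
    have : Finite ((minpoly ℚ x).rootSet Qb) := (rootSet_finite _ _).to_subtype
    apply IntermediateField.finiteDimensional_adjoin
    intro y _
    exact (isAlgebraic_Qb.isAlgebraic y).isIntegral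
  have hnorm : Normal ℚ F := by
    have : IsSplittingField ℚ F (minpoly ℚ x) :=
      IntermediateField.adjoin_rootSet_isSplittingField (IsAlgClosed.splits _)
    exact Normal.of_isSplittingField (minpoly ℚ x)
  have hgal : IsGalois ℚ F := ⟨⟩
  have hnf : NumberField F :=
    { to_charZero := inferInstance, to_finiteDimensional := inferInstance }
  have hxF : x ∈ F := IntermediateField.subset_adjoin _ _ (by
    rw [mem_rootSet]; exact ⟨minpoly.ne_zero hxint, minpoly.aeval ℚ x⟩)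
  -- the prime of `𝓞 F` below `P`
  let φ : 𝓞 F →+* P :=
    { toFun := fun y => ⟨((y : F) : Qb), mem_valuationSubring_of_isIntegral P
        (y.isIntegral_coe.map (IsScalarTower.toAlgHom ℤ F Qb))⟩
      map_one' := rfl
      map_mul' := fun _ _ => rfl
      map_zero' := rfl
      map_add' := fun _ _ => rfl }
  let 𝔓 : Ideal (𝓞 F) := Ideal.comap φ (IsLocalRing.maximalIdeal P)
  have h𝔓prime : 𝔓.IsPrime := Ideal.comap_isPrime _ _
  have hmem𝔓 : ∀ y : 𝓞 F, y ∈ 𝔓 ↔ (((y : F) : Qb)) ∈ P.nonunits := by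
    intro y
    rw [Ideal.mem_comap, ← ValuationSubring.coe_mem_nonunits_iff]
    rfl
  -- the inertia group of `𝔓` fixes `x`
  have hfixF : ∀ s ∈ 𝔓.inertia Gal(F/ℚ), s ⟨x, hxF⟩ = ⟨x, hxF⟩ := by
    intro s hs
    obtain ⟨σ, hσI, hσs⟩ := exists_mem_inertiaSubgroupIn_restrict P p hp hP F s (by
      intro y hy
      let y' : 𝓞 F := ⟨y, hy⟩
      have h1 : s • y' - y' ∈ 𝔓 := hs y'
      have h1' := (hmem𝔓 _).mp h1
      have h2 : (((s • y' - y' : 𝓞 F) : F) : Qb) = ((s y : F) : Qb) - (y : Qb) := rfl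
      rw [h2] at h1'
      exact h1')
    apply Subtype.ext
    rw [← hσs]
    exact (AlgEquiv.restrictNormal_commutes σ F ⟨x, hxF⟩).trans (hfix σ hσI)
  -- the inertia field
  let E : IntermediateField ℚ F := FixedPoints.intermediateField (𝔓.inertia Gal(F/ℚ))
  have hxE : (⟨x, hxF⟩ : F) ∈ E := fun g => hfixF g.1 g.2
  have he : (𝔓.under (𝓞 E)).ramificationIdx ℤ = 1 := ramificationIdx_under_inertiaField F 𝔓
  let 𝔭 : Ideal (𝓞 E) := 𝔓.under (𝓞 E)
  have h𝔭prime : 𝔭.IsPrime := inferInstance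
  -- the embedding of `𝓞 E` into `ℚ̄`
  let ι : 𝓞 E →+* Qb := (algebraMap F Qb).comp ((algebraMap E F).comp (algebraMap (𝓞 E) E))
  have hιint : ∀ y : 𝓞 E, IsIntegral ℤ (ι y) := by
    intro y
    have h1 : IsIntegral ℤ (y : E) := y.isIntegral_coe
    have h2 : IsIntegral ℤ ((y : E) : F) := h1.map (IsScalarTower.toAlgHom ℤ E F)
    exact h2.map (IsScalarTower.toAlgHom ℤ F Qb)
  have hιP : ∀ y : 𝓞 E, ι y ∈ P := fun y => mem_valuationSubring_of_isIntegral P (hιint y)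
  have hι𝔭 : ∀ y : 𝓞 E, y ∈ 𝔭 ↔ ι y ∈ P.nonunits := by
    intro y
    show algebraMap (𝓞 E) (𝓞 F) y ∈ 𝔓 ↔ _
    rw [hmem𝔓]
    rfl
  have hιsurj : ∀ z : Qb, z ∈ E.map F.val → IsIntegral ℤ z → ∃ y : 𝓞 E, ι y = z := by
    rintro z ⟨zF, hzE, rfl⟩ hz
    have h1 : IsIntegral ℤ zF :=
      (isIntegral_algebraMap_iff (FaithfulSMul.algebraMap_injective F Qb)).mp hz
    have h2 : IsIntegral ℤ (⟨zF, hzE⟩ : E) :=
      (isIntegral_algebraMap_iff (FaithfulSMul.algebraMap_injective E F)).mp h1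
    exact ⟨⟨⟨zF, hzE⟩, h2⟩, rfl⟩
  -- `x = a / s`
  have hxP : x ∈ P := P.nonunits_subset hx
  have hxE' : x ∈ E.map F.val := ⟨⟨x, hxF⟩, hxE, rfl⟩
  obtain ⟨s, hsE, hsint, hsunit, hsxint⟩ := exists_integral_mul_mem P (E.map F.val) x hxP hxE'
  have hsP : s ∈ P := mem_valuationSubring_of_isIntegral P hsint
  obtain ⟨aE, haE⟩ := hιsurj (s * x) (mul_mem hsE hxE') hsxint
  have ha𝔭 : aE ∈ 𝔭 := by
    rw [hι𝔭, haE]
    exact mul_mem_nonunits_of_mem P hsP hx
  -- `p 𝓞_E = 𝔭 Q`, `Q ⊄ 𝔭`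
  have hqmax : (Ideal.span {(p : ℤ)}).IsMaximal :=
    PrincipalIdealRing.isMaximal_of_irreducible (Nat.prime_iff_prime_int.mp hp).irreducible
  have hp𝔭 : ((p : ℕ) : 𝓞 E) ∈ 𝔭 := by
    rw [hι𝔭]
    have : ι ((p : ℕ) : 𝓞 E) = (p : Qb) := by simp
    rw [this]
    exact hP
  have hunder : 𝔭.under ℤ = Ideal.span {(p : ℤ)} := by
    symm
    apply hqmax.eq_of_le (Ideal.IsPrime.ne_top inferInstance)
    rw [Ideal.span_singleton_le_iff_mem, Ideal.under, Ideal.mem_comap]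
    simpa using hp𝔭
  have hlies : 𝔭.LiesOver (Ideal.span {(p : ℤ)}) := ⟨hunder.symm⟩
  have hmap : (Ideal.span {(p : ℤ)}).map (algebraMap ℤ (𝓞 E)) = Ideal.span {((p : ℕ) : 𝓞 E)} := by
    rw [Ideal.map_span, Set.image_singleton]
    simp
  have hpE0 : ((p : ℕ) : 𝓞 E) ≠ 0 := by
    exact_mod_cast hp.ne_zero
  have hp0 : (Ideal.span {(p : ℤ)}).map (algebraMap ℤ (𝓞 E)) ≠ ⊥ := by
    rw [hmap, Ne, Ideal.span_singleton_eq_bot]
    exact hpE0
  have h𝔭0 : 𝔭 ≠ ⊥ := by
    intro h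
    rw [h, Ideal.mem_bot] at hp𝔭
    exact hpE0 hp𝔭
  have h𝔭max : 𝔭.IsMaximal := h𝔭prime.isMaximal h𝔭0
  have hcount := Ideal.IsDedekindDomain.ramificationIdx_eq_normalizedFactors_count
    (Ideal.span {(p : ℤ)}) 𝔭 hp0
  obtain ⟨Q, hQ, hfac⟩ := Ideal.eq_prime_pow_mul_coprime hp0 𝔭
  rw [← hcount, he, pow_one, hmap] at hfac
  obtain ⟨t, htQ, ht𝔭⟩ : ∃ t ∈ Q, t ∉ 𝔭 := by
    by_contra hcon
    push Not at hcon
    have hle : Q ≤ 𝔭 := hcon
    rw [sup_of_le_left hle] at hQ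
    exact h𝔭prime.ne_top hQ
  have hmem : aE * t ∈ Ideal.span {((p : ℕ) : 𝓞 E)} := by
    rw [hfac]
    exact Ideal.mul_mem_mul ha𝔭 htQ
  rw [Ideal.mem_span_singleton'] at hmem
  obtain ⟨b, hb⟩ := hmem
  -- conclusion
  have hb' : ι b * (p : Qb) = s * x * ι t := by
    have h := congrArg ι hb
    rw [map_mul, map_mul, haE] at h
    rw [← h]
    simp
  have htunit : ι t ∉ P.nonunits := fun h => ht𝔭 ((hι𝔭 t).mpr h)
  have hs0 : s ≠ 0 := fun h => hsunit (h ▸ P.nonunits.zero_mem)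
  have ht0 : ι t ≠ 0 := fun h => htunit (h ▸ P.nonunits.zero_mem)
  have hpQ0 : (p : Qb) ≠ 0 := by exact_mod_cast hp.ne_zero
  have hfinal : x / (p : Qb) = ι b * (ι t)⁻¹ * s⁻¹ := by
    field_simp
    rw [mul_comm (p : Qb), hb']
    ring
  rw [hfinal]
  exact P.mul_mem _ _ (P.mul_mem _ _ (hιP b) (inv_mem_of_not_mem_nonunits P (hιP t) htunit))
    (inv_mem_of_not_mem_nonunits P hsP hsunit)

end Fermat.Agent.FFL
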