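/-
Lib/FFL, seat FFL-QUOT (helper44): the translation-invariant part of a comultiplication-closed
span over a PID is comultiplication-closed.

`R` a PID, `L` a field containing `R`, `e : ι → (W → L)` a finite `L`-linearly independent family
of functions, `H` its `R`-span.  If `H` is `ComulClosed` then so is
`{f ∈ H | TransInv V₁ f}` for every set `V₁ ⊆ W`.

Proof: the invariant part `B₁` is saturated in `H`, so there is a retraction `ρ : H → B₁`
(`Lib/FlatMod/Summand`).  For `f ∈ B₁` write `f (w + w') = ∑ᵢ gᵢ w * hᵢ w'`, expand the `hᵢ` in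
the `e_k`: `f (w + w') = ∑_k G_k w * e_k w'`; invariance in `w` and independence of the `e_k`
give `G_k ∈ B₁`.  Expand `G_k = ∑_j c j k • e_j`: `f (w + w') = ∑_j e_j w * F_j w'`, and
`F_j ∈ B₁` in the same way.  Finally `G_k = ρ G_k = ∑_j c j k • ρ e_j`, so
`f (w + w') = ∑_j (ρ e_j) w * F_j w'`.
-/
import Fermat.Agent.Lib.FFL.Defs
import Fermat.Agent.Lib.FlatMod.Summand

set_option autoImplicit false

namespace Fermat.Agent.FFL

open Fermat.Agent.FlatMod

section Quot

variable {R L W ι : Type*} [CommRing R] [Field L] [Algebra R L] [AddCommSemigroup W]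

/-- translation-invariant functions form an `R`-submodule. -/
def transInvSub (R : Type*) {L W : Type*} [CommRing R] [Field L] [Algebra R L] [Add W]
    (V₁ : Set W) : Submodule R (W → L) where
  carrier := {f | TransInv V₁ f}
  add_mem' := fun {f g} hf hg v w hw => by
    show f (v + w) + g (v + w) = f v + g v
    rw [hf v w hw, hg v w hw]
  zero_mem' := fun _ _ _ => rfl
  smul_mem' := fun r f hf v w hw => by
    show r • f (v + w) = r • f v
    rw [hf v w hw]

theorem mem_transInvSub {V₁ : Set W} {f : W → L} :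
    f ∈ transInvSub R V₁ ↔ TransInv V₁ f := Iff.rfl

/-- the translation-invariant part is saturated. -/
theorem transInv_of_smul [FaithfulSMul R L] {V₁ : Set W} {r : R} (hr : r ≠ 0) {f : W → L}
    (h : TransInv V₁ (r • f)) : TransInv V₁ f := by
  intro v w hw
  have h1 : r • f (v + w) = r • f v := h v w hw
  rw [Algebra.smul_def, Algebra.smul_def] at h1
  have h2 : algebraMap R L r ≠ 0 := by
    intro h0
    exact hr ((FaithfulSMul.algebraMap_injective R L) (h0.trans (map_zero _).symm))
  exact mul_left_cancel₀ h2 h1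

omit [AddCommSemigroup W] in
/-- coefficients of a linear combination of an independent family of functions which vanishes
identically. -/
theorem coeff_eq_zero_of_sum_mul_eq_zero [Fintype ι] {e : ι → W → L}
    (hli : LinearIndependent L e) (a : ι → L) (h : ∀ w : W, ∑ k, a k * e k w = 0) (k : ι) :
    a k = 0 := by
  have h1 : ∑ k, a k • e k = 0 := by
    funext w
    rw [Finset.sum_apply]
    simpa [Pi.smul_apply, smul_eq_mul] using h w
  exact (Fintype.linearIndependent_iff.mp hli) a h1 k

/-- **FFL-QUOT**. -/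
theorem comulClosed_transInv [IsDomain R] [IsPrincipalIdealRing R] [FaithfulSMul R L]
    [Finite ι] (e : ι → W → L) (hli : LinearIndependent L e)
    (hcl : ComulClosed ((Submodule.span R (Set.range e) : Submodule R (W → L)) : Set (W → L)))
    (V₁ : Set W) :
    ComulClosed {f : W → L | f ∈ Submodule.span R (Set.range e) ∧ TransInv V₁ f} := by
  classical
  have := Fintype.ofFinite ι
  set H : Submodule R (W → L) := Submodule.span R (Set.range e) with hH
  have hfin : Module.Finite R H :=
    Module.Finite.span_of_finite R (Set.finite_range e)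
  -- the invariant part, as a submodule of `H`
  let B₁ : Submodule R H := (transInvSub R V₁).comap H.subtype
  have hsat : ∀ (r : R) (x : H), r ≠ 0 → r • x ∈ B₁ → x ∈ B₁ := by
    intro r x hr hx
    exact transInv_of_smul hr (f := (x : W → L)) hx
  obtain ⟨ρ, hρ⟩ := exists_retraction_of_saturated B₁ hsat
  have heH : ∀ j, e j ∈ H := fun j => Submodule.subset_span ⟨j, rfl⟩
  intro f hf
  obtain ⟨hfH, hfinv⟩ := hf
  obtain ⟨n, g, h, hg, hh, hgh⟩ := hcl f hfH
  -- expand the `h i`
  have hexp : ∀ i, ∃ a : ι → R, h i = ∑ k, a k • e k := by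
    intro i
    obtain ⟨a, ha⟩ := (Submodule.mem_span_range_iff_exists_fun R).mp (hh i)
    exact ⟨a, ha.symm⟩
  choose a ha using hexp
  let G : ι → W → L := fun k => ∑ i, a i k • g i
  have hGH : ∀ k, G k ∈ H := fun k =>
    Submodule.sum_mem _ fun i _ => Submodule.smul_mem _ _ (hg i)
  have hG : ∀ w w' : W, f (w + w') = ∑ k, G k w * e k w' := by
    intro w w'
    rw [hgh]
    have h1 : ∀ i, g i w * h i w' = ∑ k, (a i k • g i) w * e k w' := by
      intro i
      rw [ha i, Finset.sum_apply, Finset.mul_sum]
      refine Finset.sum_congr rfl fun k _ => ?_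
      simp only [Pi.smul_apply, Algebra.smul_def]
      ring
    simp only [h1]
    rw [Finset.sum_comm]
    refine Finset.sum_congr rfl fun k _ => ?_
    simp only [G, Finset.sum_apply, Finset.sum_mul]
  have hGinv : ∀ k, TransInv V₁ (G k) := by
    intro k v w hw
    have h1 : ∀ w' : W, ∑ k, (G k (v + w) - G k v) * e k w' = 0 := by
      intro w'
      simp only [sub_mul, Finset.sum_sub_distrib]
      rw [← hG, ← hG, sub_eq_zero]
      have : v + w + w' = (v + w') + w := by
        rw [add_assoc, add_comm w w', ← add_assoc]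
      rw [this]
      exact hfinv _ w hw
    exact sub_eq_zero.mp
      (coeff_eq_zero_of_sum_mul_eq_zero hli (fun k => G k (v + w) - G k v) h1 k)
  -- expand the `G k`
  have hexp2 : ∀ k, ∃ c : ι → R, G k = ∑ j, c j • e j := by
    intro k
    obtain ⟨c, hc⟩ := (Submodule.mem_span_range_iff_exists_fun R).mp (hGH k)
    exact ⟨c, hc.symm⟩
  choose c hc using hexp2
  -- `c k j` is the coefficient of `e j` in `G k`
  let F : ι → W → L := fun j => ∑ k, c k j • e k
  have hFH : ∀ j, F j ∈ H := fun j =>
    Submodule.sum_mem _ fun k _ => Submodule.smul_mem _ _ (heH k)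
  have hF : ∀ w w' : W, f (w + w') = ∑ j, e j w * F j w' := by
    intro w w'
    rw [hG]
    have h1 : ∀ k, G k w * e k w' = ∑ j, e j w * (c k j • e k) w' := by
      intro k
      rw [hc k, Finset.sum_apply, Finset.sum_mul]
      refine Finset.sum_congr rfl fun j _ => ?_
      simp only [Pi.smul_apply, Algebra.smul_def]
      ring
    simp only [h1]
    rw [Finset.sum_comm]
    refine Finset.sum_congr rfl fun j _ => ?_
    simp only [F, Finset.sum_apply, Finset.mul_sum]
  have hFinv : ∀ j, TransInv V₁ (F j) := by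
    intro j v w hw
    have h1 : ∀ w' : W, ∑ j, (F j (v + w) - F j v) * e j w' = 0 := by
      intro w'
      have h2 : ∀ j, (F j (v + w) - F j v) * e j w' =
          e j w' * F j (v + w) - e j w' * F j v := fun j => by ring
      simp only [h2, Finset.sum_sub_distrib]
      rw [← hF, ← hF, sub_eq_zero]
      have : w' + (v + w) = (w' + v) + w := by rw [add_assoc]
      rw [this]
      exact hfinv _ w hw
    exact sub_eq_zero.mp
      (coeff_eq_zero_of_sum_mul_eq_zero hli (fun j => F j (v + w) - F j v) h1 j)
  -- the retraction applied to the `e j`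
  let E : ι → W → L := fun j => ((ρ ⟨e j, heH j⟩ : B₁) : H)
  have hEmem : ∀ j, E j ∈ H ∧ TransInv V₁ (E j) := fun j =>
    ⟨((ρ ⟨e j, heH j⟩ : B₁) : H).2, (ρ ⟨e j, heH j⟩ : B₁).2⟩
  have hGE : ∀ k, G k = ∑ j, c k j • E j := by
    intro k
    have hmem : (⟨G k, hGH k⟩ : H) ∈ B₁ := hGinv k
    have h1 : ρ ⟨G k, hGH k⟩ = ⟨⟨G k, hGH k⟩, hmem⟩ := hρ ⟨⟨G k, hGH k⟩, hmem⟩
    have h2 : (⟨G k, hGH k⟩ : H) = ∑ j, c k j • (⟨e j, heH j⟩ : H) := by
      apply Subtype.ext
      rw [Submodule.coe_sum]
      exact hc k
    have h3 : ρ ⟨G k, hGH k⟩ = ∑ j, c k j • ρ ⟨e j, heH j⟩ := by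
      rw [h2, map_sum]
      simp only [map_smul]
    have h4 := congrArg (fun x : B₁ => ((x : H) : W → L)) (h1.symm.trans h3)
    simp only [Submodule.coe_sum, Submodule.coe_smul] at h4
    exact h4
  have hfinal : ∀ w w' : W, f (w + w') = ∑ j, E j w * F j w' := by
    intro w w'
    rw [hG]
    have h1 : ∀ k, G k w * e k w' = ∑ j, E j w * (c k j • e k) w' := by
      intro k
      rw [hGE k, Finset.sum_apply, Finset.sum_mul]
      refine Finset.sum_congr rfl fun j _ => ?_
      simp only [Pi.smul_apply, Algebra.smul_def]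
      ring
    simp only [h1]
    rw [Finset.sum_comm]
    refine Finset.sum_congr rfl fun j _ => ?_
    simp only [F, Finset.sum_apply, Finset.mul_sum]
  -- reindex by `Fin`
  let eqv := Fintype.equivFin ι
  refine ⟨Fintype.card ι, fun i => E (eqv.symm i), fun i => F (eqv.symm i),
    fun i => hEmem _, fun i => ⟨hFH _, hFinv _⟩, fun w w' => ?_⟩
  rw [hfinal]
  exact (Equiv.sum_comp eqv.symm (fun j => E j w * F j w')).symm

/-- **FFL-QUOT** for a subring `R` of the field `L` (the form used for `R = inertiaRing P`). -/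
theorem comulClosed_transInv_subring {L W ι : Type*} [Field L] [AddCommSemigroup W]
    (R : Subring L) [IsPrincipalIdealRing R] [Finite ι] (e : ι → W → L)
    (hli : LinearIndependent L e)
    (hcl : ComulClosed ((Submodule.span R (Set.range e) : Submodule R (W → L)) : Set (W → L)))
    (V₁ : Set W) :
    ComulClosed {f : W → L | f ∈ Submodule.span R (Set.range e) ∧ TransInv V₁ f} :=
  comulClosed_transInv e hli hcl V₁

end Quot

end Fermat.Agent.FFL
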