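/-
Lib/FFL seat FFL-SPAN (helper41): the `R'`-span `B` of a Hopf order `O.alg`, `R' = inertiaRing P`.

* `spanFun O i` : the functions of a `ℤ_(p)`-basis of `O.alg`; `spanFun_linearIndependent`:
  they are `ℚ̄`-linearly independent; `spanFun_span_eq_top`: they span all functions `W → ℚ̄`.
* `spanB P O` : the `R'`-span of `O.alg`, a submodule of `W → ℚ̄` over `inertiaRing P`;
  `mem_spanB_iff` : its elements are the `R'`-combinations of the `spanFun O i`.
* `spanB_comulClosed`, `spanB_equiv` (inertia-equivariance), `spanB_mem` (values in `P`).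
* `spanB_full` : every inertia-equivariant function has a `p`-power multiple in `spanB`
  (from `DvdProp`); `spanB_full_indicator` : uniform version for the indicator functions of the
  cosets of a subgroup `V₁` containing all `act σ w - w`, `σ` in inertia.
-/
import Fermat.Agent.Lib.FFL.Defs
import Fermat.Agent.Lib.FF.PlacesQbar

set_option autoImplicit false
set_option linter.style.haveILetI false

namespace Fermat.Agent.FFL

open Fermat.Agent.FlatMod GaloisRep TensorProduct

local notation "Kb" => AlgebraicClosure ℚ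
local notation "GK" => (AlgebraicClosure ℚ ≃ₐ[ℚ] AlgebraicClosure ℚ)

/-! ### Sums of products -/

section ComulSum

variable {L : Type*} [CommSemiring L] {W : Type*}

/-- `F w w' = ∑ i, g i w * h i w'` with `g i, h i ∈ B`. -/
def IsComulSum (B : Set (W → L)) (F : W → W → L) : Prop :=
  ∃ (n : ℕ) (g h : Fin n → (W → L)), (∀ i, g i ∈ B) ∧ (∀ i, h i ∈ B) ∧
    ∀ w w' : W, F w w' = ∑ i, g i w * h i w'

theorem IsComulSum.zero (B : Set (W → L)) : IsComulSum B (fun _ _ => (0 : L)) :=
  ⟨0, Fin.elim0, Fin.elim0, fun i => i.elim0, fun i => i.elim0, fun _ _ => by simp⟩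

theorem IsComulSum.single {B : Set (W → L)} {g h : W → L} (hg : g ∈ B) (hh : h ∈ B) :
    IsComulSum B (fun w w' => g w * h w') :=
  ⟨1, fun _ => g, fun _ => h, fun _ => hg, fun _ => hh, fun _ _ => by simp⟩

theorem IsComulSum.add {B : Set (W → L)} {F G : W → W → L} (hF : IsComulSum B F)
    (hG : IsComulSum B G) : IsComulSum B (fun w w' => F w w' + G w w') := by
  obtain ⟨n, g, h, hg, hh, hF⟩ := hF
  obtain ⟨m, g', h', hg', hh', hG⟩ := hG
  refine ⟨n + m, Fin.append g g', Fin.append h h', ?_, ?_, fun w w' => ?_⟩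
  · intro i
    refine Fin.addCases (fun j => ?_) (fun j => ?_) i
    · rw [Fin.append_left]; exact hg j
    · rw [Fin.append_right]; exact hg' j
  · intro i
    refine Fin.addCases (fun j => ?_) (fun j => ?_) i
    · rw [Fin.append_left]; exact hh j
    · rw [Fin.append_right]; exact hh' j
  · show F w w' + G w w' = _
    rw [Fin.sum_univ_add, hF, hG]
    simp only [Fin.append_left, Fin.append_right]

theorem IsComulSum.congr {B : Set (W → L)} {F G : W → W → L} (hF : IsComulSum B F)
    (h : ∀ w w', G w w' = F w w') : IsComulSum B G := by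
  obtain ⟨n, g, h', hg, hh, hF⟩ := hF
  exact ⟨n, g, h', hg, hh, fun w w' => by rw [h, hF]⟩

theorem IsComulSum.mono {B B' : Set (W → L)} (hBB' : B ⊆ B') {F : W → W → L}
    (hF : IsComulSum B F) : IsComulSum B' F := by
  obtain ⟨n, g, h, hg, hh, hF⟩ := hF
  exact ⟨n, g, h, fun i => hBB' (hg i), fun i => hBB' (hh i), hF⟩

theorem comulClosed_iff [Add W] (B : Set (W → L)) :
    ComulClosed B ↔ ∀ f ∈ B, IsComulSum B (fun w w' => f (w + w')) := Iff.rfl

end ComulSum

variable {p : ℕ} {W : Type*} [AddCommGroup W] {act : GK → W → W}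

/-! ### The Hopf order itself is comultiplication-closed (explicit form) -/

theorem isComulSum_tmulFun (O : HopfOrder p W act) (z : O.alg ⊗[ratLocalizedAt p] O.alg) :
    IsComulSum (O.alg : Set (W → Kb)) (fun w w' => tmulFun (O.ev w) (O.ev w') z) := by
  induction z with
  | zero => exact (IsComulSum.zero _).congr (fun w w' => by simp)
  | tmul x y =>
    exact (IsComulSum.single x.2 y.2).congr (fun w w' => by simp)
  | add x y hx hy =>
    exact (hx.add hy).congr (fun w w' => by simp)

theorem hopfOrder_comulClosed (O : HopfOrder p W act) : ComulClosed (O.alg : Set (W → Kb)) := by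
  intro f hf
  obtain ⟨z, hz⟩ := O.add f hf
  exact (isComulSum_tmulFun O z).congr (fun w w' => (hz w w').symm)

/-! ### The action on the points of a Hopf order -/

theorem hopfOrder_act_mul (O : HopfOrder p W act) (σ τ : GK) (w : W) :
    act (σ * τ) w = act σ (act τ w) := by
  apply O.sep
  intro h hh
  rw [O.equiv h hh, O.equiv h hh, O.equiv h hh]
  rfl

theorem hopfOrder_act_one (O : HopfOrder p W act) (w : W) : act 1 w = w := by
  apply O.sep
  intro h hh
  rw [O.equiv h hh]
  rfl

theorem hopfOrder_act_inv_cancel (O : HopfOrder p W act) (σ : GK) (w : W) :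
    act σ (act σ⁻¹ w) = w := by
  rw [← hopfOrder_act_mul O, mul_inv_cancel, hopfOrder_act_one O]

/-! ### The basis functions -/

section Basis

variable [Fact p.Prime] (O : HopfOrder p W act)

/-- The index type of the chosen `ℤ_(p)`-basis of `O.alg`. -/
abbrev SpanIdx : Type _ := Module.Free.ChooseBasisIndex (ratLocalizedAt p) O.alg

/-- The chosen `ℤ_(p)`-basis of `O.alg`. -/
noncomputable def spanBasis : Module.Basis (SpanIdx O) (ratLocalizedAt p) O.alg :=
  Module.Free.chooseBasis (ratLocalizedAt p) O.alg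

/-- The functions of the chosen basis. -/
noncomputable def spanFun (i : SpanIdx O) : W → Kb := ((spanBasis O i : O.alg) : W → Kb)

theorem spanFun_mem (i : SpanIdx O) : spanFun O i ∈ O.alg := (spanBasis O i).2

/-- The basis functions are `ℚ̄`-linearly independent. -/
theorem spanFun_linearIndependent : LinearIndependent Kb (spanFun O) := by
  rw [Fintype.linearIndependent_iff]
  intro c hc i
  have h := kl_coord (spanBasis O) O.ev O.ev_gal O.sep1 c (fun w => by
    have h1 := congrFun hc w
    simpa [spanFun, Finset.sum_apply] using h1)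
  exact congrFun h i

theorem card_spanIdx [Fintype W] : Fintype.card (SpanIdx O) = Fintype.card W := by
  classical
  haveI : Finite (O.alg →ₐ[ratLocalizedAt p] Kb) := finite_algHom
  letI : Fintype (O.alg →ₐ[ratLocalizedAt p] Kb) := Fintype.ofFinite _
  have h1 : Fintype.card (O.alg →ₐ[ratLocalizedAt p] Kb) ≤
      Module.finrank (ratLocalizedAt p) O.alg := card_algHom_le
  have h2 : Fintype.card (SpanIdx O) ≤ Fintype.card W :=
    card_basis_le (spanBasis O) O.ev O.ev_gal O.sep1
  have h3 : Fintype.card W ≤ Fintype.card (O.alg →ₐ[ratLocalizedAt p] Kb) :=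
    Fintype.card_le_of_injective _ O.evPt_injective
  rw [Module.finrank_eq_card_chooseBasisIndex] at h1
  exact le_antisymm h2 (h3.trans h1)

/-- The basis functions span all functions over `ℚ̄`. -/
theorem spanFun_span_eq_top : Submodule.span Kb (Set.range (spanFun O)) = ⊤ := by
  classical
  haveI : Finite W := O.finite_W
  letI : Fintype W := Fintype.ofFinite _
  refine (spanFun_linearIndependent O).span_eq_top_of_card_eq_finrank' ?_
  rw [Module.finrank_fintype_fun_eq_card, card_spanIdx]

/-- Every function is a `ℚ̄`-combination of the basis functions. -/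
theorem exists_coeff (f : W → Kb) : ∃ a : SpanIdx O → Kb, f = ∑ i, a i • spanFun O i := by
  have h : f ∈ Submodule.span Kb (Set.range (spanFun O)) := by
    rw [spanFun_span_eq_top]; trivial
  obtain ⟨a, ha⟩ := (Submodule.mem_span_range_iff_exists_fun Kb).1 h
  exact ⟨a, ha.symm⟩

end Basis

/-! ### The `R'`-span -/

/-- The `R'`-span of a Hopf order, `R' = inertiaRing P`. -/
noncomputable def spanB (P : ValuationSubring Kb) (O : HopfOrder p W act) :
    Submodule (inertiaRing P) (W → Kb) :=
  Submodule.span (inertiaRing P) (O.alg : Set (W → Kb))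

theorem subset_spanB (P : ValuationSubring Kb) (O : HopfOrder p W act) :
    (O.alg : Set (W → Kb)) ⊆ spanB P O := Submodule.subset_span

theorem smul_mem_spanB (P : ValuationSubring Kb) (O : HopfOrder p W act) {a : Kb}
    (ha : a ∈ inertiaRing P) {f : W → Kb} (hf : f ∈ spanB P O) :
    (fun w => a * f w) ∈ spanB P O :=
  (spanB P O).smul_mem ⟨a, ha⟩ hf

/-- The `R'`-span is comultiplication-closed. -/
theorem spanB_comulClosed (P : ValuationSubring Kb) (O : HopfOrder p W act) :
    ComulClosed ((spanB P O : Submodule (inertiaRing P) (W → Kb)) : Set (W → Kb)) := by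
  intro f hf
  show IsComulSum _ (fun w w' => f (w + w'))
  induction hf using Submodule.span_induction with
  | mem h hh =>
    have h1 : IsComulSum (O.alg : Set (W → Kb)) (fun w w' => h (w + w')) :=
      hopfOrder_comulClosed O h hh
    exact h1.mono (subset_spanB P O)
  | zero => exact (IsComulSum.zero _).congr (fun _ _ => rfl)
  | add f g _ _ hf hg => exact (hf.add hg).congr (fun _ _ => rfl)
  | smul a f hf' hf =>
    obtain ⟨n, g, h, hg, hh, hgh⟩ := hf
    refine ⟨n, fun i w => (a : Kb) * g i w, h, fun i => smul_mem_spanB P O a.2 (hg i), hh,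
      fun w w' => ?_⟩
    have hgh' : f (w + w') = ∑ i, g i w * h i w' := hgh w w'
    show (a : Kb) * f (w + w') = _
    rw [hgh', Finset.mul_sum]
    exact Finset.sum_congr rfl (fun i _ => (mul_assoc _ _ _).symm)

/-- The elements of the `R'`-span are inertia-equivariant. -/
theorem spanB_equiv (P : ValuationSubring Kb) (O : HopfOrder p W act) {f : W → Kb}
    (hf : f ∈ spanB P O) (σ : GK) (hσ : σ ∈ P.inertiaSubgroupIn ℚ) (w : W) :
    f (act σ w) = σ (f w) := by
  induction hf using Submodule.span_induction with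
  | mem h hh => exact O.equiv h hh σ w
  | zero => simp
  | add f g _ _ hf hg =>
    show f (act σ w) + g (act σ w) = σ (f w + g w)
    rw [hf, hg, map_add]
  | smul a f _ hf =>
    show (a : Kb) * f (act σ w) = σ ((a : Kb) * f w)
    rw [hf, map_mul, a.2.2 σ hσ]

/-- The values of the elements of the `R'`-span are in `P`. -/
theorem spanB_mem [Fact p.Prime] (P : ValuationSubring Kb) (hP : P.LiesOverPrime p)
    (O : HopfOrder p W act) {f : W → Kb} (hf : f ∈ spanB P O) (w : W) : f w ∈ P := by
  induction hf using Submodule.span_induction with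
  | mem h hh =>
    have h1 : IsIntegral (ratLocalizedAt p) (⟨h, hh⟩ : O.alg) := Algebra.IsIntegral.isIntegral _
    exact Fermat.Agent.FF.pl_mem_of_isIntegral P hP (h1.map (evPt O.alg w))
  | zero => exact P.zero_mem
  | add f g _ _ hf hg => exact P.add_mem _ _ hf hg
  | smul a f _ hf => exact P.mul_mem _ _ a.2.1 hf

/-- `ℤ_(p) ⊆ R'`. -/
theorem algebraMap_mem_inertiaRing (P : ValuationSubring Kb) (hP : P.LiesOverPrime p)
    (r : ratLocalizedAt p) : algebraMap (ratLocalizedAt p) Kb r ∈ inertiaRing P := by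
  rw [ratLoc_algebraMap_Kb]
  exact ⟨Fermat.Agent.FF.pl_ratLoc_mem P hP r.2, fun σ _ => σ.commutes _⟩

theorem natCast_mem_inertiaRing (P : ValuationSubring Kb) (n : ℕ) :
    (n : Kb) ∈ inertiaRing P := natCast_mem _ n

/-- The `R'`-span of `O.alg` is the `R'`-span of the basis functions. -/
theorem spanB_eq_span_range [Fact p.Prime] (P : ValuationSubring Kb) (hP : P.LiesOverPrime p)
    (O : HopfOrder p W act) :
    spanB P O = Submodule.span (inertiaRing P) (Set.range (spanFun O)) := by
  apply le_antisymm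
  · refine Submodule.span_le.2 (fun h hh => ?_)
    have h1 : (⟨h, hh⟩ : O.alg) = ∑ i, (spanBasis O).repr ⟨h, hh⟩ i • spanBasis O i :=
      ((spanBasis O).sum_repr _).symm
    have h2 : h = ∑ i, (⟨_, algebraMap_mem_inertiaRing P hP ((spanBasis O).repr ⟨h, hh⟩ i)⟩ :
        inertiaRing P) • spanFun O i := by
      have h3 := congrArg (fun x : O.alg => (x : W → Kb)) h1
      simp only [AddSubmonoidClass.coe_finsetSum] at h3
      refine h3.trans (Finset.sum_congr rfl (fun i _ => ?_))
      funext w
      simp only [spanFun, Algebra.smul_def, Pi.smul_apply]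
      rfl
    rw [h2]
    exact Submodule.sum_mem _ (fun i _ => Submodule.smul_mem _ _ (Submodule.subset_span ⟨i, rfl⟩))
  · refine Submodule.span_le.2 ?_
    rintro _ ⟨i, rfl⟩
    exact subset_spanB P O (spanFun_mem O i)

/-- The `R'`-span of the basis functions is comultiplication-closed (the hypothesis `hcl` of
`comulClosed_transInv_subring`, Lib/FFL/Quot.lean, with `e = spanFun O`). -/
theorem span_range_comulClosed [Fact p.Prime] (P : ValuationSubring Kb) (hP : P.LiesOverPrime p)
    (O : HopfOrder p W act) :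
    ComulClosed ((Submodule.span (inertiaRing P) (Set.range (spanFun O)) :
      Submodule (inertiaRing P) (W → Kb)) : Set (W → Kb)) := by
  rw [← spanB_eq_span_range P hP O]
  exact spanB_comulClosed P O

/-- The elements of the `R'`-span are the `R'`-combinations of the basis functions. -/
theorem mem_spanB_iff [Fact p.Prime] (P : ValuationSubring Kb) (hP : P.LiesOverPrime p)
    (O : HopfOrder p W act) (f : W → Kb) :
    f ∈ spanB P O ↔ ∃ a : SpanIdx O → Kb, (∀ i, a i ∈ inertiaRing P) ∧
      f = ∑ i, a i • spanFun O i := by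
  rw [spanB_eq_span_range P hP O, Submodule.mem_span_range_iff_exists_fun]
  constructor
  · rintro ⟨c, rfl⟩
    exact ⟨fun i => (c i : Kb), fun i => (c i).2, rfl⟩
  · rintro ⟨a, ha, rfl⟩
    exact ⟨fun i => ⟨a i, ha i⟩, rfl⟩

/-! ### FULL: inertia-equivariant functions have a `p`-power multiple in the span -/

/-- The coefficients of a `σ`-equivariant function with respect to the basis functions are
`σ`-fixed. -/
theorem coeff_fixed [Fact p.Prime] (O : HopfOrder p W act) (a : SpanIdx O → Kb) (σ : GK)
    (hf : ∀ w, (∑ i, a i • spanFun O i) (act σ w) = σ ((∑ i, a i • spanFun O i) w))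
    (i : SpanIdx O) : σ (a i) = a i := by
  have h1 : ∑ i, (σ (a i) - a i) • spanFun O i = 0 := by
    funext w'
    have h2 := hf (act σ⁻¹ w')
    rw [hopfOrder_act_inv_cancel O] at h2
    simp only [Finset.sum_apply, Pi.smul_apply, smul_eq_mul, map_sum, map_mul] at h2 ⊢
    have h3 : ∀ i, σ (spanFun O i (act σ⁻¹ w')) = spanFun O i w' := by
      intro i
      rw [← O.equiv _ (spanFun_mem O i), hopfOrder_act_inv_cancel O]
    simp only [h3] at h2
    simp only [sub_mul, Finset.sum_sub_distrib, Pi.zero_apply]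
    rw [← h2, sub_self]
  have h4 := (Fintype.linearIndependent_iff.1 (spanFun_linearIndependent O)) _ h1 i
  exact sub_eq_zero.1 h4

/-- From `DvdProp`: every element has a `p`-power multiple in `P`. -/
theorem exists_pow_mul_mem (P : ValuationSubring Kb) (hdvd : DvdProp p P) (a : Kb) :
    ∃ m : ℕ, ∀ n, m ≤ n → (p : Kb) ^ n * a ∈ P := by
  by_cases ha : a = 0
  · exact ⟨0, fun n _ => by rw [ha, mul_zero]; exact P.zero_mem⟩
  · obtain ⟨m, hm⟩ := hdvd a⁻¹ (inv_ne_zero ha)
    refine ⟨m, fun n hn => ?_⟩
    have h1 : (p : Kb) ^ n * a = (p : Kb) ^ (n - m) * ((p : Kb) ^ m / a⁻¹) := by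
      rw [div_inv_eq_mul, ← mul_assoc, ← pow_add, Nat.sub_add_cancel hn]
    rw [h1]
    exact P.mul_mem _ _ (pow_mem (natCast_mem P p) _) hm

/-- **FULL**: an inertia-equivariant function has a `p`-power multiple in the `R'`-span. -/
theorem spanB_full [Fact p.Prime] (P : ValuationSubring Kb) (hP : P.LiesOverPrime p)
    (hdvd : DvdProp p P) (O : HopfOrder p W act) (f : W → Kb)
    (hf : ∀ σ ∈ P.inertiaSubgroupIn ℚ, ∀ w, f (act σ w) = σ (f w)) :
    ∃ N : ℕ, ∀ n, N ≤ n → (fun w => (p : Kb) ^ n * f w) ∈ spanB P O := by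
  classical
  obtain ⟨a, rfl⟩ := exists_coeff O f
  have hfix : ∀ σ ∈ P.inertiaSubgroupIn ℚ, ∀ i, σ (a i) = a i :=
    fun σ hσ i => coeff_fixed O a σ (hf σ hσ) i
  choose m hm using fun i => exists_pow_mul_mem P hdvd (a i)
  refine ⟨∑ i, m i, fun n hn => ?_⟩
  rw [mem_spanB_iff P hP O]
  refine ⟨fun i => (p : Kb) ^ n * a i, fun i => ⟨hm i n ?_, fun σ hσ => ?_⟩, ?_⟩
  · exact (Finset.single_le_sum (fun j _ => Nat.zero_le (m j)) (Finset.mem_univ i)).trans hn
  · rw [map_mul, map_pow, map_natCast, hfix σ hσ i]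
  · funext w
    simp only [Finset.sum_apply, Pi.smul_apply, smul_eq_mul, Finset.mul_sum, mul_assoc]

/-- The indicator function of a coset of `V₁` is translation-invariant. -/
theorem transInv_indicator (V₁ : AddSubgroup W) [DecidablePred (· ∈ V₁)] (w₀ : W) (c : Kb) :
    TransInv (V₁ : Set W) (fun w => if w - w₀ ∈ V₁ then c else 0) := by
  intro v w hw
  have h1 : v + w - w₀ ∈ V₁ ↔ v - w₀ ∈ V₁ := by
    have h2 : v + w - w₀ = (v - w₀) + w := by abel
    rw [h2]
    exact V₁.add_mem_cancel_right hw
  simp only [h1]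

/-- **FULL**, uniform version for the indicator functions of the cosets of a subgroup `V₁`
containing all `act σ w - w`, `σ` in inertia. -/
theorem spanB_full_indicator [Fact p.Prime] (P : ValuationSubring Kb) (hP : P.LiesOverPrime p)
    (hdvd : DvdProp p P) (O : HopfOrder p W act) (V₁ : AddSubgroup W)
    [DecidablePred (· ∈ V₁)]
    (hV : ∀ σ ∈ P.inertiaSubgroupIn ℚ, ∀ w, act σ w - w ∈ V₁) :
    ∃ N : ℕ, ∀ w₀ : W, (fun w => if w - w₀ ∈ V₁ then (p : Kb) ^ N else 0) ∈ spanB P O := by
  classical
  haveI : Finite W := O.finite_W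
  letI : Fintype W := Fintype.ofFinite _
  have h1 : ∀ w₀ : W, ∃ N : ℕ, ∀ n, N ≤ n →
      (fun w => (p : Kb) ^ n * (if w - w₀ ∈ V₁ then (1 : Kb) else 0)) ∈ spanB P O := by
    intro w₀
    refine spanB_full P hP hdvd O _ (fun σ hσ w => ?_)
    have h2 : act σ w - w₀ ∈ V₁ ↔ w - w₀ ∈ V₁ := by
      have h3 : act σ w - w₀ = (act σ w - w) + (w - w₀) := by abel
      rw [h3]
      exact V₁.add_mem_cancel_left (hV σ hσ w)
    by_cases h4 : w - w₀ ∈ V₁
    · rw [if_pos (h2.2 h4), if_pos h4, map_one]
    · rw [if_neg (fun h => h4 (h2.1 h)), if_neg h4, map_zero]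
  choose N hN using h1
  refine ⟨∑ w₀, N w₀, fun w₀ => ?_⟩
  have h5 := hN w₀ (∑ w₀, N w₀)
    (Finset.single_le_sum (fun j _ => Nat.zero_le (N j)) (Finset.mem_univ w₀))
  have h6 : (fun w => if w - w₀ ∈ V₁ then (p : Kb) ^ (∑ w₀, N w₀) else 0) =
      (fun w => (p : Kb) ^ (∑ w₀, N w₀) * (if w - w₀ ∈ V₁ then (1 : Kb) else 0)) := by
    funext w
    rw [mul_ite, mul_one, mul_zero]
  rw [h6]
  exact h5

/-! ### Further consequences used in the assembly -/

/-- (F2) a translation-invariant (by `act σ v - v`) inertia-equivariant function has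
inertia-fixed values. -/
theorem spanB_value_fixed (P : ValuationSubring Kb) (O : HopfOrder p W act) {f : W → Kb}
    (hf : f ∈ spanB P O) (V₁ : Set W) (hinv : TransInv V₁ f) (σ : GK)
    (hσ : σ ∈ P.inertiaSubgroupIn ℚ) (v : W) (hv : act σ v - v ∈ V₁) : σ (f v) = f v := by
  rw [← spanB_equiv P O hf σ hσ v]
  have h1 : act σ v = v + (act σ v - v) := by abel
  rw [h1]
  exact hinv v _ hv

/-- The points of the kernel of reduction of `O.alg` are in the kernel of reduction of the
`R'`-span. -/
theorem spanB_sub_mem_nonunits (P : ValuationSubring Kb) (O : HopfOrder p W act) {f : W → Kb}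
    (hf : f ∈ spanB P O) {x : W} (hx : x ∈ redKer P (O.alg : Set (W → Kb))) :
    f x - f 0 ∈ P.nonunits := by
  induction hf using Submodule.span_induction with
  | mem h hh => exact hx h hh
  | zero =>
    show (0 : Kb) - 0 ∈ P.nonunits
    rw [sub_zero]
    exact P.nonunits.zero_mem
  | add f g _ _ hf hg =>
    show (f x + g x) - (f 0 + g 0) ∈ P.nonunits
    have h1 : (f x + g x) - (f 0 + g 0) = (f x - f 0) + (g x - g 0) := by ring
    rw [h1]
    exact P.nonunits.add_mem hf hg
  | smul a f _ hf =>
    show (a : Kb) * f x - (a : Kb) * f 0 ∈ P.nonunits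
    rw [← mul_sub]
    rw [ValuationSubring.mem_nonunits_iff] at hf ⊢
    rw [map_mul]
    exact lt_of_le_of_lt (mul_le_of_le_one_left' ((P.valuation_le_one_iff _).2 a.2.1)) hf

end Fermat.Agent.FFL
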