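/-
Lib/FFL/Main (seat FFL-MAIN, helper80): **the connected part of a Hopf order is Galois-theoretic**.
* `mainProp`  : `redKer P O.alg = augI P act` for every Hopf order `O` over `ℤ_(p)` (`p` odd);
* `exactProp` : inertia coinvariants are exact on flat Galois modules.
Assembly of the leaves ARITH (helper80), UNR (helper26), CORE (helper41), BASE (helper78),
QUOT (helper44), RED (helper57), SPAN (helper41).
-/
import Fermat.Agent.Lib.FFL.MainAux
import Fermat.Agent.Lib.FFL.Arith
import Fermat.Agent.Lib.FFL.Unr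
import Fermat.Agent.Lib.FFL.Core
import Fermat.Agent.Lib.FFL.Base
import Fermat.Agent.Lib.FFL.Quot
import Fermat.Agent.Lib.FFL.Red
import Fermat.Agent.Lib.FFL.Span

set_option autoImplicit false

namespace Fermat.Agent.FFL

open Fermat.Agent.FlatMod GaloisRep

local notation "Kb" => AlgebraicClosure ℚ
local notation "GK" => (AlgebraicClosure ℚ ≃ₐ[ℚ] AlgebraicClosure ℚ)

variable {p : ℕ}

/-- **CORE** for an odd prime. -/
theorem coreProp (hp : p.Prime) (hp2 : p ≠ 2) (P : ValuationSubring Kb)
    (hP : P.LiesOverPrime p) : CoreProp p P :=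
  coreProp_of_int_cyc p P (intProp hp hP) (cycProp hp hp2 hP)

theorem act_sub_mem_augI (P : ValuationSubring Kb) {W : Type*} [AddCommGroup W]
    (act : GK → W → W) {σ : GK} (hσ : σ ∈ P.inertiaSubgroupIn ℚ) (w : W) :
    act σ w - w ∈ augI P act :=
  AddSubgroup.subset_closure ⟨σ, hσ, w, Set.mem_univ _, rfl⟩

/-- **MAIN**: the kernel of reduction of a Hopf order is the augmentation subgroup of inertia. -/
theorem mainProp (hp : p.Prime) (hp2 : p ≠ 2) (P : ValuationSubring Kb)
    (hP : P.LiesOverPrime p) : MainProp p P := by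
  classical
  intro W _ act O
  have : Fact p.Prime := ⟨hp⟩
  have hfin : Finite W := O.finite_W
  have hunr : UnrProp p P := unrProp p hp P hP
  have hdvd : DvdProp p P := dvdProp hp hP
  have hpid : IsPrincipalIdealRing (inertiaRing P) :=
    inertiaRing_isPrincipalIdealRing hp.ne_zero hP hunr hdvd
  apply Set.Subset.antisymm _ (augI_subset_redKer O hP)
  set V₁ : AddSubgroup W := augI P act with hV₁
  have hV : ∀ σ ∈ P.inertiaSubgroupIn ℚ, ∀ w, act σ w - w ∈ V₁ :=
    fun σ hσ w => act_sub_mem_augI P act hσ w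
  have hspan := spanB_eq_span_range P hP O
  have key := ma_le_of_core (coreProp hp hp2 P hP) hunr V₁
    {f : W → Kb | f ∈ Submodule.span (inertiaRing P) (Set.range (spanFun O)) ∧
      TransInv (V₁ : Set W) f}
    (fun f hf => hf.2)
    (comulClosed_transInv_subring (inertiaRing P) (spanFun O) (spanFun_linearIndependent O)
      (span_range_comulClosed P hP O) (V₁ : Set W))
    (by
      obtain ⟨N, hN⟩ := spanB_full_indicator P hP hdvd O V₁ hV
      refine ⟨N, fun w₀ => ⟨?_, ?_⟩⟩
      · rw [← hspan]
        convert hN w₀ using 2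
      · convert transInv_indicator V₁ w₀ ((p : Kb) ^ N) using 2)
    (fun f hf w σ hσ => by
      have hf1 : f ∈ spanB P O := by rw [hspan]; exact hf.1
      exact spanB_value_fixed P O hf1 (V₁ : Set W) hf.2 σ hσ w (hV σ hσ w))
    (redKerSubgroup O hP)
    (fun x hx f hf => by
      have hf1 : f ∈ spanB P O := by rw [hspan]; exact hf.1
      exact spanB_sub_mem_nonunits P O hf1 hx)
  exact fun x hx => key hx

/-- **EXACT**: inertia coinvariants are exact on flat Galois modules. -/
theorem exactProp (hp : p.Prime) (hp2 : p ≠ 2) (P : ValuationSubring Kb)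
    (hP : P.LiesOverPrime p) : ExactProp p P := by
  intro M _ act hM N hN x hxN hx
  have : Fact p.Prime := ⟨hp⟩
  obtain ⟨O⟩ := nonempty_hopfOrder_of_isFlat hM
  -- `x` is in the kernel of reduction of `O`, hence of the restriction of `O` to `N`
  have h1 : x ∈ redKer P (O.alg : Set (M → Kb)) := augI_subset_redKer O hP hx
  have h2 : (⟨x, hxN⟩ : N) ∈ redKer P ((O.restrict N hN).alg : Set (N → Kb)) :=
    (redKer_restrict P O N hN ⟨x, hxN⟩).2 h1
  rw [mainProp hp hp2 P hP N _ (O.restrict N hN)] at h2
  -- transport from `N` to `M`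
  have h3 : ∀ y : N, y ∈ augI P (fun σ (n : N) => (⟨act σ n.1, hN σ n.1 n.2⟩ : N)) →
      (y : M) ∈ augOn P act (N : Set M) := by
    intro y hy
    unfold augI augOn at hy
    induction hy using AddSubgroup.closure_induction with
    | mem z hz =>
      obtain ⟨σ, hσ, v, -, rfl⟩ := hz
      exact AddSubgroup.subset_closure ⟨σ, hσ, v.1, v.2, rfl⟩
    | zero => exact (augOn P act (N : Set M)).zero_mem
    | add a b _ _ ha hb => exact (augOn P act (N : Set M)).add_mem ha hb
    | neg a _ ha => exact (augOn P act (N : Set M)).neg_mem ha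
  exact h3 ⟨x, hxN⟩ h2

end Fermat.Agent.FFL
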