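/-
Lib/FFL seat FFL-CHAR (helper41): characters are INTEGRAL combinations of the functions of a Hopf
order (Cartier duality without the dual).

`O : HopfOrder p W act`, `χ : W → ℚ̄` multiplicative (`χ (w + w') = χ w * χ w'`, `χ 0 = 1`).  Then
`χ` lies in the `P`-span of `O.alg` (`char_mem_spanP`), and in the `R'`-span (`R' = inertiaRing P`)
if `χ` is inertia-equivariant (`char_mem_spanB`).

Proof.  For a `ℚ̄`-linear functional `u` on `W → ℚ̄` put `(T_u f) w = u (w' ↦ f (w + w'))`.  If `u` is
`P`-valued on the `P`-span `B` of `O.alg` then `T_u B ⊆ B` (comultiplication), and `T_u χ = u χ • χ`.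
FULL: `p ^ N • χ ∈ B`; so `T_u ^ n (p ^ N • χ) = (p ^ N * (u χ) ^ n) • χ ∈ B`, and its value at `0`
is in `P`.  INT: `u χ ∈ P`.  Apply this to the coordinate functionals of the basis `spanFun O`.
-/
import Fermat.Agent.Lib.FFL.Span

set_option autoImplicit false
set_option linter.style.haveILetI false

namespace Fermat.Agent.FFL

open Fermat.Agent.FlatMod GaloisRep

local notation "Kb" => AlgebraicClosure ℚ
local notation "GK" => (AlgebraicClosure ℚ ≃ₐ[ℚ] AlgebraicClosure ℚ)

variable {p : ℕ} {W : Type*} [AddCommGroup W] {act : GK → W → W}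

/-- The `P`-span of a Hopf order. -/
noncomputable def spanP (P : ValuationSubring Kb) (O : HopfOrder p W act) :
    Submodule P (W → Kb) :=
  Submodule.span P (O.alg : Set (W → Kb))

theorem subset_spanP (P : ValuationSubring Kb) (O : HopfOrder p W act) :
    (O.alg : Set (W → Kb)) ⊆ spanP P O := Submodule.subset_span

theorem smul_mem_spanP (P : ValuationSubring Kb) (O : HopfOrder p W act) {a : Kb}
    (ha : a ∈ P) {f : W → Kb} (hf : f ∈ spanP P O) :
    (fun w => a * f w) ∈ spanP P O :=
  (spanP P O).smul_mem ⟨a, ha⟩ hf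

/-- The `P`-span is comultiplication-closed. -/
theorem spanP_comulClosed (P : ValuationSubring Kb) (O : HopfOrder p W act) :
    ComulClosed ((spanP P O : Submodule P (W → Kb)) : Set (W → Kb)) := by
  intro f hf
  show IsComulSum _ (fun w w' => f (w + w'))
  induction hf using Submodule.span_induction with
  | mem h hh =>
    have h1 : IsComulSum (O.alg : Set (W → Kb)) (fun w w' => h (w + w')) :=
      hopfOrder_comulClosed O h hh
    exact h1.mono (subset_spanP P O)
  | zero => exact (IsComulSum.zero _).congr (fun _ _ => rfl)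
  | add f g _ _ hf hg => exact (hf.add hg).congr (fun _ _ => rfl)
  | smul a f hf' hf =>
    obtain ⟨n, g, h, hg, hh, hgh⟩ := hf
    refine ⟨n, fun i w => (a : Kb) * g i w, h, fun i => smul_mem_spanP P O a.2 (hg i), hh,
      fun w w' => ?_⟩
    have hgh' : f (w + w') = ∑ i, g i w * h i w' := hgh w w'
    show (a : Kb) * f (w + w') = _
    rw [hgh', Finset.mul_sum]
    exact Finset.sum_congr rfl (fun i _ => (mul_assoc _ _ _).symm)

/-- The values of the elements of the `P`-span are in `P`. -/
theorem spanP_mem [Fact p.Prime] (P : ValuationSubring Kb) (hP : P.LiesOverPrime p)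
    (O : HopfOrder p W act) {f : W → Kb} (hf : f ∈ spanP P O) (w : W) : f w ∈ P := by
  induction hf using Submodule.span_induction with
  | mem h hh =>
    have h1 : IsIntegral (ratLocalizedAt p) (⟨h, hh⟩ : O.alg) := Algebra.IsIntegral.isIntegral _
    exact Fermat.Agent.FF.pl_mem_of_isIntegral P hP (h1.map (evPt O.alg w))
  | zero => exact P.zero_mem
  | add f g _ _ hf hg => exact P.add_mem _ _ hf hg
  | smul a f _ hf => exact P.mul_mem _ _ a.2 hf

/-- The `P`-span of `O.alg` is the `P`-span of the basis functions. -/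
theorem spanP_eq_span_range [Fact p.Prime] (P : ValuationSubring Kb) (hP : P.LiesOverPrime p)
    (O : HopfOrder p W act) :
    spanP P O = Submodule.span P (Set.range (spanFun O)) := by
  apply le_antisymm
  · refine Submodule.span_le.2 (fun h hh => ?_)
    have h1 : (⟨h, hh⟩ : O.alg) = ∑ i, (spanBasis O).repr ⟨h, hh⟩ i • spanBasis O i :=
      ((spanBasis O).sum_repr _).symm
    have h2 : h = ∑ i, (⟨_, (algebraMap_mem_inertiaRing P hP
        ((spanBasis O).repr ⟨h, hh⟩ i)).1⟩ : P) • spanFun O i := by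
      have h3 := congrArg (fun x : O.alg => (x : W → Kb)) h1
      simp only [AddSubmonoidClass.coe_finsetSum] at h3
      refine h3.trans (Finset.sum_congr rfl (fun i _ => ?_))
      funext w
      simp only [spanFun, Algebra.smul_def, Pi.smul_apply]
      rfl
    rw [h2]
    exact Submodule.sum_mem _ (fun i _ => Submodule.smul_mem _ _ (Submodule.subset_span ⟨i, rfl⟩))
  · refine Submodule.span_le.2 ?_
    rintro _ ⟨i, rfl⟩
    exact subset_spanP P O (spanFun_mem O i)

/-- The elements of the `P`-span are the `P`-combinations of the basis functions. -/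
theorem mem_spanP_iff [Fact p.Prime] (P : ValuationSubring Kb) (hP : P.LiesOverPrime p)
    (O : HopfOrder p W act) (f : W → Kb) :
    f ∈ spanP P O ↔ ∃ a : SpanIdx O → Kb, (∀ i, a i ∈ P) ∧ f = ∑ i, a i • spanFun O i := by
  rw [spanP_eq_span_range P hP O, Submodule.mem_span_range_iff_exists_fun]
  constructor
  · rintro ⟨c, rfl⟩
    exact ⟨fun i => (c i : Kb), fun i => (c i).2, rfl⟩
  · rintro ⟨a, ha, rfl⟩
    exact ⟨fun i => ⟨a i, ha i⟩, rfl⟩

/-! ### The shift operator of a functional -/

/-- `(T_u f) w = u (w' ↦ f (w + w'))`. -/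
noncomputable def shiftFun (u : (W → Kb) →ₗ[Kb] Kb) (f : W → Kb) : W → Kb :=
  fun w => u (fun w' => f (w + w'))

theorem shiftFun_smul (u : (W → Kb) →ₗ[Kb] Kb) (c : Kb) (f : W → Kb) :
    shiftFun u (fun w => c * f w) = fun w => c * shiftFun u f w := by
  funext w
  unfold shiftFun
  have h1 : (fun w' => c * f (w + w')) = c • (fun w' => f (w + w')) := rfl
  rw [h1, map_smul, smul_eq_mul]

theorem shiftFun_char (u : (W → Kb) →ₗ[Kb] Kb) (χ : W → Kb)
    (hmul : ∀ w w', χ (w + w') = χ w * χ w') :
    shiftFun u χ = fun w => u χ * χ w := by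
  funext w
  unfold shiftFun
  have h1 : (fun w' => χ (w + w')) = χ w • χ := by
    funext w'
    rw [hmul]
    rfl
  rw [h1, map_smul, smul_eq_mul, mul_comm]

theorem shiftFun_iterate_char (u : (W → Kb) →ₗ[Kb] Kb) (χ : W → Kb)
    (hmul : ∀ w w', χ (w + w') = χ w * χ w') (c : Kb) (n : ℕ) :
    (shiftFun u)^[n] (fun w => c * χ w) = fun w => c * (u χ) ^ n * χ w := by
  induction n with
  | zero => simp
  | succ n ih =>
    rw [Function.iterate_succ_apply', ih, shiftFun_smul, shiftFun_char u χ hmul]
    funext w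
    rw [pow_succ]
    ring

/-- If `u` is `P`-valued on the `P`-span, the shift operator `T_u` preserves the `P`-span. -/
theorem shiftFun_mem (P : ValuationSubring Kb) (O : HopfOrder p W act)
    (u : (W → Kb) →ₗ[Kb] Kb) (hu : ∀ f ∈ spanP P O, u f ∈ P) {f : W → Kb}
    (hf : f ∈ spanP P O) : shiftFun u f ∈ spanP P O := by
  obtain ⟨n, g, h, hg, hh, hgh⟩ := spanP_comulClosed P O f hf
  have h1 : shiftFun u f = ∑ i, (⟨u (h i), hu _ (hh i)⟩ : P) • g i := by
    funext w
    unfold shiftFun
    have h2 : (fun w' => f (w + w')) = ∑ i, g i w • h i := by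
      funext w'
      rw [hgh]
      simp only [Finset.sum_apply, Pi.smul_apply, smul_eq_mul]
    rw [h2, map_sum]
    simp only [map_smul, smul_eq_mul, Finset.sum_apply, Pi.smul_apply]
    refine Finset.sum_congr rfl (fun i _ => ?_)
    rw [mul_comm]
    rfl
  rw [h1]
  exact Submodule.sum_mem _ (fun i _ => Submodule.smul_mem _ _ (hg i))

theorem shiftFun_iterate_mem (P : ValuationSubring Kb) (O : HopfOrder p W act)
    (u : (W → Kb) →ₗ[Kb] Kb) (hu : ∀ f ∈ spanP P O, u f ∈ P) {f : W → Kb}
    (hf : f ∈ spanP P O) (n : ℕ) : (shiftFun u)^[n] f ∈ spanP P O := by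
  induction n with
  | zero => exact hf
  | succ n ih =>
    rw [Function.iterate_succ_apply']
    exact shiftFun_mem P O u hu ih

/-! ### Characters -/

/-- FULL for the `P`-span: every function has a `p`-power multiple in the `P`-span. -/
theorem spanP_full [Fact p.Prime] (P : ValuationSubring Kb) (hP : P.LiesOverPrime p)
    (hdvd : DvdProp p P) (O : HopfOrder p W act) (f : W → Kb) :
    ∃ N : ℕ, (fun w => (p : Kb) ^ N * f w) ∈ spanP P O := by
  classical
  obtain ⟨a, rfl⟩ := exists_coeff O f
  choose m hm using fun i => exists_pow_mul_mem P hdvd (a i)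
  refine ⟨∑ i, m i, ?_⟩
  rw [mem_spanP_iff P hP O]
  refine ⟨fun i => (p : Kb) ^ (∑ i, m i) * a i, fun i => hm i _ ?_, ?_⟩
  · exact Finset.single_le_sum (fun j _ => Nat.zero_le (m j)) (Finset.mem_univ i)
  · funext w
    simp only [Finset.sum_apply, Pi.smul_apply, smul_eq_mul, Finset.mul_sum, mul_assoc]

/-- A functional which is `P`-valued on the `P`-span of a Hopf order is `P`-valued on
characters. -/
theorem char_apply_mem [Fact p.Prime] (P : ValuationSubring Kb) (hP : P.LiesOverPrime p)
    (hint : IntProp p P) (hdvd : DvdProp p P) (O : HopfOrder p W act)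
    (u : (W → Kb) →ₗ[Kb] Kb) (hu : ∀ f ∈ spanP P O, u f ∈ P) (χ : W → Kb)
    (hmul : ∀ w w', χ (w + w') = χ w * χ w') (h0 : χ 0 = 1) : u χ ∈ P := by
  obtain ⟨N, hN⟩ := spanP_full P hP hdvd O χ
  refine hint _ ⟨N, fun n => ?_⟩
  have h1 := shiftFun_iterate_mem P O u hu hN n
  rw [shiftFun_iterate_char u χ hmul] at h1
  have h2 := spanP_mem P hP O h1 0
  simpa [h0] using h2

/-- **FFL-CHAR**: a character lies in the `P`-span of a Hopf order. -/
theorem char_mem_spanP [Fact p.Prime] (P : ValuationSubring Kb) (hP : P.LiesOverPrime p)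
    (hint : IntProp p P) (hdvd : DvdProp p P) (O : HopfOrder p W act) (χ : W → Kb)
    (hmul : ∀ w w', χ (w + w') = χ w * χ w') (h0 : χ 0 = 1) : χ ∈ spanP P O := by
  classical
  -- the basis of all functions given by the basis functions of `O.alg`
  let b : Module.Basis (SpanIdx O) Kb (W → Kb) :=
    Module.Basis.mk (spanFun_linearIndependent O) (spanFun_span_eq_top O).ge
  have hb : ∀ i, b i = spanFun O i := fun i => by simp [b]
  -- the coordinate functionals are `P`-valued on the `P`-span
  have hcoord : ∀ i, ∀ f ∈ spanP P O, b.coord i f ∈ P := by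
    intro i f hf
    obtain ⟨a, ha, rfl⟩ := (mem_spanP_iff P hP O f).1 hf
    have h1 : b.coord i (∑ j, a j • spanFun O j) = a i := by
      have h2 : (∑ j, a j • spanFun O j) = ∑ j, a j • b j := by simp only [hb]
      rw [h2, Module.Basis.coord_apply, Module.Basis.repr_sum_self]
    rw [h1]
    exact ha i
  rw [mem_spanP_iff P hP O]
  refine ⟨fun i => b.coord i χ, fun i => char_apply_mem P hP hint hdvd O _ (hcoord i) χ hmul h0,
    ?_⟩
  have h3 := (b.sum_repr χ).symm
  simp only [hb] at h3
  exact h3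

/-- **FFL-CHAR**, inertia-equivariant form: an inertia-equivariant character lies in the
`R'`-span of a Hopf order. -/
theorem char_mem_spanB [Fact p.Prime] (P : ValuationSubring Kb) (hP : P.LiesOverPrime p)
    (hint : IntProp p P) (hdvd : DvdProp p P) (O : HopfOrder p W act) (χ : W → Kb)
    (hmul : ∀ w w', χ (w + w') = χ w * χ w') (h0 : χ 0 = 1)
    (hequiv : ∀ σ ∈ P.inertiaSubgroupIn ℚ, ∀ w, χ (act σ w) = σ (χ w)) : χ ∈ spanB P O := by
  obtain ⟨a, ha, rfl⟩ := (mem_spanP_iff P hP O χ).1 (char_mem_spanP P hP hint hdvd O χ hmul h0)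
  rw [mem_spanB_iff P hP O]
  exact ⟨a, fun i => ⟨ha i, fun σ hσ => coeff_fixed O a σ (hequiv σ hσ) i⟩, rfl⟩

end Fermat.Agent.FFL
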