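/-
Lib/FFL, layer 2, seat FFL-ET (helper44): an extension of unramified by unramified which is flat
is unramified.  Consequence of `ExactProp` (exactness of inertia coinvariants on flat modules).
-/
import Fermat.Agent.Lib.FFL.Defs

set_option autoImplicit false

namespace Fermat.Agent.FFL

open Fermat.Agent.FlatMod GaloisRep

local notation "Kb" => AlgebraicClosure ℚ
local notation "GK" => (AlgebraicClosure ℚ ≃ₐ[ℚ] AlgebraicClosure ℚ)

/-- the augmentation subgroup on a set of inertia-fixed points is trivial. -/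
theorem augOn_eq_bot_of_fixed (P : ValuationSubring Kb) {W : Type*} [AddCommGroup W]
    (act : GK → W → W) (N : Set W)
    (h : ∀ σ ∈ P.inertiaSubgroupIn ℚ, ∀ x ∈ N, act σ x = x) : augOn P act N = ⊥ := by
  rw [augOn, AddSubgroup.closure_eq_bot_iff]
  rintro w ⟨τ, hτ, v, hv, rfl⟩
  rw [Set.mem_singleton_iff, h τ hτ v hv, sub_self]

/-- generators of the augmentation subgroup. -/
theorem act_sub_mem_augI (P : ValuationSubring Kb) {W : Type*} [AddCommGroup W]
    (act : GK → W → W) {σ : GK} (hσ : σ ∈ P.inertiaSubgroupIn ℚ) (w : W) :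
    act σ w - w ∈ augI P act :=
  AddSubgroup.subset_closure ⟨σ, hσ, w, Set.mem_univ _, rfl⟩

/-- **FFL-ET**: if `M` is flat, and inertia acts trivially on the Galois-stable subgroup `X`
and on `M ⧸ X`, then inertia acts trivially on `M`. -/
theorem et_of_exact {p : ℕ} {P : ValuationSubring Kb} (hex : ExactProp p P) {M : Type}
    [AddCommGroup M] {act : GK → M → M} (hM : IsFlatGaloisModule p M act)
    (X : AddSubgroup M) (hX : ∀ σ, ∀ x ∈ X, act σ x ∈ X)
    (hIX : ∀ σ ∈ P.inertiaSubgroupIn ℚ, ∀ x ∈ X, act σ x = x)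
    (hIQ : ∀ σ ∈ P.inertiaSubgroupIn ℚ, ∀ m : M, act σ m - m ∈ X) :
    ∀ σ ∈ P.inertiaSubgroupIn ℚ, ∀ m : M, act σ m = m := by
  intro σ hσ m
  have h2 := hex M act hM X hX (act σ m - m) (hIQ σ hσ m) (act_sub_mem_augI P act hσ m)
  rw [augOn_eq_bot_of_fixed P act (X : Set M) hIX, AddSubgroup.mem_bot] at h2
  exact sub_eq_zero.mp h2

end Fermat.Agent.FFL
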