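/-
Lib/FFL/EtMax (seat FFL-ETMAX, helper78): **an etale order is the maximal order**.

`O` a Hopf order on `W` over `ℤ_(p)` (`p` odd), `P` a valuation subring of `ℚ̄` over `p`,
`I` its inertia group, `R' = inertiaRing P`, `V₁ ≤ W` a subgroup with `act σ w - w ∈ V₁` for
`σ ∈ I` (inertia acts trivially on `W ⧸ V₁`; by RED this follows from `redKer P O.alg ⊆ V₁`).
Then the indicator function of every coset `w₀ + V₁` lies in the `R'`-span of `O.alg`
(NO power of `p`: this sharpens `spanB_full_indicator`).

* `spanB_mul_mem`, `spanB_const_mem`, `spanB_comp_neg_mem`: the `R'`-span is a ring of functions,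
  stable under `w ↦ -w`;
* `etB1 P O V₁` : the `V₁`-invariant part of the span; `etB1_comulClosed`, `etB1_value_mem`
  (values in `R'`), `etB1_translate` (stable under all translations);
* `etB1_separates` : points in different cosets of `V₁` are separated modulo the maximal ideal
  of `P` by `etB1` (from CORE, via `ma_le_of_core`);
* `etmax_indicator`, `etmax_indicator_of_redKer` : the statement;
* `etmax_mem_of_transInv` : every `V₁`-invariant function with values in `R'` is in the span.
-/
import Fermat.Agent.Lib.FFL.Main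

set_option autoImplicit false
set_option linter.style.haveILetI false
set_option linter.unusedSectionVars false

namespace Fermat.Agent.FFL

open Fermat.Agent.FlatMod GaloisRep

local notation "Kb" => AlgebraicClosure ℚ
local notation "GK" => (AlgebraicClosure ℚ ≃ₐ[ℚ] AlgebraicClosure ℚ)

variable {p : ℕ} {W : Type*} [AddCommGroup W] {act : GK → W → W}

/-! ### The span is a ring of functions -/

theorem spanB_one_mem (P : ValuationSubring Kb) (O : HopfOrder p W act) :
    (fun _ : W => (1 : Kb)) ∈ spanB P O :=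
  subset_spanB P O O.alg.one_mem

theorem spanB_const_mem (P : ValuationSubring Kb) (O : HopfOrder p W act) {c : Kb}
    (hc : c ∈ inertiaRing P) : (fun _ : W => c) ∈ spanB P O := by
  have h := smul_mem_spanB P O hc (spanB_one_mem P O)
  simpa using h

theorem spanB_add_mem (P : ValuationSubring Kb) (O : HopfOrder p W act) {f g : W → Kb}
    (hf : f ∈ spanB P O) (hg : g ∈ spanB P O) : (fun w => f w + g w) ∈ spanB P O :=
  (spanB P O).add_mem hf hg

theorem spanB_sub_mem (P : ValuationSubring Kb) (O : HopfOrder p W act) {f g : W → Kb}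
    (hf : f ∈ spanB P O) (hg : g ∈ spanB P O) : (fun w => f w - g w) ∈ spanB P O :=
  (spanB P O).sub_mem hf hg

theorem spanB_mul_mem (P : ValuationSubring Kb) (O : HopfOrder p W act) {f g : W → Kb}
    (hf : f ∈ spanB P O) (hg : g ∈ spanB P O) : (fun w => f w * g w) ∈ spanB P O := by
  induction hf using Submodule.span_induction with
  | mem h hh =>
    induction hg using Submodule.span_induction with
    | mem h' hh' => exact subset_spanB P O (O.alg.mul_mem hh hh')
    | zero =>
      have : (fun w => h w * (0 : W → Kb) w) = 0 := by funext w; simp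
      rw [this]; exact (spanB P O).zero_mem
    | add a b _ _ ha hb =>
      have : (fun w => h w * (a + b) w) = (fun w => h w * a w) + (fun w => h w * b w) := by
        funext w; simp [mul_add]
      rw [this]; exact (spanB P O).add_mem ha hb
    | smul r a _ ha =>
      have : (fun w => h w * (r • a) w) = r • (fun w => h w * a w) := by
        funext w
        show h w * ((r : Kb) * a w) = (r : Kb) * (h w * a w)
        ring
      rw [this]; exact (spanB P O).smul_mem r ha
  | zero =>
    have : (fun w => (0 : W → Kb) w * g w) = 0 := by funext w; simp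
    rw [this]; exact (spanB P O).zero_mem
  | add a b _ _ ha hb =>
    have : (fun w => (a + b) w * g w) = (fun w => a w * g w) + (fun w => b w * g w) := by
      funext w; simp [add_mul]
    rw [this]; exact (spanB P O).add_mem ha hb
  | smul r a _ ha =>
    have : (fun w => (r • a) w * g w) = r • (fun w => a w * g w) := by
      funext w
      show ((r : Kb) * a w) * g w = (r : Kb) * (a w * g w)
      ring
    rw [this]; exact (spanB P O).smul_mem r ha

theorem spanB_comp_neg_mem (P : ValuationSubring Kb) (O : HopfOrder p W act) {f : W → Kb}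
    (hf : f ∈ spanB P O) : (fun w => f (-w)) ∈ spanB P O := by
  induction hf using Submodule.span_induction with
  | mem h hh => exact subset_spanB P O (O.neg h hh)
  | zero => exact (spanB P O).zero_mem
  | add a b _ _ ha hb => exact (spanB P O).add_mem ha hb
  | smul r a _ ha => exact (spanB P O).smul_mem r ha

theorem spanB_prod_mem (P : ValuationSubring Kb) (O : HopfOrder p W act) {ι : Type*}
    (s : Finset ι) (G : ι → W → Kb) (hG : ∀ i ∈ s, G i ∈ spanB P O) :
    (fun w => ∏ i ∈ s, G i w) ∈ spanB P O := by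
  classical
  induction s using Finset.induction_on with
  | empty =>
    simp only [Finset.prod_empty]
    exact spanB_one_mem P O
  | insert a s ha ih =>
    have h1 : (fun w => ∏ i ∈ insert a s, G i w) = (fun w => G a w * ∏ i ∈ s, G i w) := by
      funext w
      rw [Finset.prod_insert ha]
    rw [h1]
    exact spanB_mul_mem P O (hG a (Finset.mem_insert_self a s))
      (ih (fun i hi => hG i (Finset.mem_insert_of_mem hi)))

/-! ### The invariant part -/

/-- The `V₁`-invariant part of the `R'`-span of a Hopf order. -/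
def etB1 (P : ValuationSubring Kb) (O : HopfOrder p W act) (V₁ : AddSubgroup W) :
    Set (W → Kb) :=
  {f | f ∈ spanB P O ∧ TransInv (V₁ : Set W) f}

theorem etB1_comulClosed (hp : p.Prime) (P : ValuationSubring Kb) (hP : P.LiesOverPrime p)
    (O : HopfOrder p W act) (V₁ : AddSubgroup W) : ComulClosed (etB1 P O V₁) := by
  have : Fact p.Prime := ⟨hp⟩
  have hfin : Finite W := O.finite_W
  have hpid : IsPrincipalIdealRing (inertiaRing P) :=
    inertiaRing_isPrincipalIdealRing hp.ne_zero hP (unrProp p hp P hP) (dvdProp hp hP)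
  have h := comulClosed_transInv_subring (inertiaRing P) (spanFun O)
    (spanFun_linearIndependent O) (span_range_comulClosed P hP O) (V₁ : Set W)
  have hset : etB1 P O V₁ = {f : W → Kb |
      f ∈ Submodule.span (inertiaRing P) (Set.range (spanFun O)) ∧ TransInv (V₁ : Set W) f} := by
    unfold etB1
    rw [spanB_eq_span_range P hP O]
  rw [hset]
  exact h

/-- (F2) the values of the invariant functions are in `R'`. -/
theorem etB1_value_mem (hp : p.Prime) (P : ValuationSubring Kb) (hP : P.LiesOverPrime p)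
    (O : HopfOrder p W act) (V₁ : AddSubgroup W)
    (hV : ∀ σ ∈ P.inertiaSubgroupIn ℚ, ∀ w, act σ w - w ∈ V₁) {f : W → Kb}
    (hf : f ∈ etB1 P O V₁) (w : W) : f w ∈ inertiaRing P := by
  have : Fact p.Prime := ⟨hp⟩
  exact ⟨spanB_mem P hP O hf.1 w, fun σ hσ =>
    spanB_value_fixed P O hf.1 (V₁ : Set W) hf.2 σ hσ w (hV σ hσ w)⟩

/-- The invariant part is stable under all translations. -/
theorem etB1_translate (hp : p.Prime) (P : ValuationSubring Kb) (hP : P.LiesOverPrime p)
    (O : HopfOrder p W act) (V₁ : AddSubgroup W)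
    (hV : ∀ σ ∈ P.inertiaSubgroupIn ℚ, ∀ w, act σ w - w ∈ V₁) {f : W → Kb}
    (hf : f ∈ etB1 P O V₁) (a : W) : (fun w => f (w + a)) ∈ etB1 P O V₁ := by
  obtain ⟨n, g, h, hg, hh, hgh⟩ := etB1_comulClosed hp P hP O V₁ f hf
  refine ⟨?_, fun v u hu => ?_⟩
  · have h1 : (fun w => f (w + a)) =
        ∑ i, (⟨h i a, etB1_value_mem hp P hP O V₁ hV (hh i) a⟩ : inertiaRing P) • g i := by
      funext w
      rw [hgh, Finset.sum_apply]
      refine Finset.sum_congr rfl (fun i _ => ?_)
      show g i w * h i a = h i a * g i w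
      ring
    rw [h1]
    exact Submodule.sum_mem _ (fun i _ => Submodule.smul_mem _ _ (hg i).1)
  · show f (v + u + a) = f (v + a)
    have h2 : v + u + a = (v + a) + u := by abel
    rw [h2]
    exact hf.2 _ _ hu

theorem etB1_comp_neg (P : ValuationSubring Kb) (O : HopfOrder p W act) (V₁ : AddSubgroup W)
    {f : W → Kb} (hf : f ∈ etB1 P O V₁) : (fun w => f (-w)) ∈ etB1 P O V₁ := by
  refine ⟨spanB_comp_neg_mem P O hf.1, fun v u hu => ?_⟩
  show f (-(v + u)) = f (-v)
  have h2 : -(v + u) = -v + -u := by abel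
  rw [h2]
  exact hf.2 _ _ (V₁.neg_mem hu)

theorem etmax_sum_mem_nonunits (P : ValuationSubring Kb) {ι : Type*} (s : Finset ι) (F : ι → Kb)
    (hF : ∀ i ∈ s, F i ∈ P.nonunits) : ∑ i ∈ s, F i ∈ P.nonunits := by
  classical
  induction s using Finset.induction_on with
  | empty =>
    rw [Finset.sum_empty]
    exact red_zero_mem_nonunits P
  | insert a s ha ih =>
    rw [Finset.sum_insert ha]
    exact red_add_mem_nonunits P (hF a (Finset.mem_insert_self a s))
      (ih (fun i hi => hF i (Finset.mem_insert_of_mem hi)))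

/-- The points which reduce to the identity with respect to the invariant functions form a
subgroup. -/
def etRedSub (hp : p.Prime) (P : ValuationSubring Kb) (hP : P.LiesOverPrime p)
    (O : HopfOrder p W act) (V₁ : AddSubgroup W) : AddSubgroup W where
  carrier := {y | ∀ f ∈ etB1 P O V₁, f y - f 0 ∈ P.nonunits}
  zero_mem' := fun f _ => by
    rw [sub_self]
    exact red_zero_mem_nonunits P
  add_mem' := by
    intro y y' hy hy' f hf
    have : Fact p.Prime := ⟨hp⟩
    obtain ⟨n, g, h, hg, hh, hgh⟩ := etB1_comulClosed hp P hP O V₁ f hf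
    have h0 : f 0 = ∑ i, g i 0 * h i 0 := by
      have := hgh 0 0
      rwa [add_zero] at this
    rw [hgh, h0, ← Finset.sum_sub_distrib]
    refine etmax_sum_mem_nonunits P _ _ (fun i _ => ?_)
    have h1 : g i y * h i y' - g i 0 * h i 0 =
        (g i y - g i 0) * h i y' + g i 0 * (h i y' - h i 0) := by ring
    rw [h1]
    exact red_add_mem_nonunits P
      (red_mul_mem_nonunits_right P (hy (g i) (hg i)) (spanB_mem P hP O (hh i).1 y'))
      (red_mul_mem_nonunits_left P (spanB_mem P hP O (hg i).1 0) (hy' (h i) (hh i)))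
  neg_mem' := by
    intro y hy f hf
    have h1 := hy _ (etB1_comp_neg P O V₁ hf)
    simpa using h1

theorem mem_etRedSub (hp : p.Prime) (P : ValuationSubring Kb) (hP : P.LiesOverPrime p)
    (O : HopfOrder p W act) (V₁ : AddSubgroup W) (y : W) :
    y ∈ etRedSub hp P hP O V₁ ↔ ∀ f ∈ etB1 P O V₁, f y - f 0 ∈ P.nonunits := Iff.rfl

open scoped Classical in
/-- The invariant part contains `p ^ N` times the indicator functions of the cosets. -/
theorem etB1_full (hp : p.Prime) (P : ValuationSubring Kb) (hP : P.LiesOverPrime p)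
    (O : HopfOrder p W act) (V₁ : AddSubgroup W)
    (hV : ∀ σ ∈ P.inertiaSubgroupIn ℚ, ∀ w, act σ w - w ∈ V₁) :
    ∃ N : ℕ, ∀ w₀ : W, (fun w : W => if w - w₀ ∈ V₁ then (p : Kb) ^ N else 0) ∈ etB1 P O V₁ := by
  have : Fact p.Prime := ⟨hp⟩
  obtain ⟨N, hN⟩ := spanB_full_indicator P hP (dvdProp hp hP) O V₁ hV
  refine ⟨N, fun w₀ => ⟨?_, ?_⟩⟩
  · convert hN w₀ using 2
  · convert transInv_indicator V₁ w₀ ((p : Kb) ^ N) using 2

/-- **Separation**: a point outside `V₁` is separated from `0` modulo the maximal ideal of `P`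
by an invariant function. -/
theorem etB1_separates (hp : p.Prime) (hp2 : p ≠ 2) (P : ValuationSubring Kb)
    (hP : P.LiesOverPrime p) (O : HopfOrder p W act) (V₁ : AddSubgroup W)
    (hV : ∀ σ ∈ P.inertiaSubgroupIn ℚ, ∀ w, act σ w - w ∈ V₁) {x : W} (hx : x ∉ V₁) :
    ∃ f ∈ etB1 P O V₁, f x - f 0 ∉ P.nonunits := by
  classical
  by_contra hcon
  have hcon' : ∀ f ∈ etB1 P O V₁, f x - f 0 ∈ P.nonunits :=
    fun f hf => by_contra (fun h => hcon ⟨f, hf, h⟩)
  have : Fact p.Prime := ⟨hp⟩
  have hfin : Finite W := O.finite_W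
  have hle : etRedSub hp P hP O V₁ ≤ V₁ :=
    ma_le_of_core (coreProp hp hp2 P hP) (unrProp p hp P hP) V₁ (etB1 P O V₁)
      (fun f hf => hf.2) (etB1_comulClosed hp P hP O V₁) (etB1_full hp P hP O V₁ hV)
      (fun f hf w σ hσ => (etB1_value_mem hp P hP O V₁ hV hf w).2 σ hσ)
      (etRedSub hp P hP O V₁) (fun y hy => hy)
  exact hx (hle hcon')

/-! ### The statement -/

open scoped Classical in
/-- **FFL-ETMAX**: if inertia acts trivially on `W ⧸ V₁`, the indicator function of every coset
of `V₁` lies in the `R'`-span of the Hopf order (and is `V₁`-invariant). -/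
theorem etmax_indicator_mem_etB1 (hp : p.Prime) (hp2 : p ≠ 2) (P : ValuationSubring Kb)
    (hP : P.LiesOverPrime p) (O : HopfOrder p W act) (V₁ : AddSubgroup W)
    (hV : ∀ σ ∈ P.inertiaSubgroupIn ℚ, ∀ w, act σ w - w ∈ V₁) (w₀ : W) :
    (fun w : W => if w - w₀ ∈ V₁ then (1 : Kb) else 0) ∈ etB1 P O V₁ := by
  have : Fact p.Prime := ⟨hp⟩
  have hfin : Finite W := O.finite_W
  letI : Fintype W := Fintype.ofFinite W
  refine ⟨?_, transInv_indicator V₁ w₀ 1⟩
  -- the separating functions
  have hsep : ∀ w₁ : W, ∃ F : W → Kb, F ∈ etB1 P O V₁ ∧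
      (w₁ - w₀ ∉ V₁ → F (w₁ - w₀) - F 0 ∉ P.nonunits) := by
    intro w₁
    by_cases h : w₁ - w₀ ∈ V₁
    · exact ⟨fun _ => 1, ⟨spanB_one_mem P O, fun _ _ _ => rfl⟩, fun h' => absurd h h'⟩
    · obtain ⟨F, hF, hFu⟩ := etB1_separates hp hp2 P hP O V₁ hV h
      exact ⟨F, hF, fun _ => hFu⟩
  choose F hF hFu using hsep
  -- the Lagrange factors
  let G : W → W → Kb := fun w₁ w =>
    if w₁ - w₀ ∈ V₁ then 1
    else (F w₁ (w + -w₀) - F w₁ (w₁ - w₀)) * (F w₁ 0 - F w₁ (w₁ - w₀))⁻¹
  have hG : ∀ w₁ ∈ (Finset.univ : Finset W), G w₁ ∈ spanB P O := by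
    intro w₁ _
    by_cases h : w₁ - w₀ ∈ V₁
    · have : G w₁ = fun _ => 1 := by
        funext w
        simp only [G, if_pos h]
      rw [this]
      exact spanB_one_mem P O
    · have h1 : G w₁ = fun w => (F w₁ (w + -w₀) - F w₁ (w₁ - w₀)) *
          (F w₁ 0 - F w₁ (w₁ - w₀))⁻¹ := by
        funext w
        simp only [G, if_neg h]
      rw [h1]
      have hu : F w₁ 0 - F w₁ (w₁ - w₀) ∈ inertiaRing P :=
        (inertiaRing P).sub_mem (etB1_value_mem hp P hP O V₁ hV (hF w₁) 0)
          (etB1_value_mem hp P hP O V₁ hV (hF w₁) _)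
      have hnu : F w₁ 0 - F w₁ (w₁ - w₀) ∉ P.nonunits := by
        intro hmem
        apply hFu w₁ h
        have := red_neg_mem_nonunits P hmem
        rwa [neg_sub] at this
      have hinv : (F w₁ 0 - F w₁ (w₁ - w₀))⁻¹ ∈ inertiaRing P :=
        ⟨base_inv_mem_of_not_mem_nonunits hu.1 hnu, fun σ hσ => by
          rw [map_inv₀, hu.2 σ hσ]⟩
      exact spanB_mul_mem P O
        (spanB_sub_mem P O (etB1_translate hp P hP O V₁ hV (hF w₁) (-w₀)).1
          (spanB_const_mem P O (etB1_value_mem hp P hP O V₁ hV (hF w₁) _)))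
        (spanB_const_mem P O hinv)
  have hprod := spanB_prod_mem P O Finset.univ G hG
  have heq : (fun w : W => if w - w₀ ∈ V₁ then (1 : Kb) else 0) =
      (fun w => ∏ w₁ ∈ (Finset.univ : Finset W), G w₁ w) := by
    funext w
    by_cases hw : w - w₀ ∈ V₁
    · rw [if_pos hw]
      symm
      refine Finset.prod_eq_one (fun w₁ _ => ?_)
      by_cases h : w₁ - w₀ ∈ V₁
      · simp only [G, if_pos h]
      · simp only [G, if_neg h]
        have h2 : F w₁ (w + -w₀) = F w₁ 0 := by
          have h3 := (hF w₁).2 0 (w - w₀) hw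
          rw [zero_add] at h3
          rw [← sub_eq_add_neg]
          exact h3
        rw [h2]
        have hne : F w₁ 0 - F w₁ (w₁ - w₀) ≠ 0 := by
          intro h0
          apply hFu w₁ h
          have : F w₁ (w₁ - w₀) - F w₁ 0 = 0 := by
            rw [← neg_sub, h0, neg_zero]
          rw [this]
          exact red_zero_mem_nonunits P
        exact mul_inv_cancel₀ hne
    · rw [if_neg hw]
      symm
      refine Finset.prod_eq_zero (Finset.mem_univ w) ?_
      simp only [G, if_neg hw]
      rw [← sub_eq_add_neg, sub_self, zero_mul]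
  rw [heq]
  exact hprod

open scoped Classical in
/-- **FFL-ETMAX** (the statement of the blueprint): the indicator function of `w₀ + V₁` lies in
`Submodule.span (inertiaRing P) O.alg`. -/
theorem etmax_indicator (hp : p.Prime) (hp2 : p ≠ 2) (P : ValuationSubring Kb)
    (hP : P.LiesOverPrime p) (O : HopfOrder p W act) (V₁ : AddSubgroup W)
    (hV : ∀ σ ∈ P.inertiaSubgroupIn ℚ, ∀ w, act σ w - w ∈ V₁) (w₀ : W) :
    (fun w : W => if w - w₀ ∈ V₁ then (1 : Kb) else 0) ∈
      Submodule.span (inertiaRing P) (O.alg : Set (W → Kb)) :=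
  (etmax_indicator_mem_etB1 hp hp2 P hP O V₁ hV w₀).1

open scoped Classical in
/-- **FFL-ETMAX**, with the hypothesis `redKer ⊆ V₁`. -/
theorem etmax_indicator_of_redKer (hp : p.Prime) (hp2 : p ≠ 2) (P : ValuationSubring Kb)
    (hP : P.LiesOverPrime p) (O : HopfOrder p W act) (V₁ : AddSubgroup W)
    (hred : redKer P (O.alg : Set (W → Kb)) ⊆ (V₁ : Set W)) (w₀ : W) :
    (fun w : W => if w - w₀ ∈ V₁ then (1 : Kb) else 0) ∈
      Submodule.span (inertiaRing P) (O.alg : Set (W → Kb)) := by
  have : Fact p.Prime := ⟨hp⟩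
  refine etmax_indicator hp hp2 P hP O V₁ (fun σ hσ w => hred ?_) w₀
  exact augI_subset_redKer O hP (act_sub_mem_augI P act hσ w)

open scoped Classical in
/-- Every `V₁`-invariant function with values in `R'` lies in the `R'`-span of the Hopf order:
the invariant part of an order with unramified quotient `W ⧸ V₁` is the MAXIMAL order. -/
theorem etmax_mem_of_transInv (hp : p.Prime) (hp2 : p ≠ 2) (P : ValuationSubring Kb)
    (hP : P.LiesOverPrime p) (O : HopfOrder p W act) (V₁ : AddSubgroup W)
    (hV : ∀ σ ∈ P.inertiaSubgroupIn ℚ, ∀ w, act σ w - w ∈ V₁) (f : W → Kb)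
    (hinv : TransInv (V₁ : Set W) f) (hval : ∀ w, f w ∈ inertiaRing P) :
    f ∈ etB1 P O V₁ := by
  have : Fact p.Prime := ⟨hp⟩
  have hfin : Finite W := O.finite_W
  letI : Fintype W := Fintype.ofFinite W
  refine ⟨?_, hinv⟩
  -- `f = ∑_{w₀} f w₀ / #(V₁) ...` is awkward; use one representative per coset instead:
  -- `f = ∑ w₀ ∈ reps, f w₀ • 1_{w₀ + V₁}` where `reps` picks the canonical representative.
  let rep : W → W := fun w => (Quotient.out (QuotientAddGroup.mk (s := V₁) w) : W)
  have hrep : ∀ w, rep w - w ∈ V₁ := by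
    intro w
    have h1 : (QuotientAddGroup.mk (s := V₁) (rep w) : W ⧸ V₁) = QuotientAddGroup.mk w :=
      Quotient.out_eq _
    have h2 := (QuotientAddGroup.eq (s := V₁)).1 h1
    have h3 : rep w - w = -(-rep w + w) := by abel
    rw [h3]
    exact V₁.neg_mem h2
  have hrep_eq : ∀ w w', w - w' ∈ V₁ → rep w = rep w' := by
    intro w w' h
    have h1 : (QuotientAddGroup.mk (s := V₁) w : W ⧸ V₁) = QuotientAddGroup.mk w' := by
      rw [QuotientAddGroup.eq]
      have h3 : -w + w' = -(w - w') := by abel
      rw [h3]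
      exact V₁.neg_mem h
    show (Quotient.out (QuotientAddGroup.mk (s := V₁) w) : W) =
      Quotient.out (QuotientAddGroup.mk (s := V₁) w')
    rw [h1]
  have heq : f = ∑ w₀ ∈ Finset.univ.image rep,
      (⟨f w₀, hval w₀⟩ : inertiaRing P) • (fun w : W => if w - w₀ ∈ V₁ then (1 : Kb) else 0) := by
    funext w
    rw [Finset.sum_apply]
    rw [Finset.sum_eq_single (rep w)]
    · show f w = f (rep w) * (if w - rep w ∈ V₁ then (1 : Kb) else 0)
      have h1 : w - rep w ∈ V₁ := by
        have h3 : w - rep w = -(rep w - w) := by abel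
        rw [h3]
        exact V₁.neg_mem (hrep w)
      rw [if_pos h1, mul_one]
      have h2 := hinv w (rep w - w) (hrep w)
      have h4 : w + (rep w - w) = rep w := by abel
      rw [h4] at h2
      exact h2.symm
    · intro w₀ hw₀ hne
      show f w₀ * (if w - w₀ ∈ V₁ then (1 : Kb) else 0) = 0
      rw [if_neg, mul_zero]
      intro hmem
      apply hne
      obtain ⟨w', -, rfl⟩ := Finset.mem_image.1 hw₀
      -- `rep w' = rep w` since `w - rep w' ∈ V₁`
      have h5 : w' - w ∈ V₁ := by
        have h6 : w' - w = -(rep w' - w') + -(w - rep w') := by abel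
        rw [h6]
        exact V₁.add_mem (V₁.neg_mem (hrep w')) (V₁.neg_mem hmem)
      exact hrep_eq w' w h5
    · intro h
      exact absurd (Finset.mem_image.2 ⟨w, Finset.mem_univ w, rfl⟩) h
  rw [heq]
  exact Submodule.sum_mem _ (fun w₀ _ => Submodule.smul_mem _ _
    (etmax_indicator_mem_etB1 hp hp2 P hP O V₁ hV w₀).1)

end Fermat.Agent.FFL
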