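/-
Lib/FFL seat FFL-OT (helper41): **the inertia characters of a flat module killed by `p` are `1`
and `ω`** (Oort–Tate / Raynaud for `e = 1`, in the form needed by R4-FB and by DESC-FL).

`O : HopfOrder p W act`, `p • w = 0` on `W`, `x ≠ 0` an eigenvector of the inertia group `I` at `P`:
`act σ x = θ σ • x` for `σ ∈ I`.  Then either `I` fixes `x`, or `I` acts on `x` through the
cyclotomic character: `σ ζ = ζ ^ θ σ` for all `ζ` with `ζ ^ p = 1` (`inertia_eigen_char`).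

Proof.  If `x ∉ redKer = augI` (MAIN) then `I` fixes `x`.  Otherwise let `y` generate the ideal of
the values `f x - f 0`, `f` in the `P`-span of `O.alg`.
 (easy bound, `char_apply_mem`)  `(ζ' - 1) / y ∈ P` for a `p`-th root of unity `ζ' ≠ 1`;
 (Lie)  `f (n • x) - f 0 ≡ n (f x - f 0)` modulo `y²`;
 (UNR)  `Y = ∏_{c ∈ 𝔽_p^×} f₀ (c • x) = y^{p-1} * unit` is inertia-fixed, so `y^{p-1} / p ∈ P`.
So `w = y / (ζ' - 1)` is a unit of `P`, `σ w ≡ w`, and `σ y / y ≡ θ σ`, `σ (ζ' - 1) / (ζ' - 1) ≡ k`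
where `σ ζ' = ζ' ^ k`: `θ σ ≡ k` modulo `p`.
-/
import Fermat.Agent.Lib.FFL.Main
import Fermat.Agent.Lib.FFL.Char

set_option autoImplicit false
set_option linter.style.haveILetI false

namespace Fermat.Agent.FFL

open Fermat.Agent.FlatMod GaloisRep

local notation "Kb" => AlgebraicClosure ℚ
local notation "GK" => (AlgebraicClosure ℚ ≃ₐ[ℚ] AlgebraicClosure ℚ)

namespace OT

/-! ### The fractional ideal `y P` -/

/-- The `P`-submodule `y P` of `ℚ̄`. -/
noncomputable def idl (P : ValuationSubring Kb) (y : Kb) : Submodule P Kb :=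
  Submodule.span P {y}

theorem mem_idl {P : ValuationSubring Kb} {y t : Kb} :
    t ∈ idl P y ↔ ∃ c ∈ P, t = c * y := by
  unfold idl
  rw [Submodule.mem_span_singleton]
  constructor
  · rintro ⟨c, rfl⟩
    exact ⟨c, c.2, rfl⟩
  · rintro ⟨c, hc, rfl⟩
    exact ⟨⟨c, hc⟩, rfl⟩

theorem self_mem_idl (P : ValuationSubring Kb) (y : Kb) : y ∈ idl P y :=
  mem_idl.2 ⟨1, P.one_mem, (one_mul y).symm⟩

theorem mul_mem_idl {P : ValuationSubring Kb} {y t a : Kb} (ha : a ∈ P) (ht : t ∈ idl P y) :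
    a * t ∈ idl P y := by
  obtain ⟨c, hc, rfl⟩ := mem_idl.1 ht
  exact mem_idl.2 ⟨a * c, P.mul_mem _ _ ha hc, by ring⟩

theorem mul_mem_idl' {P : ValuationSubring Kb} {y t a : Kb} (ha : a ∈ P) (ht : t ∈ idl P y) :
    t * a ∈ idl P y := by
  rw [mul_comm]
  exact mul_mem_idl ha ht

theorem mul_mem_idl_mul {P : ValuationSubring Kb} {y y' t t' : Kb} (ht : t ∈ idl P y)
    (ht' : t' ∈ idl P y') : t * t' ∈ idl P (y * y') := by
  obtain ⟨c, hc, rfl⟩ := mem_idl.1 ht
  obtain ⟨c', hc', rfl⟩ := mem_idl.1 ht'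
  exact mem_idl.2 ⟨c * c', P.mul_mem _ _ hc hc', by ring⟩

theorem idl_sq_le {P : ValuationSubring Kb} {y : Kb} (hy : y ∈ P) {t : Kb}
    (ht : t ∈ idl P (y * y)) : t ∈ idl P y := by
  obtain ⟨c, hc, rfl⟩ := mem_idl.1 ht
  exact mem_idl.2 ⟨c * y, P.mul_mem _ _ hc hy, by ring⟩

theorem mem_of_mem_idl {P : ValuationSubring Kb} {y t : Kb} (hy : y ∈ P) (ht : t ∈ idl P y) :
    t ∈ P := by
  obtain ⟨c, hc, rfl⟩ := mem_idl.1 ht
  exact P.mul_mem _ _ hc hy

theorem mem_nonunits_of_mem_idl {P : ValuationSubring Kb} {y t : Kb} (hy : y ∈ P.nonunits)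
    (ht : t ∈ idl P y) : t ∈ P.nonunits := by
  obtain ⟨c, hc, rfl⟩ := mem_idl.1 ht
  exact red_mul_mem_nonunits_left P hc hy

variable {p : ℕ} {W : Type*} [AddCommGroup W] {act : GK → W → W}

/-! ### Step A/B: a generator of the ideal of the values `f x - f 0` -/

/-- There is a function `f ∈ O.alg` such that `y = f x - f 0 ≠ 0` divides all `g x - g 0`,
`g` in the `P`-span of `O.alg`. -/
theorem exists_generator [Fact p.Prime] (P : ValuationSubring Kb) (hP : P.LiesOverPrime p)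
    (O : HopfOrder p W act) {x : W} (hx : x ≠ 0) :
    ∃ f ∈ O.alg, f x - f 0 ≠ 0 ∧ ∀ g ∈ spanP P O, g x - g 0 ∈ idl P (f x - f 0) := by
  classical
  set d : SpanIdx O → Kb := fun i => spanFun O i x - spanFun O i 0 with hd
  -- some `d i` is nonzero
  have hne : ∃ i, d i ≠ 0 := by
    by_contra hcon0
    have hcon : ∀ i, d i = 0 := fun i => by_contra (fun h => hcon0 ⟨i, h⟩)
    apply hx
    apply O.sep
    intro h hh
    obtain ⟨a, _, rfl⟩ := (mem_spanP_iff P hP O h).1 (subset_spanP P O hh)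
    simp only [Finset.sum_apply, Pi.smul_apply, smul_eq_mul]
    refine Finset.sum_congr rfl (fun i _ => ?_)
    have := hcon i
    rw [hd] at this
    rw [sub_eq_zero.1 this]
  obtain ⟨i₁, hi₁⟩ := hne
  obtain ⟨i₀, -, hmax⟩ := Finset.exists_max_image Finset.univ (fun i => P.valuation (d i))
    ⟨i₁, Finset.mem_univ _⟩
  have hy0 : d i₀ ≠ 0 := by
    intro h0
    have h1 := hmax i₁ (Finset.mem_univ _)
    rw [h0, map_zero] at h1
    exact hi₁ ((map_eq_zero _).1 (le_antisymm h1 zero_le))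
  have hdiv : ∀ i, d i ∈ idl P (d i₀) := by
    intro i
    refine mem_idl.2 ⟨d i / d i₀, ?_, by field_simp⟩
    rw [← ValuationSubring.valuation_le_one_iff, map_div₀]
    exact div_le_one_of_le₀ (hmax i (Finset.mem_univ _)) zero_le
  refine ⟨spanFun O i₀, spanFun_mem O i₀, hy0, fun g hg => ?_⟩
  obtain ⟨a, ha, rfl⟩ := (mem_spanP_iff P hP O g).1 hg
  have h2 : (∑ i, a i • spanFun O i) x - (∑ i, a i • spanFun O i) 0 = ∑ i, a i * d i := by
    simp only [Finset.sum_apply, Pi.smul_apply, smul_eq_mul, hd, mul_sub, Finset.sum_sub_distrib]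
  rw [h2]
  exact Submodule.sum_mem _ (fun i _ => mul_mem_idl (ha i) (hdiv i))

/-! ### Step C: the Lie algebra congruence -/

/-- (C1) the values at the multiples of `x`. -/
theorem apply_nsmul_sub_mem [Fact p.Prime] (P : ValuationSubring Kb) (hP : P.LiesOverPrime p)
    (O : HopfOrder p W act) {x : W} {y : Kb}
    (hy : ∀ g ∈ spanP P O, g x - g 0 ∈ idl P y) (n : ℕ) :
    ∀ g ∈ spanP P O, g (n • x) - g 0 ∈ idl P y := by
  induction n with
  | zero =>
    intro g _
    rw [zero_smul, sub_self]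
    exact Submodule.zero_mem _
  | succ n ih =>
    intro g hg
    obtain ⟨m, a, b, ha, hb, hab⟩ := spanP_comulClosed P O g hg
    have h1 : g ((n + 1) • x) - g 0
        = ∑ i, ((a i (n • x) - a i 0) * b i x + a i 0 * (b i x - b i 0)) := by
      have e1 : g ((n + 1) • x) = ∑ i, a i (n • x) * b i x := by
        rw [succ_nsmul, hab]
      have e2 : g 0 = ∑ i, a i 0 * b i 0 := by
        have := hab 0 0
        rwa [add_zero] at this
      rw [e1, e2, ← Finset.sum_sub_distrib]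
      refine Finset.sum_congr rfl (fun i _ => ?_)
      ring
    rw [h1]
    refine Submodule.sum_mem _ (fun i _ => Submodule.add_mem _ ?_ ?_)
    · exact mul_mem_idl' (spanP_mem P hP O (hb i) x) (ih (a i) (ha i))
    · exact mul_mem_idl (spanP_mem P hP O (ha i) 0) (hy (b i) (hb i))

/-- (C2) `g (n • x) - g 0 ≡ n (g x - g 0)` modulo `y²`. -/
theorem apply_nsmul_sub_mem_sq [Fact p.Prime] (P : ValuationSubring Kb)
    (hP : P.LiesOverPrime p) (O : HopfOrder p W act) {x : W} {y : Kb}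
    (hy : ∀ g ∈ spanP P O, g x - g 0 ∈ idl P y) (n : ℕ) :
    ∀ g ∈ spanP P O, g (n • x) - g 0 - n * (g x - g 0) ∈ idl P (y * y) := by
  induction n with
  | zero =>
    intro g _
    rw [zero_smul, sub_self, Nat.cast_zero, zero_mul, sub_self]
    exact Submodule.zero_mem _
  | succ n ih =>
    intro g hg
    obtain ⟨m, a, b, ha, hb, hab⟩ := spanP_comulClosed P O g hg
    have h1 : g ((n + 1) • x) - g 0 - ((n + 1 : ℕ) : Kb) * (g x - g 0)
        = (g (n • x) - g 0 - (n : Kb) * (g x - g 0))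
          + ∑ i, (a i (n • x) - a i 0) * (b i x - b i 0) := by
      have e1 : g ((n + 1) • x) = ∑ i, a i (n • x) * b i x := by
        rw [succ_nsmul, hab]
      have e2 : g 0 = ∑ i, a i 0 * b i 0 := by
        have := hab 0 0
        rwa [add_zero] at this
      have e3 : g (n • x) = ∑ i, a i (n • x) * b i 0 := by
        have := hab (n • x) 0
        rwa [add_zero] at this
      have e4 : g x = ∑ i, a i 0 * b i x := by
        have := hab 0 x
        rwa [zero_add] at this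
      have e5 : ∑ i, (a i (n • x) - a i 0) * (b i x - b i 0)
          = g ((n + 1) • x) - g (n • x) - g x + g 0 := by
        rw [e1, e2, e3, e4, ← Finset.sum_sub_distrib, ← Finset.sum_sub_distrib,
          ← Finset.sum_add_distrib]
        refine Finset.sum_congr rfl (fun i _ => ?_)
        ring
      rw [e5]
      push_cast
      ring
    rw [h1]
    refine Submodule.add_mem _ (ih g hg) (Submodule.sum_mem _ (fun i _ => ?_))
    exact mul_mem_idl_mul (apply_nsmul_sub_mem P hP O hy n (a i) (ha i)) (hy (b i) (hb i))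

/-! ### Step D: the easy bound -/

/-- A nonzero element of a finite additive group killed by `p` is separated from `0` by a
character with values in the `p`-th roots of unity. -/
theorem exists_char [Finite W] (hpW : ∀ w : W, p • w = 0) {x : W} (hx : x ≠ 0) :
    ∃ χ : W → Kb, (∀ w w', χ (w + w') = χ w * χ w') ∧ χ 0 = 1 ∧ χ x ≠ 1 ∧ χ x ^ p = 1 := by
  classical
  have hexp : Monoid.exponent (Multiplicative W) ≠ 0 := Monoid.exponent_ne_zero_of_finite
  haveI : NeZero ((Monoid.exponent (Multiplicative W) : ℕ) : ℚ) :=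
    ⟨by exact_mod_cast hexp⟩
  have hx' : (Multiplicative.ofAdd x) ≠ 1 := fun h => hx (by simpa using h)
  obtain ⟨φ, hφ⟩ := CommGroup.exists_apply_ne_one_of_hasEnoughRootsOfUnity
    (Multiplicative W) Kb hx'
  refine ⟨fun w => ((φ (Multiplicative.ofAdd w) : Kbˣ) : Kb), fun w w' => ?_, ?_, ?_, ?_⟩
  · show ((φ (Multiplicative.ofAdd (w + w')) : Kbˣ) : Kb) = _
    rw [ofAdd_add, map_mul, Units.val_mul]
  · show ((φ (Multiplicative.ofAdd (0 : W)) : Kbˣ) : Kb) = 1
    rw [ofAdd_zero, map_one, Units.val_one]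
  · intro h
    exact hφ (Units.ext h)
  · show ((φ (Multiplicative.ofAdd x) : Kbˣ) : Kb) ^ p = 1
    rw [← Units.val_pow_eq_pow_val, ← map_pow, ← ofAdd_nsmul, hpW, ofAdd_zero, map_one,
      Units.val_one]

/-- The easy bound: `ζ - 1 ∈ y P` for some `p`-th root of unity `ζ ≠ 1`. -/
theorem exists_root_sub_one_mem [Fact p.Prime] (P : ValuationSubring Kb)
    (hP : P.LiesOverPrime p) (hint : IntProp p P) (hdvd : DvdProp p P)
    (O : HopfOrder p W act) (hpW : ∀ w : W, p • w = 0) {x : W} (hx : x ≠ 0) {y : Kb}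
    (hy0 : y ≠ 0) (hy : ∀ g ∈ spanP P O, g x - g 0 ∈ idl P y) :
    ∃ ζ : Kb, ζ ≠ 1 ∧ ζ ^ p = 1 ∧ ζ - 1 ∈ idl P y := by
  haveI : Finite W := O.finite_W
  obtain ⟨χ, hmul, h0, hχx, hχp⟩ := exists_char hpW hx
  refine ⟨χ x, hχx, hχp, ?_⟩
  -- the functional `g ↦ (g x - g 0) / y`
  let u : (W → Kb) →ₗ[Kb] Kb :=
    y⁻¹ • ((LinearMap.proj x : (W → Kb) →ₗ[Kb] Kb) - (LinearMap.proj 0 : (W → Kb) →ₗ[Kb] Kb))
  have hu : ∀ g : W → Kb, u g = y⁻¹ * (g x - g 0) := fun g => rfl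
  have huP : ∀ g ∈ spanP P O, u g ∈ P := by
    intro g hg
    obtain ⟨c, hc, hcy⟩ := mem_idl.1 (hy g hg)
    rw [hu, hcy, mul_comm c y, ← mul_assoc, inv_mul_cancel₀ hy0, one_mul]
    exact hc
  have h1 := char_apply_mem P hP hint hdvd O u huP χ hmul h0
  rw [hu, h0] at h1
  refine mem_idl.2 ⟨_, h1, ?_⟩
  field_simp

/-! ### Step E: the norm over `𝔽_p^×` is inertia-fixed (UNR) -/

theorem act_nsmul (O : HopfOrder p W act) (σ : GK) (n : ℕ) (x : W) :
    act σ (n • x) = n • act σ x := by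
  induction n with
  | zero =>
    rw [zero_smul, zero_smul]
    exact O.act_zero σ
  | succ n ih => rw [succ_nsmul, succ_nsmul, O.act_add, ih]

theorem act_inv_act (O : HopfOrder p W act) (σ : GK) (x : W) : act σ⁻¹ (act σ x) = x := by
  have := hopfOrder_act_inv_cancel O σ⁻¹ x
  rwa [inv_inv] at this

theorem nsmul_eq_val_nsmul [NeZero p] (hpW : ∀ w : W, p • w = 0) (m : ℕ) (x : W) :
    m • x = ((m : ZMod p).val) • x := by
  rw [ZMod.val_natCast]
  conv_lhs => rw [← Nat.div_add_mod m p]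
  rw [add_smul, mul_smul, hpW, zero_add]

/-- The values at the multiples of `x`: `f (n • x) - f 0 = y (n + y t)`. -/
theorem exists_factor [Fact p.Prime] (P : ValuationSubring Kb) (hP : P.LiesOverPrime p)
    (O : HopfOrder p W act) {x : W} {f : W → Kb} (hf : f ∈ O.alg)
    (hy : ∀ g ∈ spanP P O, g x - g 0 ∈ idl P (f x - f 0)) (n : ℕ) :
    ∃ t ∈ P, f (n • x) - f 0 = (f x - f 0) * ((n : Kb) + (f x - f 0) * t) := by
  obtain ⟨c, hc, hcy⟩ := mem_idl.1
    (apply_nsmul_sub_mem_sq P hP O hy n f (subset_spanP P O hf))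
  refine ⟨c, hc, ?_⟩
  linear_combination hcy

/-- A natural number prime to `p` plus a nonunit is a unit of `P`. -/
theorem unit_of_natCast_add (hp : p.Prime) (P : ValuationSubring Kb) (hP : P.LiesOverPrime p)
    {n : ℕ} (hn : ¬ p ∣ n) {e : Kb} (he : e ∈ P.nonunits) :
    (n : Kb) + e ∈ P ∧ ((n : Kb) + e)⁻¹ ∈ P := by
  have h1 : (n : Kb) + e ∈ P := P.add_mem _ _ (natCast_mem P n) (red_mem_of_mem_nonunits P he)
  refine ⟨h1, base_inv_mem_of_not_mem_nonunits h1 (fun h2 => ?_)⟩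
  have h3 : (n : Kb) ∈ P.nonunits := by
    have := red_sub_mem_nonunits P h2 he
    rwa [add_sub_cancel_right] at this
  exact Fermat.Agent.Cyclo.natCast_not_mem_nonunits P hp hP hn h3

theorem val_unit_not_dvd [Fact p.Prime] (c : (ZMod p)ˣ) : ¬ p ∣ (c : ZMod p).val := by
  intro h
  have h1 : ((c : ZMod p).val : ZMod p) = 0 := (ZMod.natCast_eq_zero_iff _ _).2 h
  rw [ZMod.natCast_zmod_val] at h1
  exact c.ne_zero h1

/-- **UNR step**: `y ^ (p - 1) ∈ p P`. -/
theorem pow_pred_mem [Fact p.Prime] (P : ValuationSubring Kb) (hP : P.LiesOverPrime p)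
    (hunr : UnrProp p P) (O : HopfOrder p W act) (hpW : ∀ w : W, p • w = 0) {x : W}
    (hx : x ≠ 0) (θ : GK → ℕ) (hθ : ∀ σ ∈ P.inertiaSubgroupIn ℚ, act σ x = θ σ • x)
    {f : W → Kb} (hf : f ∈ O.alg) (hyn : f x - f 0 ∈ P.nonunits)
    (hy : ∀ g ∈ spanP P O, g x - g 0 ∈ idl P (f x - f 0)) :
    ∃ b ∈ P, (f x - f 0) ^ (p - 1) = (p : Kb) * b := by
  classical
  have hp : p.Prime := Fact.out
  set y := f x - f 0 with hydef
  -- the factors
  choose t ht hfac using exists_factor P hP O hf hy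
  set e : (ZMod p)ˣ → Kb := fun c => ((c : ZMod p).val : Kb) + y * t (c : ZMod p).val with he
  have heU : ∀ c, e c ∈ P ∧ (e c)⁻¹ ∈ P := fun c =>
    unit_of_natCast_add hp P hP (val_unit_not_dvd c) (red_mul_mem_nonunits_right P hyn (ht _))
  set Y : Kb := ∏ c : (ZMod p)ˣ, (f ((c : ZMod p).val • x) - f 0) with hY
  have hYfac : Y = y ^ (p - 1) * ∏ c, e c := by
    rw [hY]
    have : ∀ c : (ZMod p)ˣ, f ((c : ZMod p).val • x) - f 0 = y * e c := fun c => hfac _
    simp only [this]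
    rw [Finset.prod_mul_distrib, Finset.prod_const, Finset.card_univ, ZMod.card_units]
  have hUP : (∏ c, e c) ∈ P := P.toSubring.prod_mem (fun c _ => (heU c).1)
  have hUinv : (∏ c, e c)⁻¹ ∈ P := by
    rw [← Finset.prod_inv_distrib]
    exact P.toSubring.prod_mem (fun c _ => (heU c).2)
  have hU0 : (∏ c, e c) ≠ 0 := by
    intro h0
    obtain ⟨c, -, hc⟩ := Finset.prod_eq_zero_iff.1 h0
    have h6 : ((c : ZMod p).val : Kb) ∈ P.nonunits := by
      have h7 : ((c : ZMod p).val : Kb) = -(y * t (c : ZMod p).val) := by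
        have h8 : e c = 0 := hc
        rw [he] at h8
        linear_combination h8
      rw [h7]
      exact red_neg_mem_nonunits P (red_mul_mem_nonunits_right P hyn (ht _))
    exact Fermat.Agent.Cyclo.natCast_not_mem_nonunits P hp hP (val_unit_not_dvd c) h6
  -- `Y` is a nonunit
  have hp1 : p - 1 = (p - 2) + 1 := by have := hp.two_le; omega
  have hYn : Y ∈ P.nonunits := by
    rw [hYfac, hp1, pow_succ, mul_assoc]
    refine red_mul_mem_nonunits_left P (pow_mem (red_mem_of_mem_nonunits P hyn) _) ?_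
    exact red_mul_mem_nonunits_right P hyn hUP
  -- `Y` is inertia-fixed
  have hYfix : ∀ σ ∈ P.inertiaSubgroupIn ℚ, σ Y = Y := by
    intro σ hσ
    have hθ0 : ((θ σ : ℕ) : ZMod p) ≠ 0 := by
      intro h0
      have h1 : p ∣ θ σ := (ZMod.natCast_eq_zero_iff _ _).1 h0
      obtain ⟨m, hm⟩ := h1
      have h2 : act σ x = 0 := by
        rw [hθ σ hσ, hm, mul_smul, hpW]
      apply hx
      rw [← act_inv_act O σ x, h2]
      exact O.act_zero σ⁻¹
    let u : (ZMod p)ˣ := Units.mk0 _ hθ0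
    have h3 : ∀ c : (ZMod p)ˣ, σ (f ((c : ZMod p).val • x) - f 0)
        = f (((c * u : (ZMod p)ˣ) : ZMod p).val • x) - f 0 := by
      intro c
      rw [map_sub, ← O.equiv f hf, ← O.equiv f hf, O.act_zero, act_nsmul O, hθ σ hσ,
        ← mul_smul, nsmul_eq_val_nsmul hpW]
      congr 3
      rw [Nat.cast_mul, ZMod.natCast_zmod_val]
      rfl
    rw [hY, map_prod]
    simp only [h3]
    exact Fintype.prod_equiv (Equiv.mulRight u) _ _ (fun c => rfl)
  -- UNR
  have h4 : Y / (p : Kb) ∈ P := hunr Y hYn hYfix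
  refine ⟨Y / (p : Kb) * (∏ c, e c)⁻¹, P.mul_mem _ _ h4 hUinv, ?_⟩
  have hp0 : (p : Kb) ≠ 0 := by exact_mod_cast hp.ne_zero
  rw [hYfac]
  field_simp

/-! ### Step F: cyclotomic units -/

theorem isPrimitiveRoot_of_ne_one [Fact p.Prime] {ζ : Kb} (hζ1 : ζ ≠ 1) (hζp : ζ ^ p = 1) :
    IsPrimitiveRoot ζ p := by
  have h := orderOf_eq_prime hζp hζ1
  rw [← h]
  exact IsPrimitiveRoot.orderOf ζ

/-- `ζ ^ k - 1 = (ζ - 1) (k + e)` with `e` a nonunit, if `ζ - 1` is a nonunit. -/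
theorem pow_sub_one_factor (P : ValuationSubring Kb) {ζ : Kb} (hζP : ζ ∈ P)
    (hζn : ζ - 1 ∈ P.nonunits) (k : ℕ) :
    ∃ e ∈ P.nonunits, ζ ^ k - 1 = (ζ - 1) * ((k : Kb) + e) := by
  induction k with
  | zero =>
    exact ⟨0, red_zero_mem_nonunits P, by simp⟩
  | succ k ih =>
    obtain ⟨e, he, hk⟩ := ih
    refine ⟨e + (ζ ^ k - 1), red_add_mem_nonunits P he
      (Fermat.Agent.Cyclo.pow_sub_one_mem_nonunits P hζP hζn k), ?_⟩
    push_cast
    rw [pow_succ]
    linear_combination hk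

/-- `p ∈ (ζ - 1) ^ (p - 1) P` for a `p`-th root of unity `ζ ≠ 1`. -/
theorem natCast_mem_idl_pow [Fact p.Prime] (hp2 : p ≠ 2) (P : ValuationSubring Kb) {ζ : Kb}
    (hζ1 : ζ ≠ 1) (hζp : ζ ^ p = 1) : ∃ c ∈ P, (p : Kb) = (ζ - 1) ^ (p - 1) * c := by
  have hp : p.Prime := Fact.out
  have hζP : ζ ∈ P := Fermat.Agent.Cyclo.pow_eq_one_mem P hp.ne_zero hζp
  have hprim : IsPrimitiveRoot ζ ((p - 1) + 1) := by
    rw [Nat.sub_add_cancel hp.one_le]
    exact isPrimitiveRoot_of_ne_one hζ1 hζp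
  have h1 := hprim.prod_one_sub_pow_eq_order
  have h2 : ∀ k : ℕ, (1 : Kb) - ζ ^ (k + 1) = (1 - ζ) * ∑ j ∈ Finset.range (k + 1), ζ ^ j :=
    fun k => (mul_neg_geom_sum ζ (k + 1)).symm
  simp only [h2] at h1
  rw [Finset.prod_mul_distrib, Finset.prod_const, Finset.card_range] at h1
  have h3 : (((p - 1 : ℕ) : Kb) + 1) = (p : Kb) := by
    have : ((p - 1 : ℕ) : Kb) = (p : Kb) - 1 := by
      rw [Nat.cast_sub hp.one_le, Nat.cast_one]
    rw [this, sub_add_cancel]
  rw [h3] at h1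
  have heven : Even (p - 1) := by
    rcases hp.eq_two_or_odd' with h | h
    · exact absurd h hp2
    · exact Nat.Odd.sub_odd h odd_one
  refine ⟨∏ k ∈ Finset.range (p - 1), ∑ j ∈ Finset.range (k + 1), ζ ^ j,
    P.toSubring.prod_mem (fun k _ => P.toSubring.sum_mem (fun j _ => pow_mem hζP j)), ?_⟩
  rw [← h1, ← heven.neg_pow, neg_sub]

/-! ### The theorem -/

/-- Case `x ∈ redKer`: inertia acts on `x` through the cyclotomic character. -/
theorem char_eq_cyclo [Fact p.Prime] (hp2 : p ≠ 2) (P : ValuationSubring Kb)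
    (hP : P.LiesOverPrime p) (hint : IntProp p P) (hdvd : DvdProp p P) (hunr : UnrProp p P)
    (O : HopfOrder p W act) (hpW : ∀ w : W, p • w = 0) {x : W} (hx : x ≠ 0)
    (hxr : x ∈ redKer P (O.alg : Set (W → Kb)))
    (θ : GK → ℕ) (hθ : ∀ σ ∈ P.inertiaSubgroupIn ℚ, act σ x = θ σ • x)
    (σ : GK) (hσ : σ ∈ P.inertiaSubgroupIn ℚ) (ξ : Kb) (hξ : ξ ^ p = 1) :
    σ ξ = ξ ^ θ σ := by
  have hp : p.Prime := Fact.out
  obtain ⟨f, hf, hy0, hy⟩ := exists_generator P hP O hx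
  set y := f x - f 0 with hydef
  have hyn : y ∈ P.nonunits := hxr f hf
  have hyP : y ∈ P := red_mem_of_mem_nonunits P hyn
  -- the easy bound
  obtain ⟨ζ, hζ1, hζp, hζy⟩ := exists_root_sub_one_mem P hP hint hdvd O hpW hx hy0 hy
  obtain ⟨a, haP, ha⟩ := mem_idl.1 hζy
  have hζn : ζ - 1 ∈ P.nonunits := mem_nonunits_of_mem_idl hyn hζy
  have hζP : ζ ∈ P := Fermat.Agent.Cyclo.pow_eq_one_mem P hp.ne_zero hζp
  have hζ0 : ζ - 1 ≠ 0 := sub_ne_zero.2 hζ1
  -- UNR and the cyclotomic unit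
  obtain ⟨b, hbP, hb⟩ := pow_pred_mem P hP hunr O hpW hx θ hθ hf hyn hy
  obtain ⟨c, hcP, hc⟩ := natCast_mem_idl_pow hp2 P hζ1 hζp
  have hp1 : p - 1 = (p - 2) + 1 := by have := hp.two_le; omega
  -- `a` is a unit: `a * (a ^ (p - 2) * b * c) = 1`
  have hyp0 : y ^ (p - 1) ≠ 0 := pow_ne_zero _ hy0
  have hunit : a * (a ^ (p - 2) * b * c) = 1 := by
    have h1 : a ^ (p - 1) * b * c = 1 := by
      have h2 : (ζ - 1) ^ (p - 1) = a ^ (p - 1) * y ^ (p - 1) := by
        rw [ha, mul_pow]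
      have h3 : (p : Kb) ≠ 0 := by exact_mod_cast hp.ne_zero
      have h4 : (p : Kb) = (a ^ (p - 1) * b * c) * (p : Kb) := by
        conv_lhs => rw [hc, h2, hb]
        ring
      have h5 : (1 - a ^ (p - 1) * b * c) * (p : Kb) = 0 := by linear_combination h4
      rcases mul_eq_zero.1 h5 with h6 | h6
      · linear_combination -h6
      · exact absurd h6 h3
    rw [← h1, hp1, pow_succ]
    ring
  have ha0 : a ≠ 0 := left_ne_zero_of_mul_eq_one hunit
  have hainv : a⁻¹ ∈ P := by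
    have : a⁻¹ = a ^ (p - 2) * b * c := (eq_inv_of_mul_eq_one_right hunit).symm
    rw [this]
    exact P.mul_mem _ _ (P.mul_mem _ _ (pow_mem haP _) hbP) hcP
  -- `y = w (ζ - 1)`, `w = a⁻¹` a unit
  set w := a⁻¹ with hw
  have hyw : y = w * (ζ - 1) := by
    rw [ha, hw, ← mul_assoc, inv_mul_cancel₀ ha0, one_mul]
  -- the action of `σ`
  have hσw : σ w - w ∈ P.nonunits := Fermat.Agent.Cyclo.inertia_sub_mem_nonunits P hσ hainv
  obtain ⟨t, htP, ht⟩ := exists_factor P hP O hf hy (θ σ)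
  have hσy : σ y = y * ((θ σ : Kb) + y * t) := by
    rw [← ht, hydef, map_sub, ← O.equiv f hf, ← O.equiv f hf, O.act_zero, hθ σ hσ]
  obtain ⟨k, -, hk⟩ := (isPrimitiveRoot_of_ne_one hζ1 hζp).eq_pow_of_pow_eq_one
    (show (σ ζ) ^ p = 1 by rw [← map_pow, hζp, map_one])
  obtain ⟨e, he, hke⟩ := pow_sub_one_factor P hζP hζn k
  have hσζ : σ (ζ - 1) = (ζ - 1) * ((k : Kb) + e) := by
    rw [map_sub, map_one, ← hk, hke]
  -- compare
  have hcmp : σ w * ((k : Kb) + e) = w * ((θ σ : Kb) + y * t) := by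
    have h1 : σ y = σ w * σ (ζ - 1) := by rw [hyw, map_mul]
    rw [hσζ] at h1
    rw [hσy, hyw] at h1
    have h2 : (ζ - 1) * (σ w * ((k : Kb) + e) - w * ((θ σ : Kb) + w * (ζ - 1) * t)) = 0 := by
      linear_combination -h1
    rcases mul_eq_zero.1 h2 with h3 | h3
    · exact absurd h3 hζ0
    · rw [hyw]
      linear_combination h3
  have hdiff : ((θ σ : Kb) - (k : Kb)) ∈ P.nonunits := by
    have h1 : w * ((θ σ : Kb) - (k : Kb))
        = (σ w - w) * ((k : Kb) + e) + w * e - w * (y * t) := by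
      linear_combination -hcmp
    have h2 : w * ((θ σ : Kb) - (k : Kb)) ∈ P.nonunits := by
      rw [h1]
      refine red_sub_mem_nonunits P (red_add_mem_nonunits P ?_ ?_) ?_
      · exact red_mul_mem_nonunits_right P hσw
          (P.add_mem _ _ (natCast_mem P k) (red_mem_of_mem_nonunits P he))
      · exact red_mul_mem_nonunits_left P hainv he
      · exact red_mul_mem_nonunits_left P hainv (red_mul_mem_nonunits_right P hyn htP)
    have h3 : ((θ σ : Kb) - (k : Kb)) = a * (w * ((θ σ : Kb) - (k : Kb))) := by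
      rw [← mul_assoc, hw, mul_inv_cancel₀ ha0, one_mul]
    rw [h3]
    exact red_mul_mem_nonunits_left P haP h2
  -- so `θ σ ≡ k` modulo `p`
  have hmod : ((θ σ : ℤ) - (k : ℤ)) % (p : ℤ) = 0 := by
    by_contra hcon
    have h1 : ¬ (p : ℤ) ∣ ((θ σ : ℤ) - (k : ℤ)) := fun h => hcon (Int.emod_eq_zero_of_dvd h)
    have h2 := ar_val_int_eq_one hp hP h1
    have h3 : (((θ σ : ℤ) - (k : ℤ) : ℤ) : Kb) = (θ σ : Kb) - (k : Kb) := by push_cast; ring
    rw [h3] at h2
    have h4 := (ValuationSubring.mem_nonunits_iff P).1 hdiff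
    rw [h2] at h4
    exact lt_irrefl _ h4
  have hpow : ζ ^ θ σ = ζ ^ k := by
    have h1 : (θ σ : ℤ) ≡ (k : ℤ) [ZMOD (p : ℤ)] := by
      rw [Int.modEq_iff_dvd]
      have : (p : ℤ) ∣ (θ σ : ℤ) - k := Int.dvd_of_emod_eq_zero hmod
      have h2 : (k : ℤ) - θ σ = -((θ σ : ℤ) - k) := by ring
      rw [h2]
      exact (dvd_neg).2 this
    have h2 : θ σ ≡ k [MOD p] := Int.natCast_modEq_iff.1 h1
    rw [pow_eq_pow_mod (θ σ) hζp, pow_eq_pow_mod k hζp, h2]
  have hσζ' : σ ζ = ζ ^ θ σ := by rw [hpow, hk]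
  -- general `ξ`
  obtain ⟨j, -, hj⟩ := (isPrimitiveRoot_of_ne_one hζ1 hζp).eq_pow_of_pow_eq_one hξ
  rw [← hj, map_pow, hσζ', ← pow_mul, ← pow_mul, mul_comm]

end OT

open OT in
/-- **FFL-OT**: an eigenvector `x ≠ 0` of the inertia group in a flat module killed by `p` is
either fixed by inertia, or inertia acts on it through the cyclotomic character. -/
theorem inertia_eigen_char {p : ℕ} (hp : p.Prime) (hp2 : p ≠ 2) (P : ValuationSubring Kb)
    (hP : P.LiesOverPrime p) {W : Type} [AddCommGroup W] {act : GK → W → W}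
    (O : HopfOrder p W act) (hpW : ∀ w : W, p • w = 0) {x : W} (hx : x ≠ 0)
    (θ : GK → ℕ) (hθ : ∀ σ ∈ P.inertiaSubgroupIn ℚ, act σ x = θ σ • x) :
    (∀ σ ∈ P.inertiaSubgroupIn ℚ, act σ x = x) ∨
      (∀ σ ∈ P.inertiaSubgroupIn ℚ, ∀ ξ : Kb, ξ ^ p = 1 → σ ξ = ξ ^ θ σ) := by
  haveI : Fact p.Prime := ⟨hp⟩
  by_cases hxr : x ∈ redKer P (O.alg : Set (W → Kb))
  · right
    intro σ hσ ξ hξ
    exact char_eq_cyclo hp2 P hP (intProp hp hP) (dvdProp hp hP) (unrProp p hp P hP) O hpW hx hxr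
      θ hθ σ hσ ξ hξ
  · left
    intro σ hσ
    have hmain : redKer P (O.alg : Set (W → Kb)) = (augI P act : Set W) :=
      mainProp hp hp2 P hP W act O
    have hxa : x ∉ augI P act := fun h => hxr (by rw [hmain]; exact h)
    have h1 : act σ x - x ∈ augI P act := act_sub_mem_augI P act hσ x
    by_contra hne
    -- `(θ σ - 1) • x ∈ augI` with `θ σ - 1` prime to `p`
    have h2 : ((θ σ : ℤ) - 1) • x ∈ augI P act := by
      rw [sub_smul, one_smul, natCast_zsmul, ← hθ σ hσ]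
      exact h1
    have h3 : ¬ (p : ℤ) ∣ ((θ σ : ℤ) - 1) := by
      rintro ⟨m, hm⟩
      apply hne
      have h4 : ((θ σ : ℤ) - 1) • x = 0 := by
        rw [hm, mul_smul, natCast_zsmul, hpW]
      rw [sub_smul, one_smul, natCast_zsmul, ← hθ σ hσ, sub_eq_zero] at h4
      exact h4
    have hcop : IsCoprime ((θ σ : ℤ) - 1) (p : ℤ) :=
      ((Nat.prime_iff_prime_int.1 hp).coprime_iff_not_dvd.2 h3).symm
    obtain ⟨u, v, huv⟩ := hcop
    apply hxa
    have h5 : x = u • (((θ σ : ℤ) - 1) • x) := by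
      have h6 : (u * ((θ σ : ℤ) - 1) + v * (p : ℤ)) • x = x := by rw [huv, one_smul]
      rw [add_smul, mul_smul, mul_smul, natCast_zsmul, hpW, smul_zero, add_zero] at h6
      exact h6.symm
    rw [h5]
    exact (augI P act).zsmul_mem h2 u

end Fermat.Agent.FFL
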