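/-
Lib/FFL, layer 2 (helper44): the unconditional forms of FFL-ET and FFL-FREE, for odd `p`
(`ExactProp` is `Fermat.Agent.FFL.exactProp`, Lib/FFL/Main.lean).
-/
import Fermat.Agent.Lib.FFL.Free
import Fermat.Agent.Lib.FFL.Main

set_option autoImplicit false

namespace Fermat.Agent.FFL

open Fermat.Agent.FlatMod GaloisRep IsLocalRing

local notation "Kb" => AlgebraicClosure ℚ
local notation "GK" => (AlgebraicClosure ℚ ≃ₐ[ℚ] AlgebraicClosure ℚ)

/-- **FFL-ET**, unconditional: a flat extension of unramified by unramified is unramified. -/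
theorem et_of_flat {p : ℕ} (hp : p.Prime) (hp2 : p ≠ 2) {P : ValuationSubring Kb}
    (hP : P.LiesOverPrime p) {M : Type} [AddCommGroup M] {act : GK → M → M}
    (hM : IsFlatGaloisModule p M act)
    (X : AddSubgroup M) (hX : ∀ σ, ∀ x ∈ X, act σ x ∈ X)
    (hIX : ∀ σ ∈ P.inertiaSubgroupIn ℚ, ∀ x ∈ X, act σ x = x)
    (hIQ : ∀ σ ∈ P.inertiaSubgroupIn ℚ, ∀ m : M, act σ m - m ∈ X) :
    ∀ σ ∈ P.inertiaSubgroupIn ℚ, ∀ m : M, act σ m = m :=
  et_of_exact (exactProp hp hp2 P hP) hM X hX hIX hIQ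

variable {A : Type} [CommRing A] [IsLocalRing A]

/-- **FFL-FREE (a)**, unconditional. -/
theorem coinv_flat_of_odd [Finite A] {p : ℕ} (hp : p.Prime) (hp2 : p ≠ 2)
    {P : ValuationSubring Kb} (hP : P.LiesOverPrime p)
    (ρ : GaloisRepAdic A) (hfl : ρ.IsFlatAt p) (J : Ideal A) :
    (J • (⊤ : Submodule A ρ.V)) ⊓ coinvKer P ρ ≤ J • coinvKer P ρ :=
  coinv_flat (exactProp hp hp2 P hP) ρ hfl J

/-- **FFL-FREE (b), at one place**, unconditional. -/
theorem exists_basis_coinvKer_of_odd [Finite A] {p : ℕ} (hp : p.Prime) (hp2 : p ≠ 2)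
    {P : ValuationSubring Kb} (hP : P.LiesOverPrime p)
    (ρ : GaloisRepAdic A) (hfl : ρ.IsFlatAt p)
    (h1 : coinvKer P ρ ⊔ maximalIdeal A • (⊤ : Submodule A ρ.V) ≠ ⊤)
    (h2 : ¬ coinvKer P ρ ≤ maximalIdeal A • (⊤ : Submodule A ρ.V)) :
    ∃ b : Module.Basis (Fin 2) A ρ.V, coinvKer P ρ = Submodule.span A {b 0} :=
  exists_basis_coinvKer (exactProp hp hp2 P hP) ρ hfl h1 h2

/-- **FFL-FREE (b)**, unconditional: flat + residually ordinary (coinvariants of the residual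
representation neither `0` nor everything) implies ordinary. -/
theorem isOrdinaryAt_of_flat_of_odd [Finite A] {p : ℕ} (hp : p.Prime) (hp2 : p ≠ 2)
    (ρ : GaloisRepAdic A) (hfl : ρ.IsFlatAt p)
    (h1 : ∀ P : ValuationSubring Kb, P.LiesOverPrime p →
      coinvKer P ρ ⊔ maximalIdeal A • (⊤ : Submodule A ρ.V) ≠ ⊤)
    (h2 : ∀ P : ValuationSubring Kb, P.LiesOverPrime p →
      ¬ coinvKer P ρ ≤ maximalIdeal A • (⊤ : Submodule A ρ.V)) :
    ρ.IsOrdinaryAt p :=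
  isOrdinaryAt_of_flat (fun P hP => exactProp hp hp2 P hP) ρ hfl h1 h2

end Fermat.Agent.FFL
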