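/-
Lib/FFL/Ord (seat FFL-ORD, helper57): **flat + residually non-trivial coinvariants ⇒ an
inertia-invariant functional** (for the old part of S33).

`A` a discrete valuation ring with finite residue field, `ρ : GaloisRepAdic A` flat at `p`,
`U` the `A`-span of the `ρ σ v - v`, `σ` in the inertia group of `P`.  If `U + 𝔪 V ≠ V` then there
is a nonzero `A`-linear functional on `V` invariant under inertia.

Proof (helper80's blueprint, layer 2): otherwise `ϖ ^ m V ⊆ U`; the flat module `V / ϖ ^ (m+1) V`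
has the Galois-stable subgroup `N = ϖ ^ m (V / ϖ ^ (m+1))`, contained in the augmentation subgroup
of inertia; by exactness of the inertia coinvariants (`ExactProp`) `N = ϖ ^ m augI`, whence
`V = U + ϖ V`.
-/
import Mathlib
import Fermat.Agent.Lib.FFL.Defs
import Fermat.Agent.Lib.FlatMod.Defs

set_option autoImplicit false
set_option linter.style.haveILetI false
set_option linter.unusedSectionVars false

namespace Fermat.Agent.FFL

open Fermat.Agent.FlatMod GaloisRep

local notation "Kb" => AlgebraicClosure ℚ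
local notation "GK" => (AlgebraicClosure ℚ ≃ₐ[ℚ] AlgebraicClosure ℚ)

/-- **Dichotomy over a PID**: a submodule `U` of a finite free module `V` is killed by a nonzero
functional, or contains `a • V` for some `a ≠ 0`. -/
theorem exists_functional_or_smul_le {A : Type*} [CommRing A] [IsDomain A]
    [IsPrincipalIdealRing A] {V : Type*} [AddCommGroup V] [Module A V] [Module.Free A V]
    [Module.Finite A V] (U : Submodule A V) :
    (∃ ℓ : V →ₗ[A] A, ℓ ≠ 0 ∧ ∀ u ∈ U, ℓ u = 0) ∨ (∃ a : A, a ≠ 0 ∧ ∀ v : V, a • v ∈ U) := by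
  classical
  let b := Module.Free.chooseBasis A V
  obtain ⟨n, snf⟩ := Submodule.smithNormalForm b U
  by_cases hsurj : Function.Surjective snf.f
  · right
    have ha : ∀ i, snf.a i ≠ 0 := by
      intro i h0
      have h1 := snf.snf i
      rw [h0, zero_smul] at h1
      exact snf.bN.ne_zero i (Subtype.ext h1)
    refine ⟨∏ i, snf.a i, Finset.prod_ne_zero_iff.2 (fun i _ => ha i), fun v => ?_⟩
    have hb : ∀ j, (∏ i, snf.a i) • snf.bM j ∈ U := by
      intro j
      obtain ⟨i, rfl⟩ := hsurj j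
      rw [← Finset.mul_prod_erase Finset.univ snf.a (Finset.mem_univ i), mul_comm, mul_smul,
        ← snf.snf i]
      exact U.smul_mem _ (snf.bN i).2
    rw [← snf.bM.sum_repr v, Finset.smul_sum]
    refine U.sum_mem (fun j _ => ?_)
    rw [smul_comm]
    exact U.smul_mem _ (hb j)
  · left
    simp only [Function.Surjective, not_forall, not_exists] at hsurj
    obtain ⟨j, hj⟩ := hsurj
    refine ⟨snf.bM.coord j, ?_, fun u hu => ?_⟩
    · intro h0
      have := congrArg (fun ℓ : V →ₗ[A] A => ℓ (snf.bM j)) h0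
      simp at this
    · have h1 : u = ((∑ i, snf.bN.repr ⟨u, hu⟩ i • snf.bN i : U) : V) := by
        rw [snf.bN.sum_repr]
      rw [h1, Submodule.coe_sum, map_sum]
      apply Finset.sum_eq_zero
      intro i _
      rw [Submodule.coe_smul, snf.snf i, map_smul, map_smul, Module.Basis.coord_apply,
        Module.Basis.repr_self, Finsupp.single_apply, if_neg (hj i), smul_zero, smul_zero]

section Ord

variable {p : ℕ} {P : ValuationSubring Kb}
  {A : Type} [CommRing A] [IsDomain A] [IsDiscreteValuationRing A]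

/-- The `A`-span of the `ρ σ v - v`, `σ` in the inertia group of `P`. -/
def inertiaSpan (P : ValuationSubring Kb) (ρ : GaloisRepAdic A) : Submodule A ρ.V :=
  Submodule.span A {x : ρ.V | ∃ σ ∈ P.inertiaSubgroupIn ℚ, ∃ v : ρ.V, x = ρ.ρ σ v - v}

theorem levelAction_mk (ρ : GaloisRepAdic A) (J : Ideal A) (σ : GK) (v : ρ.V) :
    ρ.levelAction J σ (Submodule.Quotient.mk v) = Submodule.Quotient.mk (ρ.ρ σ v) := rfl

/-- The augmentation subgroup of inertia of a level is stable under scalars. -/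
theorem smul_mem_augI_level (ρ : GaloisRepAdic A) (J : Ideal A) (a : A)
    {z : ρ.V ⧸ (J • (⊤ : Submodule A ρ.V))}
    (hz : z ∈ augI P (fun σ x => ρ.levelAction J σ x)) :
    a • z ∈ augI P (fun σ x => ρ.levelAction J σ x) := by
  unfold augI augOn at hz ⊢
  induction hz using AddSubgroup.closure_induction with
  | mem x hx =>
    obtain ⟨σ, hσ, y, -, rfl⟩ := hx
    refine AddSubgroup.subset_closure ⟨σ, hσ, a • y, Set.mem_univ _, ?_⟩
    beta_reduce
    rw [smul_sub, map_smul]
  | zero =>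
    rw [smul_zero]
    exact AddSubgroup.zero_mem _
  | add x y _ _ hx hy =>
    rw [smul_add]
    exact AddSubgroup.add_mem _ hx hy
  | neg x _ hx =>
    rw [smul_neg]
    exact AddSubgroup.neg_mem _ hx

/-- The image of the inertia span in a level lies in the augmentation subgroup of inertia. -/
theorem mk_mem_augI_of_mem_inertiaSpan (ρ : GaloisRepAdic A) (J : Ideal A) {u : ρ.V}
    (hu : u ∈ inertiaSpan P ρ) :
    (Submodule.Quotient.mk u : ρ.V ⧸ (J • (⊤ : Submodule A ρ.V))) ∈
      augI P (fun σ x => ρ.levelAction J σ x) := by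
  unfold inertiaSpan at hu
  induction hu using Submodule.span_induction with
  | mem x hx =>
    obtain ⟨σ, hσ, v, rfl⟩ := hx
    unfold augI augOn
    refine AddSubgroup.subset_closure ⟨σ, hσ, Submodule.Quotient.mk v, Set.mem_univ _, ?_⟩
    beta_reduce
    rw [levelAction_mk, ← Submodule.Quotient.mk_sub]
  | zero =>
    rw [Submodule.Quotient.mk_zero]
    exact AddSubgroup.zero_mem _
  | add x y _ _ hx hy =>
    rw [Submodule.Quotient.mk_add]
    exact AddSubgroup.add_mem _ hx hy
  | smul a x _ hx =>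
    rw [Submodule.Quotient.mk_smul]
    exact smul_mem_augI_level ρ J a hx

/-- The subgroup `c • (V / J V)` of a level. -/
def smulLevel (ρ : GaloisRepAdic A) (J : Ideal A) (c : A) :
    AddSubgroup (ρ.V ⧸ (J • (⊤ : Submodule A ρ.V))) where
  carrier := {x | ∃ v : ρ.V, x = Submodule.Quotient.mk (c • v)}
  zero_mem' := ⟨0, by rw [smul_zero, Submodule.Quotient.mk_zero]⟩
  add_mem' := by
    rintro _ _ ⟨v, rfl⟩ ⟨v', rfl⟩
    exact ⟨v + v', by rw [smul_add, Submodule.Quotient.mk_add]⟩
  neg_mem' := by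
    rintro _ ⟨v, rfl⟩
    exact ⟨-v, by rw [smul_neg, Submodule.Quotient.mk_neg]⟩

theorem smulLevel_stable (ρ : GaloisRepAdic A) (J : Ideal A) (c : A) (σ : GK) :
    ∀ n ∈ smulLevel ρ J c, ρ.levelAction J σ n ∈ smulLevel ρ J c := by
  rintro _ ⟨v, rfl⟩
  exact ⟨ρ.ρ σ v, by rw [levelAction_mk, map_smul]⟩

/-- The augmentation of inertia on `c • (V / J V)` is `c` times the image of the inertia span. -/
theorem exists_of_mem_augOn_smulLevel (ρ : GaloisRepAdic A) (J : Ideal A) (c : A)
    {x : ρ.V ⧸ (J • (⊤ : Submodule A ρ.V))}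
    (hx : x ∈ augOn P (fun σ x => ρ.levelAction J σ x) (smulLevel ρ J c : Set _)) :
    ∃ u ∈ inertiaSpan P ρ, x = Submodule.Quotient.mk (c • u) := by
  unfold augOn at hx
  induction hx using AddSubgroup.closure_induction with
  | mem x hx =>
    obtain ⟨σ, hσ, y, ⟨v, rfl⟩, rfl⟩ := hx
    refine ⟨ρ.ρ σ v - v, Submodule.subset_span ⟨σ, hσ, v, rfl⟩, ?_⟩
    beta_reduce
    rw [levelAction_mk, ← Submodule.Quotient.mk_sub, map_smul, smul_sub]
  | zero => exact ⟨0, Submodule.zero_mem _, by rw [smul_zero, Submodule.Quotient.mk_zero]⟩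
  | add x y _ _ hx hy =>
    obtain ⟨u, hu, rfl⟩ := hx
    obtain ⟨u', hu', rfl⟩ := hy
    exact ⟨u + u', Submodule.add_mem _ hu hu', by rw [smul_add, Submodule.Quotient.mk_add]⟩
  | neg x _ hx =>
    obtain ⟨u, hu, rfl⟩ := hx
    exact ⟨-u, Submodule.neg_mem _ hu, by rw [smul_neg, Submodule.Quotient.mk_neg]⟩

/-- **FFL-ORD**: a representation over a discrete valuation ring which is flat at `p` and whose
residual inertia coinvariants are non-trivial has a nonzero inertia-invariant functional. -/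
theorem exists_inertia_invariant_functional (hex : ExactProp p P)
    [Finite (IsLocalRing.ResidueField A)] (ρ : GaloisRepAdic A) (hfl : ρ.IsFlatAt p)
    (hres : inertiaSpan P ρ ⊔ IsLocalRing.maximalIdeal A • (⊤ : Submodule A ρ.V) ≠ ⊤) :
    ∃ ℓ : ρ.V →ₗ[A] A, ℓ ≠ 0 ∧
      ∀ σ ∈ P.inertiaSubgroupIn ℚ, ∀ v : ρ.V, ℓ (ρ.ρ σ v) = ℓ v := by
  rcases exists_functional_or_smul_le (inertiaSpan P ρ) with ⟨ℓ, hℓ0, hℓ⟩ | ⟨a, ha0, ha⟩
  · refine ⟨ℓ, hℓ0, fun σ hσ v => ?_⟩
    have h1 : ℓ (ρ.ρ σ v - v) = 0 := hℓ _ (Submodule.subset_span ⟨σ, hσ, v, rfl⟩)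
    rw [map_sub, sub_eq_zero] at h1
    exact h1
  · exfalso
    apply hres
    obtain ⟨ϖ, hϖ⟩ := IsDiscreteValuationRing.exists_irreducible A
    obtain ⟨m, w, hw⟩ := IsDiscreteValuationRing.eq_unit_mul_pow_irreducible ha0 hϖ
    have hm : ∀ v : ρ.V, ϖ ^ m • v ∈ inertiaSpan P ρ := by
      intro v
      have h1 := (inertiaSpan P ρ).smul_mem ((w⁻¹ : Aˣ) : A) (ha v)
      rw [hw, smul_smul, ← mul_assoc, Units.inv_mul, one_mul] at h1
      exact h1
    have hϖ0 : ϖ ^ m ≠ 0 := pow_ne_zero m hϖ.ne_zero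
    -- the level
    set J : Ideal A := IsLocalRing.maximalIdeal A ^ (m + 1) with hJ
    have hJspan : J = Ideal.span {ϖ ^ (m + 1)} := by
      rw [hJ, hϖ.maximalIdeal_eq, Ideal.span_singleton_pow]
    haveI : Finite (A ⧸ IsLocalRing.maximalIdeal A) :=
      inferInstanceAs (Finite (IsLocalRing.ResidueField A))
    haveI hfin : Finite (A ⧸ J) :=
      Ideal.finite_quotient_pow (IsNoetherian.noetherian _) (m + 1)
    have hflat : IsFlatGaloisModule p (ρ.V ⧸ (J • (⊤ : Submodule A ρ.V)))
        (fun σ x => ρ.levelAction J σ x) := ((isFlatAt_iff ρ p).1 hfl).2 J hfin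
    rw [eq_top_iff]
    intro v _
    have h1 : (Submodule.Quotient.mk (ϖ ^ m • v) : ρ.V ⧸ (J • (⊤ : Submodule A ρ.V))) ∈
        smulLevel ρ J (ϖ ^ m) := ⟨v, rfl⟩
    have h2 := hex _ _ hflat (smulLevel ρ J (ϖ ^ m)) (fun σ => smulLevel_stable ρ J _ σ) _ h1
      (mk_mem_augI_of_mem_inertiaSpan ρ J (hm v))
    obtain ⟨u, hu, h3⟩ := exists_of_mem_augOn_smulLevel ρ J _ h2
    rw [Submodule.Quotient.eq, hJspan, Submodule.ideal_span_singleton_smul,
      Submodule.mem_smul_pointwise_iff_exists] at h3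
    obtain ⟨v', -, h4⟩ := h3
    have h5 : ϖ ^ m • (ϖ • v') = ϖ ^ m • (v - u) := by
      rw [smul_smul, ← pow_succ, h4, smul_sub]
    have h6 : ϖ • v' = v - u := smul_right_injective _ hϖ0 h5
    have h7 : v = u + ϖ • v' := by rw [h6]; abel
    rw [h7]
    refine Submodule.add_mem _ (Submodule.mem_sup_left hu) (Submodule.mem_sup_right ?_)
    exact Submodule.smul_mem_smul (hϖ.maximalIdeal_eq ▸ Ideal.mem_span_singleton_self ϖ)
      Submodule.mem_top

end Ord

end Fermat.Agent.FFL
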