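/-
Lib/FFL seat FFL-PEU (helper6), file 1: arithmetic of the `p`-th roots of unity at a valuation
subring `P` of `ℚ̄` over `p`, and the ORBIT PRODUCT lemma `peu_orbit_div`:

  if `G : ℤ/p → P` is a family which is permuted by inertia like the powers of a primitive `p`-th
  root of unity `ζ` (`τ ζ = ζ ^ t ⇒ τ (G c) = G (t c)`) and `G 1` is a nonunit, then
  `G 1 / (ζ - 1) ∈ P`.

(The product of `G` over the inertia orbit of `1` is inertia-fixed and a nonunit, hence divisible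
by `p` (`UnrProp`); the product of the `ζ ^ c - 1` over the same orbit divides `p`.)
-/
import Fermat.Agent.Lib.FFL.Base
import Fermat.Agent.Lib.FFL.Red

set_option autoImplicit false
set_option linter.unusedSectionVars false
set_option linter.unusedVariables false
set_option linter.style.haveILetI false
set_option linter.unnecessarySimpa false

namespace Fermat.Agent.FFL

open Fermat.Agent.FlatMod GaloisRep

local notation "Kb" => AlgebraicClosure ℚ
local notation "GK" => (AlgebraicClosure ℚ ≃ₐ[ℚ] AlgebraicClosure ℚ)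

variable {p : ℕ} {P : ValuationSubring Kb}

/-! ### Inertia and `P` -/

theorem peu_inertia_le_decomp {σ : GK} (hσ : σ ∈ P.inertiaSubgroupIn ℚ) :
    σ ∈ P.decompositionSubgroup ℚ := by
  obtain ⟨τ, _, rfl⟩ := hσ
  exact τ.2

theorem peu_conj_mem_nonunits {σ : GK} (hσ : σ ∈ P.inertiaSubgroupIn ℚ) {x : Kb}
    (hx : x ∈ P.nonunits) : σ x ∈ P.nonunits :=
  red_decomp_mem_nonunits P (peu_inertia_le_decomp hσ) hx

theorem peu_conj_mem {σ : GK} (hσ : σ ∈ P.inertiaSubgroupIn ℚ) {x : Kb} (hx : x ∈ P) :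
    σ x ∈ P := by
  have h := Fermat.Agent.Cyclo.inertia_sub_mem_nonunits P hσ hx
  have h2 : σ x = (σ x - x) + x := by ring
  rw [h2]
  exact P.add_mem _ _ (red_mem_of_mem_nonunits P h) hx

theorem peu_inv_mem_inertia {σ : GK} (hσ : σ ∈ P.inertiaSubgroupIn ℚ) :
    σ⁻¹ ∈ P.inertiaSubgroupIn ℚ := (P.inertiaSubgroupIn ℚ).inv_mem hσ

theorem peu_conj_not_mem {σ : GK} (hσ : σ ∈ P.inertiaSubgroupIn ℚ) {x : Kb} (hx : x ∉ P) :
    σ x ∉ P := by
  intro h
  apply hx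
  have h1 := peu_conj_mem (peu_inv_mem_inertia hσ) h
  have h2 : σ⁻¹ (σ x) = x := by
    show (σ⁻¹ * σ) x = x
    rw [inv_mul_cancel]
    rfl
  rwa [h2] at h1

/-- An element whose inverse is a nonunit is not in `P`, and conversely. -/
theorem peu_inv_mem_nonunits_of_not_mem {x : Kb} (hx : x ∉ P) : x⁻¹ ∈ P.nonunits := by
  rw [ValuationSubring.mem_nonunits_iff]
  have h1 : ¬ P.valuation x ≤ 1 := fun h => hx ((P.valuation_le_one_iff x).1 h)
  rw [not_le] at h1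
  rw [map_inv₀]
  exact inv_lt_one_of_one_lt₀ h1

theorem peu_prod_mem {ι : Type*} (s : Finset ι) (f : ι → Kb) (h : ∀ i ∈ s, f i ∈ P) :
    ∏ i ∈ s, f i ∈ P := by
  classical
  induction s using Finset.induction_on with
  | empty => simpa using P.one_mem
  | insert a s ha ih =>
    rw [Finset.prod_insert ha]
    exact P.mul_mem _ _ (h a (Finset.mem_insert_self a s))
      (ih fun i hi => h i (Finset.mem_insert_of_mem hi))

theorem peu_sum_mem {ι : Type*} (s : Finset ι) (f : ι → Kb) (h : ∀ i ∈ s, f i ∈ P) :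
    ∑ i ∈ s, f i ∈ P := by
  classical
  induction s using Finset.induction_on with
  | empty => simpa using P.zero_mem
  | insert a s ha ih =>
    rw [Finset.sum_insert ha]
    exact P.add_mem _ _ (h a (Finset.mem_insert_self a s))
      (ih fun i hi => h i (Finset.mem_insert_of_mem hi))

theorem peu_sum_mem_nonunits {ι : Type*} (s : Finset ι) (f : ι → Kb)
    (h : ∀ i ∈ s, f i ∈ P.nonunits) : ∑ i ∈ s, f i ∈ P.nonunits := by
  classical
  induction s using Finset.induction_on with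
  | empty => simpa using red_zero_mem_nonunits P
  | insert a s ha ih =>
    rw [Finset.sum_insert ha]
    exact red_add_mem_nonunits P (h a (Finset.mem_insert_self a s))
      (ih fun i hi => h i (Finset.mem_insert_of_mem hi))

/-- A product of elements of `P` one of which is a nonunit is a nonunit. -/
theorem peu_prod_mem_nonunits {ι : Type*} (s : Finset ι) (f : ι → Kb) (h : ∀ i ∈ s, f i ∈ P)
    {a : ι} (ha : a ∈ s) (hfa : f a ∈ P.nonunits) : ∏ i ∈ s, f i ∈ P.nonunits := by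
  classical
  rw [← Finset.mul_prod_erase s f ha]
  exact red_mul_mem_nonunits_right P hfa
    (peu_prod_mem _ _ fun i hi => h i (Finset.mem_of_mem_erase hi))

/-- A product of elements whose inverses are nonunits (nonempty index set). -/
theorem peu_prod_inv_mem_nonunits {ι : Type*} (s : Finset ι) (f : ι → Kb)
    (h : ∀ i ∈ s, (f i)⁻¹ ∈ P.nonunits) {a : ι} (ha : a ∈ s) :
    (∏ i ∈ s, f i)⁻¹ ∈ P.nonunits := by
  classical
  rw [← Finset.prod_inv_distrib]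
  exact peu_prod_mem_nonunits s (fun i => (f i)⁻¹)
    (fun i hi => red_mem_of_mem_nonunits P (h i hi)) ha (h a ha)

/-! ### `p`-th roots of unity indexed by `ℤ/p` -/

/-- `c ↦ ζ ^ c.val` on `ℤ/p`. -/
noncomputable def peuChi (p : ℕ) (ζ : Kb) (c : ZMod p) : Kb := ζ ^ c.val

section Chi

variable [Fact p.Prime] {ζ : Kb}

theorem peuChi_natCast (hζ : ζ ^ p = 1) (k : ℕ) : peuChi p ζ (k : ZMod p) = ζ ^ k := by
  unfold peuChi
  rw [ZMod.val_natCast]
  exact (pow_eq_pow_mod k hζ).symm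

theorem peuChi_zero : peuChi p ζ 0 = 1 := by
  unfold peuChi
  rw [ZMod.val_zero, pow_zero]

theorem peuChi_one : peuChi p ζ 1 = ζ := by
  unfold peuChi
  haveI : Fact (1 < p) := ⟨(Fact.out : p.Prime).one_lt⟩
  rw [ZMod.val_one, pow_one]

theorem peuChi_add (hζ : ζ ^ p = 1) (c e : ZMod p) :
    peuChi p ζ (c + e) = peuChi p ζ c * peuChi p ζ e := by
  unfold peuChi
  rw [ZMod.val_add, ← pow_eq_pow_mod _ hζ, pow_add]

theorem peuChi_mul (hζ : ζ ^ p = 1) (c e : ZMod p) :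
    peuChi p ζ (c * e) = peuChi p ζ c ^ e.val := by
  unfold peuChi
  rw [ZMod.val_mul, ← pow_eq_pow_mod _ hζ, pow_mul]

theorem peuChi_pow_p (hζ : ζ ^ p = 1) (c : ZMod p) : peuChi p ζ c ^ p = 1 := by
  unfold peuChi
  rw [← pow_mul, mul_comm, pow_mul, hζ, one_pow]

theorem peu_isPrimitiveRoot (hζ : ζ ^ p = 1) (hζ1 : ζ ≠ 1) : IsPrimitiveRoot ζ p := by
  have h := orderOf_eq_prime hζ hζ1
  rw [← h]
  exact IsPrimitiveRoot.orderOf ζ

theorem peuChi_injective (hζ : ζ ^ p = 1) (hζ1 : ζ ≠ 1) : Function.Injective (peuChi p ζ) := by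
  intro c e h
  have hprim := peu_isPrimitiveRoot hζ hζ1
  have h1 := hprim.pow_inj (ZMod.val_lt c) (ZMod.val_lt e) h
  exact ZMod.val_injective p h1

theorem peuChi_ne_one (hζ : ζ ^ p = 1) (hζ1 : ζ ≠ 1) {c : ZMod p} (hc : c ≠ 0) :
    peuChi p ζ c ≠ 1 := by
  intro h
  apply hc
  apply peuChi_injective hζ hζ1
  rw [h, peuChi_zero]

theorem peu_exists_chi (hζ : ζ ^ p = 1) (hζ1 : ζ ≠ 1) {ξ : Kb} (hξ : ξ ^ p = 1) :
    ∃ c : ZMod p, ξ = peuChi p ζ c := by
  have hprim := peu_isPrimitiveRoot hζ hζ1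
  obtain ⟨i, hi, h⟩ := hprim.eq_pow_of_pow_eq_one hξ
  exact ⟨(i : ZMod p), by rw [peuChi_natCast hζ, h]⟩

theorem peuChi_mem (hζ : ζ ^ p = 1) (c : ZMod p) : peuChi p ζ c ∈ P :=
  Fermat.Agent.Cyclo.pow_eq_one_mem P (Fact.out : p.Prime).ne_zero (peuChi_pow_p hζ c)

theorem peuChi_inv_mem (hζ : ζ ^ p = 1) (c : ZMod p) : (peuChi p ζ c)⁻¹ ∈ P := by
  apply Fermat.Agent.Cyclo.pow_eq_one_mem P (Fact.out : p.Prime).ne_zero (n := p)
  rw [inv_pow, peuChi_pow_p hζ, inv_one]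

theorem peuChi_ne_zero (hζ : ζ ^ p = 1) (c : ZMod p) : peuChi p ζ c ≠ 0 := by
  intro h
  have := peuChi_pow_p hζ c
  rw [h, zero_pow (Fact.out : p.Prime).ne_zero] at this
  exact zero_ne_one this

/-- Sums over `ℤ/p` and over `range p`. -/
theorem peu_sum_zmod (φ : ℕ → Kb) : ∑ c : ZMod p, φ c.val = ∑ k ∈ Finset.range p, φ k := by
  symm
  refine Finset.sum_bij (fun k _ => (k : ZMod p)) (fun _ _ => Finset.mem_univ _) ?_ ?_ ?_
  · intro a ha b hb h
    have h1 := congrArg ZMod.val h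
    rwa [ZMod.val_natCast_of_lt (Finset.mem_range.1 ha),
      ZMod.val_natCast_of_lt (Finset.mem_range.1 hb)] at h1
  · intro c _
    exact ⟨c.val, Finset.mem_range.2 (ZMod.val_lt c), ZMod.natCast_zmod_val c⟩
  · intro a ha
    rw [ZMod.val_natCast_of_lt (Finset.mem_range.1 ha)]

/-- Cyclotomic units: `(ξ - 1) / (η - 1) ∈ P` for `p`-th roots of unity `ξ, η`, `η ≠ 1`. -/
theorem peu_ratio_mem (P : ValuationSubring Kb) {ξ η : Kb} (hη : η ^ p = 1) (hη1 : η ≠ 1)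
    (hξ : ξ ^ p = 1) : (ξ - 1) / (η - 1) ∈ P := by
  obtain ⟨c, rfl⟩ := peu_exists_chi hη hη1 hξ
  unfold peuChi
  have h1 : (η ^ c.val - 1) / (η - 1) = ∑ i ∈ Finset.range c.val, η ^ i :=
    (geom_sum_eq hη1 c.val).symm
  rw [h1]
  refine peu_sum_mem _ _ fun i _ => ?_
  exact pow_mem (Fermat.Agent.Cyclo.pow_eq_one_mem P (Fact.out : p.Prime).ne_zero hη) i

/-- `ζ - 1` is a nonunit of `P` for a `p`-th root of unity `ζ` (`P` over `p`). -/
theorem peu_sub_one_mem_nonunits (hP : P.LiesOverPrime p) (hζ : ζ ^ p = 1) :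
    ζ - 1 ∈ P.nonunits := by
  have hp : p.Prime := Fact.out
  have hζP : ζ ∈ P := Fermat.Agent.Cyclo.pow_eq_one_mem P hp.ne_zero hζ
  have hxP : ζ - 1 ∈ P := sub_mem hζP P.one_mem
  by_contra hnu
  have hinv : (ζ - 1)⁻¹ ∈ P := base_inv_mem_of_not_mem_nonunits hxP hnu
  -- `(x + 1) ^ p = x ^ p + 1 + p x r` in the ring `P`
  obtain ⟨r, hr⟩ := exists_add_pow_prime_eq hp (⟨ζ - 1, hxP⟩ : P) 1
  have hr' := congrArg (fun z : P => (z : Kb)) hr
  simp only [one_pow, mul_one] at hr'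
  push_cast at hr'
  rw [sub_add_cancel, hζ] at hr'
  -- so `x ^ p = - p x r`
  have h1 : (ζ - 1) ^ p = -((p : Kb) * ((ζ - 1) * (r : Kb))) := by linear_combination -hr'
  have h2 : (ζ - 1) ^ p ∈ P.nonunits := by
    rw [h1]
    exact red_neg_mem_nonunits P
      (red_mul_mem_nonunits_right P hP (P.mul_mem _ _ hxP r.2))
  have hx0 : ζ - 1 ≠ 0 := by
    intro h0
    apply hnu
    rw [h0]
    exact red_zero_mem_nonunits P
  have h3 : (1 : Kb) ∈ P.nonunits := by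
    have : (1 : Kb) = (ζ - 1) ^ p * ((ζ - 1)⁻¹) ^ p := by
      rw [← mul_pow, mul_inv_cancel₀ hx0, one_pow]
    rw [this]
    exact red_mul_mem_nonunits_right P h2 (pow_mem hinv p)
  exact Fermat.Agent.Cyclo.one_not_mem_nonunits P h3

/-- `∏_{c ≠ 0} (1 - ζ ^ c) = p`. -/
theorem peu_prod_one_sub (hζ : ζ ^ p = 1) (hζ1 : ζ ≠ 1) :
    ∏ c ∈ (Finset.univ : Finset (ZMod p)).erase 0, (1 - peuChi p ζ c) = (p : Kb) := by
  classical
  have hp : p.Prime := Fact.out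
  obtain ⟨n, hn⟩ : ∃ n, p = n + 1 := ⟨p - 1, by have := hp.pos; omega⟩
  have hprim : IsPrimitiveRoot ζ (n + 1) := hn ▸ peu_isPrimitiveRoot hζ hζ1
  have h1 := hprim.prod_one_sub_pow_eq_order
  have h2 : ((n : Kb) + 1) = (p : Kb) := by rw [hn]; push_cast; rfl
  rw [← h2, ← h1]
  symm
  refine Finset.prod_bij (fun k _ => ((k + 1 : ℕ) : ZMod p)) ?_ ?_ ?_ ?_
  · intro k hk
    have hk' : k + 1 < p := by have := Finset.mem_range.1 hk; omega
    refine Finset.mem_erase.2 ⟨?_, Finset.mem_univ _⟩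
    intro h0
    have := congrArg ZMod.val h0
    rw [ZMod.val_natCast_of_lt hk', ZMod.val_zero] at this
    omega
  · intro a ha b hb h
    have ha' : a + 1 < p := by have := Finset.mem_range.1 ha; omega
    have hb' : b + 1 < p := by have := Finset.mem_range.1 hb; omega
    have h1 := congrArg ZMod.val h
    rw [ZMod.val_natCast_of_lt ha', ZMod.val_natCast_of_lt hb'] at h1
    omega
  · intro c hc
    have hc0 : c ≠ 0 := (Finset.mem_erase.1 hc).1
    have hv : c.val ≠ 0 := fun h => hc0 ((ZMod.val_eq_zero c).1 h)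
    have hlt := ZMod.val_lt c
    refine ⟨c.val - 1, Finset.mem_range.2 (by omega), ?_⟩
    show ((c.val - 1 + 1 : ℕ) : ZMod p) = c
    rw [Nat.sub_add_cancel (Nat.one_le_iff_ne_zero.2 hv)]
    exact ZMod.natCast_zmod_val c
  · intro k hk
    rw [peuChi_natCast hζ]

/-- Conjugation of the powers of `ζ`. -/
theorem peu_conj_chi (hζ : ζ ^ p = 1) {τ : GK} {t : ZMod p} (ht : τ ζ = peuChi p ζ t)
    (c : ZMod p) : τ (peuChi p ζ c) = peuChi p ζ (t * c) := by
  rw [peuChi_mul hζ, ← ht]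
  unfold peuChi
  rw [map_pow]

/-- The exponent of a conjugate of `ζ`. -/
theorem peu_exists_exp (hζ : ζ ^ p = 1) (hζ1 : ζ ≠ 1) (τ : GK) :
    ∃ t : ZMod p, t ≠ 0 ∧ τ ζ = peuChi p ζ t := by
  obtain ⟨t, ht⟩ := peu_exists_chi hζ hζ1 (ξ := τ ζ) (by rw [← map_pow, hζ, map_one])
  refine ⟨t, ?_, ht⟩
  rintro rfl
  rw [peuChi_zero] at ht
  apply hζ1
  have h1 : τ ζ = τ 1 := by rw [ht, map_one]
  exact τ.injective h1

/-- Inertia moves the primitive `p`-th roots of unity (`p` odd). -/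
theorem peu_exists_moving (hP : P.LiesOverPrime p) (hunr : UnrProp p P) (hcyc : CycProp p P)
    (hζ : ζ ^ p = 1) (hζ1 : ζ ≠ 1) : ∃ σ ∈ P.inertiaSubgroupIn ℚ, σ ζ ≠ ζ := by
  by_contra h
  push Not at h
  have hfix : ∀ σ ∈ P.inertiaSubgroupIn ℚ, σ (ζ - 1) = ζ - 1 := fun σ hσ => by
    rw [map_sub, map_one, h σ hσ]
  exact hcyc p Fact.out ζ hζ hζ1 (hunr _ (peu_sub_one_mem_nonunits hP hζ) hfix)

/-- **Orbit product lemma.**  A family `G : ℤ/p → P` permuted by inertia like the powers of `ζ`,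
with `G 1` a nonunit, has `G 1 / (1 - ζ) ∈ P`. -/
theorem peu_orbit_div' (hP : P.LiesOverPrime p) (hunr : UnrProp p P)
    (hζ : ζ ^ p = 1) (hζ1 : ζ ≠ 1) (G : ZMod p → Kb)
    (hG : ∀ c, G c ∈ P) (hG1 : G 1 ∈ P.nonunits)
    (hconj : ∀ τ ∈ P.inertiaSubgroupIn ℚ, ∀ t : ZMod p, τ ζ = peuChi p ζ t →
      ∀ c, τ (G c) = G (t * c)) :
    G 1 / (1 - ζ) ∈ P := by
  classical
  have hp : p.Prime := Fact.out
  -- the orbit of `1`
  set H : Finset (ZMod p) :=
    Finset.univ.filter (fun c => ∃ σ ∈ P.inertiaSubgroupIn ℚ, σ ζ = peuChi p ζ c) with hH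
  have hmemH : ∀ c, c ∈ H ↔ ∃ σ ∈ P.inertiaSubgroupIn ℚ, σ ζ = peuChi p ζ c := by
    intro c
    rw [hH, Finset.mem_filter]
    exact ⟨fun h => h.2, fun h => ⟨Finset.mem_univ _, h⟩⟩
  have h1H : (1 : ZMod p) ∈ H := by
    rw [hmemH]
    exact ⟨1, (P.inertiaSubgroupIn ℚ).one_mem, by rw [peuChi_one]; rfl⟩
  have h0H : ∀ c ∈ H, c ≠ 0 := by
    intro c hc h0
    obtain ⟨σ, -, h⟩ := (hmemH c).1 hc
    rw [h0, peuChi_zero] at h
    apply hζ1
    have h1 : σ ζ = σ 1 := by rw [h, map_one]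
    exact σ.injective h1
  have hsub : H ⊆ (Finset.univ : Finset (ZMod p)).erase 0 := fun c hc =>
    Finset.mem_erase.2 ⟨h0H c hc, Finset.mem_univ _⟩
  -- stability of the orbit
  have hstab : ∀ τ ∈ P.inertiaSubgroupIn ℚ, ∀ t : ZMod p, τ ζ = peuChi p ζ t →
      ∀ c, c ∈ H ↔ t * c ∈ H := by
    intro τ hτ t ht c
    rw [hmemH, hmemH]
    constructor
    · rintro ⟨σ, hσ, h⟩
      refine ⟨τ * σ, (P.inertiaSubgroupIn ℚ).mul_mem hτ hσ, ?_⟩
      show τ (σ ζ) = _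
      rw [h, peu_conj_chi hζ ht]
    · rintro ⟨σ, hσ, h⟩
      refine ⟨τ⁻¹ * σ, (P.inertiaSubgroupIn ℚ).mul_mem
        ((P.inertiaSubgroupIn ℚ).inv_mem hτ) hσ, ?_⟩
      show τ⁻¹ (σ ζ) = _
      rw [h, ← peu_conj_chi hζ ht]
      show (τ⁻¹ * τ) _ = _
      rw [inv_mul_cancel]
      rfl
  -- the quotients
  set y : ZMod p → Kb := fun c => G c / (1 - peuChi p ζ c) with hy
  have hyconj : ∀ τ ∈ P.inertiaSubgroupIn ℚ, ∀ t : ZMod p, τ ζ = peuChi p ζ t →
      ∀ c, τ (y c) = y (t * c) := by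
    intro τ hτ t ht c
    simp only [hy]
    rw [map_div₀, map_sub, map_one, hconj τ hτ t ht c, peu_conj_chi hζ ht]
  have hyH : ∀ c ∈ H, ∃ σ ∈ P.inertiaSubgroupIn ℚ, y c = σ (y 1) := by
    intro c hc
    obtain ⟨σ, hσ, h⟩ := (hmemH c).1 hc
    exact ⟨σ, hσ, by rw [hyconj σ hσ c h 1, mul_one]⟩
  -- the product of the `G c` over the orbit is fixed and a nonunit
  have hDfix : ∀ τ ∈ P.inertiaSubgroupIn ℚ, τ (∏ c ∈ H, G c) = ∏ c ∈ H, G c := by
    intro τ hτ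
    obtain ⟨t, ht0, ht⟩ := peu_exists_exp hζ hζ1 τ
    rw [map_prod, Finset.prod_congr rfl (fun c _ => hconj τ hτ t ht c)]
    exact Finset.prod_equiv (Equiv.mulLeft₀ t ht0) (fun c => hstab τ hτ t ht c)
      (fun c _ => rfl)
  have hDnu : ∏ c ∈ H, G c ∈ P.nonunits :=
    peu_prod_mem_nonunits H G (fun c _ => hG c) h1H hG1
  have hDp : (∏ c ∈ H, G c) / (p : Kb) ∈ P := hunr _ hDnu hDfix
  -- the product of the `1 - ζ ^ c` over the orbit divides `p`
  have hE : (∏ c ∈ (Finset.univ : Finset (ZMod p)).erase 0 \ H, (1 - peuChi p ζ c)) *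
      ∏ c ∈ H, (1 - peuChi p ζ c) = (p : Kb) := by
    rw [Finset.prod_sdiff hsub]
    exact peu_prod_one_sub hζ hζ1
  have hE0 : ∏ c ∈ H, (1 - peuChi p ζ c) ≠ 0 := by
    rw [Finset.prod_ne_zero_iff]
    intro c hc h
    exact peuChi_ne_one hζ hζ1 (h0H c hc) (sub_eq_zero.1 h).symm
  have hRmem : ∏ c ∈ (Finset.univ : Finset (ZMod p)).erase 0 \ H, (1 - peuChi p ζ c) ∈ P :=
    peu_prod_mem _ _ fun c _ => sub_mem P.one_mem (peuChi_mem hζ c)
  have hp0 : (p : Kb) ≠ 0 := Nat.cast_ne_zero.2 hp.ne_zero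
  have hprod : ∏ c ∈ H, y c ∈ P := by
    have h1 : ∏ c ∈ H, y c = (∏ c ∈ H, G c) / (p : Kb) *
        ∏ c ∈ (Finset.univ : Finset (ZMod p)).erase 0 \ H, (1 - peuChi p ζ c) := by
      have hR0 : ∏ c ∈ (Finset.univ : Finset (ZMod p)).erase 0 \ H, (1 - peuChi p ζ c) ≠ 0 := by
        intro h0
        rw [h0, zero_mul] at hE
        exact hp0 hE.symm
      simp only [hy]
      rw [Finset.prod_div_distrib, ← hE]
      field_simp
    rw [h1]
    exact P.mul_mem _ _ hDp hRmem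
  -- conclusion
  have hgoal : y 1 ∈ P := by
    by_contra hno
    have hall : ∀ c ∈ H, (y c)⁻¹ ∈ P.nonunits := by
      intro c hc
      obtain ⟨σ, hσ, h⟩ := hyH c hc
      rw [h]
      exact peu_inv_mem_nonunits_of_not_mem (peu_conj_not_mem hσ hno)
    have h2 := peu_prod_inv_mem_nonunits H y hall h1H
    have h3 : ∏ c ∈ H, y c ≠ 0 := by
      rw [Finset.prod_ne_zero_iff]
      intro c hc h0
      obtain ⟨σ, hσ, h⟩ := hyH c hc
      apply peu_conj_not_mem hσ hno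
      rw [← h, h0]
      exact P.zero_mem
    have h4 : (1 : Kb) ∈ P.nonunits := by
      have : (1 : Kb) = (∏ c ∈ H, y c)⁻¹ * ∏ c ∈ H, y c := (inv_mul_cancel₀ h3).symm
      rw [this]
      exact red_mul_mem_nonunits_right P h2 hprod
    exact Fermat.Agent.Cyclo.one_not_mem_nonunits P h4
  simp only [hy] at hgoal
  rwa [peuChi_one] at hgoal

/-- **Orbit product lemma**, second form: `G 1 / (ζ - 1) ∈ P`. -/
theorem peu_orbit_div (hP : P.LiesOverPrime p) (hunr : UnrProp p P)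
    (hζ : ζ ^ p = 1) (hζ1 : ζ ≠ 1) (G : ZMod p → Kb)
    (hG : ∀ c, G c ∈ P) (hG1 : G 1 ∈ P.nonunits)
    (hconj : ∀ τ ∈ P.inertiaSubgroupIn ℚ, ∀ t : ZMod p, τ ζ = peuChi p ζ t →
      ∀ c, τ (G c) = G (t * c)) :
    G 1 / (ζ - 1) ∈ P := by
  have h := peu_orbit_div' hP hunr hζ hζ1 G hG hG1 hconj
  have h1 : G 1 / (ζ - 1) = -(G 1 / (1 - ζ)) := by
    have h2 : (1 - ζ) = -(ζ - 1) := by ring
    rw [h2, div_neg, neg_neg]
  rw [h1]
  exact P.neg_mem _ h

end Chi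

end Fermat.Agent.FFL
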