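/-
Lib/FFL seat FFL-PEU (helper6), file 2: the CORE lemma on `ℤ/p`.

`𝔄` a comultiplication-closed family of `P`-valued functions on `ℤ/p` such that
`(f 1 - f 0) / (ζ - 1) ∈ P` for all `f ∈ 𝔄` (`ζ` a primitive `p`-th root of unity).  Then the
idempotent `e₁ = p⁻¹ ∑ ζ^{-c} [c]` of the group algebra is integral on `𝔄`:

  `p⁻¹ * ∑ c, (ζ ^ c)⁻¹ * f c ∈ P`   for all `f ∈ 𝔄`            (`peu_core`).

Proof: `e₁ = ∏_{k ≠ 1} ([1] - ζ^k [0]) / (ζ - ζ^k)` (convolution product), each factor is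
integral on `𝔄`, and the integral functionals are closed under convolution.  The product is
built by recursion (`peuStep`) and identified by the Fourier transform on `ℤ/p` (`peuHat`).
-/
import Fermat.Agent.Lib.FFL.PeuArith

set_option autoImplicit false
set_option linter.unusedSectionVars false
set_option linter.unusedVariables false
set_option linter.style.haveILetI false
set_option linter.unnecessarySimpa false

namespace Fermat.Agent.FFL

open Fermat.Agent.FlatMod GaloisRep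

local notation "Kb" => AlgebraicClosure ℚ
local notation "GK" => (AlgebraicClosure ℚ ≃ₐ[ℚ] AlgebraicClosure ℚ)

variable {p : ℕ} {P : ValuationSubring Kb} [Fact p.Prime] {ζ : Kb}

/-- The pairing of functions on `ℤ/p`. -/
noncomputable def peuPair (u f : ZMod p → Kb) : Kb := ∑ c, u c * f c

/-- The Fourier transform on `ℤ/p` with respect to `ζ`. -/
noncomputable def peuHat (ζ : Kb) (u : ZMod p → Kb) (i : ZMod p) : Kb :=
  ∑ c, u c * peuChi p ζ (i * c)

/-- Convolution with `([1] - ζ^k [0]) / (ζ - ζ^k)`. -/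
noncomputable def peuStep (ζ : Kb) (k : ZMod p) (u : ZMod p → Kb) : ZMod p → Kb :=
  fun c => (u (c - 1) - peuChi p ζ k * u c) / (ζ - peuChi p ζ k)

theorem peuChi_neg (hζ : ζ ^ p = 1) (c : ZMod p) : peuChi p ζ (-c) = (peuChi p ζ c)⁻¹ := by
  have h : peuChi p ζ (-c) * peuChi p ζ c = 1 := by
    rw [← peuChi_add hζ, neg_add_cancel, peuChi_zero]
  exact eq_inv_of_mul_eq_one_left h

theorem peuChi_sub (hζ : ζ ^ p = 1) (c e : ZMod p) :
    peuChi p ζ (c - e) = peuChi p ζ c * (peuChi p ζ e)⁻¹ := by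
  rw [sub_eq_add_neg, peuChi_add hζ, peuChi_neg hζ]

/-- Shifting the summation variable. -/
theorem peu_sum_shift (φ : ZMod p → Kb) (a : ZMod p) : ∑ c, φ (c + a) = ∑ c, φ c :=
  Fintype.sum_equiv (Equiv.addRight a) _ _ (fun _ => rfl)

theorem peuHat_step (hζ : ζ ^ p = 1) (k : ZMod p) (u : ZMod p → Kb) (i : ZMod p) :
    peuHat ζ (peuStep ζ k u) i =
      (peuChi p ζ i - peuChi p ζ k) / (ζ - peuChi p ζ k) * peuHat ζ u i := by
  unfold peuHat peuStep
  have h1 : ∑ c, u (c - 1) * peuChi p ζ (i * c) = peuChi p ζ i * ∑ c, u c * peuChi p ζ (i * c) := by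
    rw [← peu_sum_shift (fun c => u (c - 1) * peuChi p ζ (i * c)) 1, Finset.mul_sum]
    refine Finset.sum_congr rfl fun c _ => ?_
    show u (c + 1 - 1) * peuChi p ζ (i * (c + 1)) = _
    rw [add_sub_cancel_right, mul_add, mul_one, peuChi_add hζ]
    ring
  have h2 : ∀ c, (u (c - 1) - peuChi p ζ k * u c) / (ζ - peuChi p ζ k) * peuChi p ζ (i * c) =
      (u (c - 1) * peuChi p ζ (i * c) - peuChi p ζ k * (u c * peuChi p ζ (i * c))) /
        (ζ - peuChi p ζ k) := fun c => by ring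
  rw [Finset.sum_congr rfl (fun c _ => h2 c), ← Finset.sum_div, Finset.sum_sub_distrib, h1,
    ← Finset.mul_sum]
  ring

/-- Orthogonality of the characters of `ℤ/p`. -/
theorem peu_orthogonality (hζ : ζ ^ p = 1) (hζ1 : ζ ≠ 1) (d : ZMod p) :
    ∑ i : ZMod p, peuChi p ζ (i * d) = if d = 0 then (p : Kb) else 0 := by
  by_cases hd : d = 0
  · rw [if_pos hd, hd]
    simp only [mul_zero, peuChi_zero, Finset.sum_const, Finset.card_univ, ZMod.card,
      nsmul_eq_mul, mul_one]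
  · rw [if_neg hd]
    have h1 : ∑ i : ZMod p, peuChi p ζ (i * d) =
        peuChi p ζ d * ∑ i : ZMod p, peuChi p ζ (i * d) := by
      conv_lhs => rw [← peu_sum_shift (fun i => peuChi p ζ (i * d)) 1]
      rw [Finset.mul_sum]
      refine Finset.sum_congr rfl fun i _ => ?_
      show peuChi p ζ ((i + 1) * d) = _
      rw [add_mul, one_mul, peuChi_add hζ, mul_comm]
    have h2 : (peuChi p ζ d - 1) * ∑ i : ZMod p, peuChi p ζ (i * d) = 0 := by
      rw [sub_mul, one_mul, ← h1, sub_self]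
    rcases mul_eq_zero.1 h2 with h | h
    · exact absurd (sub_eq_zero.1 h) (peuChi_ne_one hζ hζ1 hd)
    · exact h

/-- Fourier inversion on `ℤ/p`. -/
theorem peu_fourier_inv (hζ : ζ ^ p = 1) (hζ1 : ζ ≠ 1) (u : ZMod p → Kb) (c : ZMod p) :
    u c = (p : Kb)⁻¹ * ∑ i, peuHat ζ u i * (peuChi p ζ (i * c))⁻¹ := by
  classical
  have hp0 : (p : Kb) ≠ 0 := Nat.cast_ne_zero.2 (Fact.out : p.Prime).ne_zero
  unfold peuHat
  have h1 : ∀ i : ZMod p, (∑ e, u e * peuChi p ζ (i * e)) * (peuChi p ζ (i * c))⁻¹ =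
      ∑ e, u e * peuChi p ζ (i * (e - c)) := by
    intro i
    rw [Finset.sum_mul]
    refine Finset.sum_congr rfl fun e _ => ?_
    rw [mul_sub, peuChi_sub hζ]
    ring
  rw [Finset.sum_congr rfl (fun i _ => h1 i), Finset.sum_comm]
  have h2 : ∀ e : ZMod p, ∑ i, u e * peuChi p ζ (i * (e - c)) =
      u e * (if e - c = 0 then (p : Kb) else 0) := by
    intro e
    rw [← Finset.mul_sum, peu_orthogonality hζ hζ1]
  rw [Finset.sum_congr rfl (fun e _ => h2 e)]
  have h3 : ∀ e : ZMod p, u e * (if e - c = 0 then (p : Kb) else 0) =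
      if e = c then u c * (p : Kb) else 0 := by
    intro e
    by_cases h : e = c
    · rw [if_pos h, if_pos (by rw [h, sub_self]), h]
    · rw [if_neg h, if_neg (fun h' => h (sub_eq_zero.1 h')), mul_zero]
  rw [Finset.sum_congr rfl (fun e _ => h3 e), Finset.sum_ite_eq' Finset.univ c,
    if_pos (Finset.mem_univ _)]
  field_simp

/-- The values of the linear factors on `𝔄` are integral. -/
theorem peu_factor_mem (P : ValuationSubring Kb) (hζ : ζ ^ p = 1) (hζ1 : ζ ≠ 1) {k : ZMod p}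
    (hk : k ≠ 1) {a b : Kb} (ha : a ∈ P) (hb : b ∈ P) (hab : (a - b) / (ζ - 1) ∈ P) :
    (a - peuChi p ζ k * b) / (ζ - peuChi p ζ k) ∈ P := by
  have hζ0 : ζ - 1 ≠ 0 := sub_ne_zero.2 hζ1
  have hk1 : (1 : ZMod p) - k ≠ 0 := fun h => hk (sub_eq_zero.1 h).symm
  have hη1 : peuChi p ζ (1 - k) ≠ 1 := peuChi_ne_one hζ hζ1 hk1
  have hη0 : peuChi p ζ (1 - k) - 1 ≠ 0 := sub_ne_zero.2 hη1
  have hχ0 : peuChi p ζ k ≠ 0 := peuChi_ne_zero hζ k
  have hden : ζ - peuChi p ζ k = peuChi p ζ k * (peuChi p ζ (1 - k) - 1) := by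
    rw [peuChi_sub hζ, peuChi_one]
    field_simp
  have hden0 : ζ - peuChi p ζ k ≠ 0 := by
    rw [hden]
    exact mul_ne_zero hχ0 hη0
  have h1 : (a - peuChi p ζ k * b) / (ζ - peuChi p ζ k) =
      (peuChi p ζ k)⁻¹ * ((a - b) / (ζ - 1) * ((ζ - 1) / (peuChi p ζ (1 - k) - 1))
        - b * ((peuChi p ζ k - 1) / (peuChi p ζ (1 - k) - 1))) := by
    rw [hden]
    field_simp
    ring
  rw [h1]
  refine P.mul_mem _ _ (peuChi_inv_mem hζ k) (sub_mem (P.mul_mem _ _ hab ?_) (P.mul_mem _ _ hb ?_))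
  · exact peu_ratio_mem P (peuChi_pow_p hζ _) hη1 hζ
  · exact peu_ratio_mem P (peuChi_pow_p hζ _) hη1 (peuChi_pow_p hζ k)

/-- One step preserves integrality on a comultiplication-closed family. -/
theorem peuPair_step_mem (hζ : ζ ^ p = 1) (hζ1 : ζ ≠ 1) (𝔄 : Set (ZMod p → Kb))
    (hcomul : ComulClosed 𝔄) (hval : ∀ f ∈ 𝔄, ∀ c, f c ∈ P)
    (hdiv : ∀ f ∈ 𝔄, (f 1 - f 0) / (ζ - 1) ∈ P) {k : ZMod p} (hk : k ≠ 1)
    (u : ZMod p → Kb) (hu : ∀ f ∈ 𝔄, peuPair u f ∈ P) :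
    ∀ f ∈ 𝔄, peuPair (peuStep ζ k u) f ∈ P := by
  intro f hf
  obtain ⟨n, g, h, hg, hh, hgh⟩ := hcomul f hf
  have h1 : ∑ c, u (c - 1) * f c = ∑ i, peuPair u (g i) * h i 1 := by
    rw [← peu_sum_shift (fun c => u (c - 1) * f c) 1]
    have : ∀ c : ZMod p, u (c + 1 - 1) * f (c + 1) = ∑ i, u c * g i c * h i 1 := by
      intro c
      rw [add_sub_cancel_right, hgh, Finset.mul_sum]
      exact Finset.sum_congr rfl fun i _ => by ring
    rw [Finset.sum_congr rfl (fun c _ => this c), Finset.sum_comm]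
    refine Finset.sum_congr rfl fun i _ => ?_
    unfold peuPair
    rw [Finset.sum_mul]
  have h2 : ∑ c, u c * f c = ∑ i, peuPair u (g i) * h i 0 := by
    have : ∀ c : ZMod p, u c * f c = ∑ i, u c * g i c * h i 0 := by
      intro c
      have h0 := hgh c 0
      rw [add_zero] at h0
      rw [h0, Finset.mul_sum]
      exact Finset.sum_congr rfl fun i _ => by ring
    rw [Finset.sum_congr rfl (fun c _ => this c), Finset.sum_comm]
    refine Finset.sum_congr rfl fun i _ => ?_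
    unfold peuPair
    rw [Finset.sum_mul]
  have h3 : peuPair (peuStep ζ k u) f =
      ∑ i, peuPair u (g i) * ((h i 1 - peuChi p ζ k * h i 0) / (ζ - peuChi p ζ k)) := by
    have e1 : peuPair (peuStep ζ k u) f =
        (∑ c, u (c - 1) * f c - peuChi p ζ k * ∑ c, u c * f c) / (ζ - peuChi p ζ k) := by
      unfold peuPair peuStep
      rw [Finset.mul_sum, ← Finset.sum_sub_distrib, Finset.sum_div]
      exact Finset.sum_congr rfl fun c _ => by ring
    rw [e1, h1, h2, Finset.mul_sum, ← Finset.sum_sub_distrib, Finset.sum_div]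
    exact Finset.sum_congr rfl fun i _ => by ring
  rw [h3]
  refine peu_sum_mem _ _ fun i _ => P.mul_mem _ _ (hu _ (hg i)) ?_
  exact peu_factor_mem P hζ hζ1 hk (hval _ (hh i) 1) (hval _ (hh i) 0) (hdiv _ (hh i))

/-- Partial products: for every finite set `s` of `k ≠ 1` there is an integral functional with
Fourier transform `∏_{k ∈ s} (ζ^i - ζ^k) / (ζ - ζ^k)`. -/
theorem peu_exists_partial (hζ : ζ ^ p = 1) (hζ1 : ζ ≠ 1) (𝔄 : Set (ZMod p → Kb))
    (hcomul : ComulClosed 𝔄) (hval : ∀ f ∈ 𝔄, ∀ c, f c ∈ P)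
    (hdiv : ∀ f ∈ 𝔄, (f 1 - f 0) / (ζ - 1) ∈ P) (s : Finset (ZMod p)) (hs : (1 : ZMod p) ∉ s) :
    ∃ u : ZMod p → Kb, (∀ f ∈ 𝔄, peuPair u f ∈ P) ∧
      ∀ i, peuHat ζ u i = ∏ k ∈ s, (peuChi p ζ i - peuChi p ζ k) / (ζ - peuChi p ζ k) := by
  classical
  induction s using Finset.induction_on with
  | empty =>
    refine ⟨fun c => if c = 0 then 1 else 0, fun f hf => ?_, fun i => ?_⟩
    · unfold peuPair
      simp only [ite_mul, one_mul, zero_mul, Finset.sum_ite_eq', Finset.mem_univ, if_true]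
      exact hval f hf 0
    · unfold peuHat
      simp only [ite_mul, one_mul, zero_mul, Finset.sum_ite_eq', Finset.mem_univ, if_true,
        mul_zero, peuChi_zero, Finset.prod_empty]
  | insert k s hks ih =>
    have hk1 : k ≠ 1 := fun h => hs (h ▸ Finset.mem_insert_self k s)
    obtain ⟨u, hu, hhat⟩ := ih (fun h => hs (Finset.mem_insert_of_mem h))
    refine ⟨peuStep ζ k u, peuPair_step_mem hζ hζ1 𝔄 hcomul hval hdiv hk1 u hu, fun i => ?_⟩
    rw [peuHat_step hζ, hhat, Finset.prod_insert hks]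

/-- **CORE lemma for PEU**: the idempotent of the character `ζ` is integral on `𝔄`. -/
theorem peu_core (hζ : ζ ^ p = 1) (hζ1 : ζ ≠ 1) (𝔄 : Set (ZMod p → Kb))
    (hcomul : ComulClosed 𝔄) (hval : ∀ f ∈ 𝔄, ∀ c, f c ∈ P)
    (hdiv : ∀ f ∈ 𝔄, (f 1 - f 0) / (ζ - 1) ∈ P) (f : ZMod p → Kb) (hf : f ∈ 𝔄) :
    (p : Kb)⁻¹ * ∑ c, (peuChi p ζ c)⁻¹ * f c ∈ P := by
  classical
  obtain ⟨u, hu, hhat⟩ := peu_exists_partial hζ hζ1 𝔄 hcomul hval hdiv
    ((Finset.univ : Finset (ZMod p)).erase 1) (Finset.notMem_erase _ _)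
  have hhat1 : peuHat ζ u 1 = 1 := by
    rw [hhat]
    refine Finset.prod_eq_one fun k hk => ?_
    have hk1 : k ≠ 1 := (Finset.mem_erase.1 hk).1
    rw [peuChi_one]
    refine div_self (sub_ne_zero.2 fun h => hk1 ?_)
    apply peuChi_injective hζ hζ1
    rw [peuChi_one]
    exact h.symm
  have hhat0 : ∀ i : ZMod p, i ≠ 1 → peuHat ζ u i = 0 := by
    intro i hi
    rw [hhat]
    refine Finset.prod_eq_zero (Finset.mem_erase.2 ⟨hi, Finset.mem_univ i⟩) ?_
    rw [sub_self, zero_div]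
  have hu_eq : ∀ c, u c = (p : Kb)⁻¹ * (peuChi p ζ c)⁻¹ := by
    intro c
    rw [peu_fourier_inv hζ hζ1 u c]
    congr 1
    rw [Finset.sum_eq_single (1 : ZMod p)]
    · rw [hhat1, one_mul, one_mul]
    · intro i _ hi
      rw [hhat0 i hi, zero_mul]
    · intro h
      exact absurd (Finset.mem_univ _) h
  have h1 := hu f hf
  unfold peuPair at h1
  have h2 : ∑ c, u c * f c = (p : Kb)⁻¹ * ∑ c, (peuChi p ζ c)⁻¹ * f c := by
    rw [Finset.mul_sum]
    exact Finset.sum_congr rfl fun c _ => by rw [hu_eq c]; ring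
  rwa [h2] at h1

end Fermat.Agent.FFL
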