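/-
Lib/FFL seat FFL-PEU (helper6), file 3: the abstract setting `PeuHyp` and the weight-one
projector `peuE`.

Setting (`PeuHyp p P act B N ι`): `M` an abelian group with an action `act` of `G_ℚ` (only the
inertia group `I` of `P` is used), `B` a comultiplication-closed family of `P`-valued,
`I`-equivariant functions `M → ℚ̄`, `N ≤ M` a subgroup with an `I`-equivariant character
`ι : N → μ_p` (NOT necessarily injective: the functions of `B` are invariant under `ker ι`),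
`I` acts trivially on `M / N`.

For `n₀ ∈ N` with `ζ = ι n₀ ≠ 1`:  `peuE p ζ n₀ f x = p⁻¹ ∑_{c ∈ ℤ/p} ζ^{-c} f (x + c n₀)`
(the Lagrange resolvent).  Results: `peuE_mem` (INTEGRALITY: values in `P`, when `n₀` reduces to
the identity), `peuE_weight`, `peuE_equiv` (inertia-equivariance), `peuE_comul`, `peuE_comul₂`;
`ι_act_sub_eq_one` (the other case: `n₀` does not reduce to the identity).
No hypothesis `p ≠ 2`, except in `redKer_of_ne_one` (not used for the main theorem).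
-/
import Fermat.Agent.Lib.FFL.PeuCore

set_option autoImplicit false
set_option linter.unusedSectionVars false
set_option linter.unusedVariables false
set_option linter.style.haveILetI false
set_option linter.unnecessarySimpa false

namespace Fermat.Agent.FFL

open Fermat.Agent.FlatMod GaloisRep

local notation "Kb" => AlgebraicClosure ℚ
local notation "GK" => (AlgebraicClosure ℚ ≃ₐ[ℚ] AlgebraicClosure ℚ)

/-- Hypotheses of the abstract PEU theorem. -/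
structure PeuHyp (p : ℕ) (P : ValuationSubring Kb) {M : Type*} [AddCommGroup M]
    (act : GK → M → M) (B : Set (M → Kb)) (N : AddSubgroup M) (ι : M → Kb) : Prop where
  act_add : ∀ σ ∈ P.inertiaSubgroupIn ℚ, ∀ x y, act σ (x + y) = act σ x + act σ y
  val_mem : ∀ f ∈ B, ∀ x, f x ∈ P
  equiv : ∀ f ∈ B, ∀ σ ∈ P.inertiaSubgroupIn ℚ, ∀ x, f (act σ x) = σ (f x)
  comul : ComulClosed B
  ι_pow : ∀ n ∈ N, ι n ^ p = 1
  ι_add : ∀ n ∈ N, ∀ n' ∈ N, ι (n + n') = ι n * ι n'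
  act_mem : ∀ σ ∈ P.inertiaSubgroupIn ℚ, ∀ n ∈ N, act σ n ∈ N
  ι_equiv : ∀ σ ∈ P.inertiaSubgroupIn ℚ, ∀ n ∈ N, ι (act σ n) = σ (ι n)
  inv : ∀ f ∈ B, ∀ n ∈ N, ι n = 1 → ∀ x, f (x + n) = f x
  quot : ∀ σ ∈ P.inertiaSubgroupIn ℚ, ∀ m, act σ m - m ∈ N

/-- The weight-one projector (Lagrange resolvent) along `n₀`. -/
noncomputable def peuE (p : ℕ) [Fact p.Prime] {M : Type*} [AddCommGroup M] (ζ : Kb) (n₀ : M)
    (f : M → Kb) :
    M → Kb :=
  fun x => (p : Kb)⁻¹ * ∑ c : ZMod p, (peuChi p ζ c)⁻¹ * f (x + c.val • n₀)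

variable {p : ℕ} {P : ValuationSubring Kb} [Fact p.Prime] {M : Type*} [AddCommGroup M]
  {act : GK → M → M} {B : Set (M → Kb)} {N : AddSubgroup M} {ι : M → Kb}

namespace PeuHyp

variable (H : PeuHyp p P act B N ι)
include H

theorem ι_zero : ι 0 = 1 := by
  have hp : p.Prime := Fact.out
  have h1 := H.ι_add 0 N.zero_mem 0 N.zero_mem
  rw [add_zero] at h1
  have h2 := H.ι_pow 0 N.zero_mem
  have h0 : ι 0 ≠ 0 := by
    intro h
    rw [h, zero_pow hp.ne_zero] at h2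
    exact zero_ne_one h2
  have h3 : ι 0 * (ι 0 - 1) = 0 := by linear_combination -h1
  rcases mul_eq_zero.1 h3 with h | h
  · exact absurd h h0
  · exact sub_eq_zero.1 h

theorem ι_ne_zero {n : M} (hn : n ∈ N) : ι n ≠ 0 := by
  have hp : p.Prime := Fact.out
  intro h
  have h2 := H.ι_pow n hn
  rw [h, zero_pow hp.ne_zero] at h2
  exact zero_ne_one h2

theorem ι_neg {n : M} (hn : n ∈ N) : ι (-n) = (ι n)⁻¹ := by
  have h1 := H.ι_add (-n) (N.neg_mem hn) n hn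
  rw [neg_add_cancel, H.ι_zero] at h1
  exact eq_inv_of_mul_eq_one_left h1.symm

theorem ι_sub {n n' : M} (hn : n ∈ N) (hn' : n' ∈ N) : ι (n - n') = ι n * (ι n')⁻¹ := by
  rw [sub_eq_add_neg, H.ι_add n hn (-n') (N.neg_mem hn'), H.ι_neg hn']

theorem ι_nsmul {n : M} (hn : n ∈ N) (k : ℕ) : ι (k • n) = ι n ^ k := by
  induction k with
  | zero => rw [zero_smul, pow_zero, H.ι_zero]
  | succ k ih =>
    rw [succ_nsmul, H.ι_add _ (N.nsmul_mem hn k) n hn, ih, pow_succ]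

theorem ι_val_smul {n₀ : M} (hn₀ : n₀ ∈ N) (c : ZMod p) :
    ι (c.val • n₀) = peuChi p (ι n₀) c := by
  rw [H.ι_nsmul hn₀]
  rfl

theorem act_zero {σ : GK} (hσ : σ ∈ P.inertiaSubgroupIn ℚ) : act σ 0 = 0 := by
  have h := H.act_add σ hσ 0 0
  rw [add_zero] at h
  exact left_eq_add.1 h

theorem act_nsmul {σ : GK} (hσ : σ ∈ P.inertiaSubgroupIn ℚ) (k : ℕ) (x : M) :
    act σ (k • x) = k • act σ x := by
  induction k with
  | zero => rw [zero_smul, zero_smul, H.act_zero hσ]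
  | succ k ih => rw [succ_nsmul, succ_nsmul, H.act_add σ hσ, ih]

/-- **Normal form**: on `N`, the functions of `B` only see `ι`. -/
theorem normal_form {n₀ : M} (hn₀ : n₀ ∈ N) {f : M → Kb} (hf : f ∈ B) (y : M) {n : M}
    (hn : n ∈ N) {c : ZMod p} (hc : ι n = peuChi p (ι n₀) c) :
    f (y + n) = f (y + c.val • n₀) := by
  have hmem : n - c.val • n₀ ∈ N := N.sub_mem hn (N.nsmul_mem hn₀ _)
  have h1 : ι (n - c.val • n₀) = 1 := by
    rw [H.ι_sub hn (N.nsmul_mem hn₀ _), H.ι_val_smul hn₀, hc]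
    exact mul_inv_cancel₀ (peuChi_ne_zero (H.ι_pow n₀ hn₀) c)
  have h2 := H.inv f hf _ hmem h1 (y + c.val • n₀)
  rw [← h2]
  congr 1
  abel

/-! ### The kernel of reduction -/

/-- Congruent points have congruent sums. -/
theorem cong_add {w₁ w₁' w₂ w₂' : M} (h₁ : ∀ f ∈ B, f w₁ - f w₁' ∈ P.nonunits)
    (h₂ : ∀ f ∈ B, f w₂ - f w₂' ∈ P.nonunits) :
    ∀ f ∈ B, f (w₁ + w₂) - f (w₁' + w₂') ∈ P.nonunits := by
  intro f hf
  obtain ⟨n, g, h, hg, hh, hgh⟩ := H.comul f hf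
  rw [hgh, hgh, ← Finset.sum_sub_distrib]
  refine peu_sum_mem_nonunits _ _ fun i _ => ?_
  have e : g i w₁ * h i w₂ - g i w₁' * h i w₂' =
      (g i w₁ - g i w₁') * h i w₂ + g i w₁' * (h i w₂ - h i w₂') := by ring
  rw [e]
  exact red_add_mem_nonunits P
    (red_mul_mem_nonunits_right P (h₁ _ (hg i)) (H.val_mem _ (hh i) _))
    (red_mul_mem_nonunits_left P (H.val_mem _ (hg i) _) (h₂ _ (hh i)))

theorem act_sub_cong {σ : GK} (hσ : σ ∈ P.inertiaSubgroupIn ℚ) (v : M) :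
    ∀ f ∈ B, f (act σ v - v) - f 0 ∈ P.nonunits := by
  have h1 : ∀ f ∈ B, f (act σ v) - f v ∈ P.nonunits := by
    intro f hf
    rw [H.equiv f hf σ hσ]
    exact Fermat.Agent.Cyclo.inertia_sub_mem_nonunits P hσ (H.val_mem f hf v)
  have h2 : ∀ f ∈ B, f (-v) - f (-v) ∈ P.nonunits := by
    intro f _
    rw [sub_self]
    exact red_zero_mem_nonunits P
  intro f hf
  have := H.cong_add h1 h2 f hf
  rwa [← sub_eq_add_neg, ← sub_eq_add_neg, sub_self] at this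

theorem nsmul_cong {w : M} (hw : ∀ f ∈ B, f w - f 0 ∈ P.nonunits) (k : ℕ) :
    ∀ f ∈ B, f (k • w) - f 0 ∈ P.nonunits := by
  induction k with
  | zero =>
    intro f _
    rw [zero_smul, sub_self]
    exact red_zero_mem_nonunits P
  | succ k ih =>
    intro f hf
    have := H.cong_add ih hw f hf
    rwa [add_zero, ← succ_nsmul] at this

/-- **S1**: a point `n₀ ∈ N` with `ι n₀ ≠ 1` reduces to the identity. -/
theorem redKer_of_ne_one (hP : P.LiesOverPrime p) (hunr : UnrProp p P) (hcyc : CycProp p P)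
    {n₀ : M} (hn₀ : n₀ ∈ N) (hζ1 : ι n₀ ≠ 1) : ∀ f ∈ B, f n₀ - f 0 ∈ P.nonunits := by
  have hζ : ι n₀ ^ p = 1 := H.ι_pow n₀ hn₀
  obtain ⟨σ, hσ, hmove⟩ := peu_exists_moving hP hunr hcyc hζ hζ1
  obtain ⟨t, ht0, ht⟩ := peu_exists_exp hζ hζ1 σ
  have ht1 : t - 1 ≠ 0 := by
    intro h
    apply hmove
    rw [ht, sub_eq_zero.1 h, peuChi_one]
  -- the point `w = σ n₀ - n₀`
  have hwN : act σ n₀ - n₀ ∈ N := H.quot σ hσ n₀
  have hιw : ι (act σ n₀ - n₀) = peuChi p (ι n₀) (t - 1) := by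
    rw [H.ι_sub (H.act_mem σ hσ n₀ hn₀) hn₀, H.ι_equiv σ hσ n₀ hn₀, ht, peuChi_sub hζ,
      peuChi_one]
  have hw := H.act_sub_cong hσ n₀
  set k : ℕ := ((t - 1)⁻¹ : ZMod p).val with hk
  have hkw := H.nsmul_cong hw k
  have hιkw : ι (k • (act σ n₀ - n₀)) = peuChi p (ι n₀) 1 := by
    rw [H.ι_nsmul hwN, hιw, hk, ← peuChi_mul hζ, mul_inv_cancel₀ ht1]
  intro f hf
  have h1 := H.normal_form hn₀ hf 0 (N.nsmul_mem hwN k) hιkw
  haveI : Fact (1 < p) := ⟨(Fact.out : p.Prime).one_lt⟩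
  rw [zero_add, zero_add, ZMod.val_one, one_smul] at h1
  rw [← h1]
  exact hkw f hf

/-- **S2**: divisibility by `ζ - 1`. -/
theorem div_mem (hP : P.LiesOverPrime p) (hunr : UnrProp p P)
    {n₀ : M} (hn₀ : n₀ ∈ N) (hζ1 : ι n₀ ≠ 1) (hred : ∀ f ∈ B, f n₀ - f 0 ∈ P.nonunits)
    {f : M → Kb} (hf : f ∈ B) :
    (f n₀ - f 0) / (ι n₀ - 1) ∈ P := by
  have hζ : ι n₀ ^ p = 1 := H.ι_pow n₀ hn₀
  haveI : Fact (1 < p) := ⟨(Fact.out : p.Prime).one_lt⟩
  have h := peu_orbit_div hP hunr hζ hζ1 (fun c : ZMod p => f (c.val • n₀) - f 0)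
    (fun c => sub_mem (H.val_mem f hf _) (H.val_mem f hf _))
    (by
      show f ((1 : ZMod p).val • n₀) - f 0 ∈ P.nonunits
      rw [ZMod.val_one, one_smul]
      exact hred f hf)
    (by
      intro τ hτ t ht c
      show τ (f (c.val • n₀) - f 0) = f ((t * c).val • n₀) - f 0
      rw [map_sub, ← H.equiv f hf τ hτ, ← H.equiv f hf τ hτ, H.act_zero hτ,
        H.act_nsmul hτ]
      have hmem : c.val • act τ n₀ ∈ N := N.nsmul_mem (H.act_mem τ hτ n₀ hn₀) _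
      have hι : ι (c.val • act τ n₀) = peuChi p (ι n₀) (t * c) := by
        rw [H.ι_nsmul (H.act_mem τ hτ n₀ hn₀), H.ι_equiv τ hτ n₀ hn₀, ht, ← peuChi_mul hζ]
      have h1 := H.normal_form hn₀ hf 0 hmem hι
      rw [zero_add, zero_add] at h1
      rw [h1])
  have h2 : f ((1 : ZMod p).val • n₀) - f 0 = f n₀ - f 0 := by
    rw [ZMod.val_one, one_smul]
  simpa only [h2] using h

/-- **Case B**: if `n₀` does not reduce to the identity, inertia acts trivially modulo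
`ker ι`. -/
theorem ι_act_sub_eq_one {n₀ : M} (hn₀ : n₀ ∈ N)
    (hnot : ¬ ∀ f ∈ B, f n₀ - f 0 ∈ P.nonunits) {σ : GK} (hσ : σ ∈ P.inertiaSubgroupIn ℚ)
    (m : M) : ι (act σ m - m) = 1 := by
  by_contra hne
  apply hnot
  have hwN : act σ m - m ∈ N := H.quot σ hσ m
  have hw := H.act_sub_cong hσ m
  obtain ⟨c, hc⟩ := peu_exists_chi (H.ι_pow _ hwN) hne (H.ι_pow n₀ hn₀)
  have hkw := H.nsmul_cong hw c.val
  have hιkw : ι (c.val • (act σ m - m)) = peuChi p (ι n₀) 1 := by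
    rw [H.ι_nsmul hwN, peuChi_one, hc]
    rfl
  intro f hf
  have h1 := H.normal_form hn₀ hf 0 (N.nsmul_mem hwN c.val) hιkw
  haveI : Fact (1 < p) := ⟨(Fact.out : p.Prime).one_lt⟩
  rw [zero_add, zero_add, ZMod.val_one, one_smul] at h1
  rw [← h1]
  exact hkw f hf

/-! ### Integrality of the projector -/

omit H in
/-- The family of restrictions to the lines `x + ℤ n₀`, as functions on `ℤ/p`. -/
def lineFam (B : Set (M → Kb)) (n₀ : M) : Set (ZMod p → Kb) :=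
  {φ | ∃ f ∈ B, ∃ x : M, φ = fun c => f (x + c.val • n₀)}

theorem lineFam_comul {n₀ : M} (hn₀ : n₀ ∈ N) : ComulClosed (lineFam (p := p) B n₀) := by
  rintro φ ⟨f, hf, x, rfl⟩
  obtain ⟨n, g, h, hg, hh, hgh⟩ := H.comul f hf
  refine ⟨n, fun i c => g i (x + c.val • n₀), fun i c => h i (0 + c.val • n₀),
    fun i => ⟨g i, hg i, x, rfl⟩, fun i => ⟨h i, hh i, 0, rfl⟩, fun c e => ?_⟩
  show f (x + (c + e).val • n₀) = ∑ i, g i (x + c.val • n₀) * h i (0 + e.val • n₀)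
  have hmem : c.val • n₀ + e.val • n₀ ∈ N := N.add_mem (N.nsmul_mem hn₀ _) (N.nsmul_mem hn₀ _)
  have hι : ι (c.val • n₀ + e.val • n₀) = peuChi p (ι n₀) (c + e) := by
    rw [H.ι_add _ (N.nsmul_mem hn₀ _) _ (N.nsmul_mem hn₀ _), H.ι_val_smul hn₀,
      H.ι_val_smul hn₀, peuChi_add (H.ι_pow n₀ hn₀)]
  rw [← H.normal_form hn₀ hf x hmem hι, ← add_assoc, hgh]
  simp only [zero_add]

theorem lineFam_val {n₀ : M} : ∀ φ ∈ lineFam (p := p) B n₀, ∀ c, φ c ∈ P := by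
  rintro φ ⟨f, hf, x, rfl⟩ c
  exact H.val_mem f hf _

theorem lineFam_div (hP : P.LiesOverPrime p) (hunr : UnrProp p P)
    {n₀ : M} (hn₀ : n₀ ∈ N) (hζ1 : ι n₀ ≠ 1) (hred : ∀ f ∈ B, f n₀ - f 0 ∈ P.nonunits) :
    ∀ φ ∈ lineFam (p := p) B n₀, (φ 1 - φ 0) / (ι n₀ - 1) ∈ P := by
  rintro φ ⟨f, hf, x, rfl⟩
  haveI : Fact (1 < p) := ⟨(Fact.out : p.Prime).one_lt⟩
  show (f (x + (1 : ZMod p).val • n₀) - f (x + (0 : ZMod p).val • n₀)) / (ι n₀ - 1) ∈ P
  rw [ZMod.val_one, one_smul, ZMod.val_zero, zero_smul]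
  obtain ⟨n, g, h, hg, hh, hgh⟩ := H.comul f hf
  rw [hgh, hgh, ← Finset.sum_sub_distrib, Finset.sum_div]
  refine peu_sum_mem _ _ fun i _ => ?_
  have e : (g i x * h i n₀ - g i x * h i 0) / (ι n₀ - 1) =
      g i x * ((h i n₀ - h i 0) / (ι n₀ - 1)) := by ring
  rw [e]
  exact P.mul_mem _ _ (H.val_mem _ (hg i) _) (H.div_mem hP hunr hn₀ hζ1 hred (hh i))

/-- **S3**: the projector is integral on `B`. -/
theorem peuE_mem (hP : P.LiesOverPrime p) (hunr : UnrProp p P)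
    {n₀ : M} (hn₀ : n₀ ∈ N) (hζ1 : ι n₀ ≠ 1) (hred : ∀ f ∈ B, f n₀ - f 0 ∈ P.nonunits)
    {f : M → Kb} (hf : f ∈ B) (x : M) :
    peuE p (ι n₀) n₀ f x ∈ P :=
  peu_core (H.ι_pow n₀ hn₀) hζ1 (lineFam B n₀) (H.lineFam_comul hn₀) H.lineFam_val
    (H.lineFam_div hP hunr hn₀ hζ1 hred) _ ⟨f, hf, x, rfl⟩

/-! ### Properties of the projector -/

/-- The projector has weight one: `E f (x + n) = ι n * E f x` for `n ∈ N`. -/
theorem peuE_weight {n₀ : M} (hn₀ : n₀ ∈ N) (hζ1 : ι n₀ ≠ 1) {f : M → Kb} (hf : f ∈ B)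
    (x : M) {n : M} (hn : n ∈ N) :
    peuE p (ι n₀) n₀ f (x + n) = ι n * peuE p (ι n₀) n₀ f x := by
  have hζ : ι n₀ ^ p = 1 := H.ι_pow n₀ hn₀
  obtain ⟨e, he⟩ := peu_exists_chi hζ hζ1 (H.ι_pow n hn)
  unfold peuE
  have h1 : ∀ c : ZMod p, (peuChi p (ι n₀) c)⁻¹ * f (x + n + c.val • n₀) =
      ι n * ((peuChi p (ι n₀) (c + e))⁻¹ * f (x + (c + e).val • n₀)) := by
    intro c
    have hmem : n + c.val • n₀ ∈ N := N.add_mem hn (N.nsmul_mem hn₀ _)
    have hι : ι (n + c.val • n₀) = peuChi p (ι n₀) (c + e) := by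
      rw [H.ι_add _ hn _ (N.nsmul_mem hn₀ _), H.ι_val_smul hn₀, he, peuChi_add hζ, mul_comm]
    rw [add_assoc, H.normal_form hn₀ hf x hmem hι, he, peuChi_add hζ]
    have h0 := peuChi_ne_zero hζ c
    have h0' := peuChi_ne_zero hζ e
    field_simp
  rw [Finset.sum_congr rfl (fun c _ => h1 c), ← Finset.mul_sum,
    peu_sum_shift (fun c => (peuChi p (ι n₀) c)⁻¹ * f (x + c.val • n₀)) e]
  ring

/-- The projector commutes with inertia. -/
theorem peuE_equiv {n₀ : M} (hn₀ : n₀ ∈ N) (hζ1 : ι n₀ ≠ 1) {f : M → Kb} (hf : f ∈ B)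
    {σ : GK} (hσ : σ ∈ P.inertiaSubgroupIn ℚ) (x : M) :
    σ (peuE p (ι n₀) n₀ f x) = peuE p (ι n₀) n₀ f (act σ x) := by
  have hζ : ι n₀ ^ p = 1 := H.ι_pow n₀ hn₀
  obtain ⟨t, ht0, ht⟩ := peu_exists_exp hζ hζ1 σ
  unfold peuE
  rw [map_mul, map_inv₀, map_natCast, map_sum]
  congr 1
  have h1 : ∀ c : ZMod p, σ ((peuChi p (ι n₀) c)⁻¹ * f (x + c.val • n₀)) =
      (peuChi p (ι n₀) (t * c))⁻¹ * f (act σ x + (t * c).val • n₀) := by
    intro c
    rw [map_mul, map_inv₀, peu_conj_chi hζ ht, ← H.equiv f hf σ hσ, H.act_add σ hσ,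
      H.act_nsmul hσ]
    have hmem : c.val • act σ n₀ ∈ N := N.nsmul_mem (H.act_mem σ hσ n₀ hn₀) _
    have hι : ι (c.val • act σ n₀) = peuChi p (ι n₀) (t * c) := by
      rw [H.ι_nsmul (H.act_mem σ hσ n₀ hn₀), H.ι_equiv σ hσ n₀ hn₀, ht, ← peuChi_mul hζ]
    rw [H.normal_form hn₀ hf (act σ x) hmem hι]
  rw [Finset.sum_congr rfl (fun c _ => h1 c)]
  exact Fintype.sum_equiv (Equiv.mulLeft₀ t ht0) _ _ (fun _ => rfl)

omit H in
/-- Comultiplication of the projector, first variable. -/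
theorem peuE_comul (ζ : Kb) (n₀ : M) {f : M → Kb} {n : ℕ} {g h : Fin n → M → Kb}
    (hgh : ∀ w w' : M, f (w + w') = ∑ i, g i w * h i w') (x y : M) :
    peuE p ζ n₀ f (x + y) = ∑ i, peuE p ζ n₀ (g i) x * h i y := by
  unfold peuE
  have h1 : ∀ c : ZMod p, (peuChi p ζ c)⁻¹ * f (x + y + c.val • n₀) =
      ∑ i, (peuChi p ζ c)⁻¹ * g i (x + c.val • n₀) * h i y := by
    intro c
    rw [add_right_comm, hgh, Finset.mul_sum]
    exact Finset.sum_congr rfl fun i _ => by ring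
  rw [Finset.sum_congr rfl (fun c _ => h1 c), Finset.sum_comm, Finset.mul_sum]
  refine Finset.sum_congr rfl fun i _ => ?_
  rw [mul_assoc, Finset.sum_mul, Finset.mul_sum]

/-- A function of weight one is fixed by the projector. -/
theorem peuE_of_weight {n₀ : M} (hn₀ : n₀ ∈ N) (φ : M → Kb)
    (hφ : ∀ x, ∀ n ∈ N, φ (x + n) = ι n * φ x) (x : M) :
    peuE p (ι n₀) n₀ φ x = φ x := by
  have hζ : ι n₀ ^ p = 1 := H.ι_pow n₀ hn₀
  have hp0 : (p : Kb) ≠ 0 := Nat.cast_ne_zero.2 (Fact.out : p.Prime).ne_zero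
  unfold peuE
  have h1 : ∀ c : ZMod p, (peuChi p (ι n₀) c)⁻¹ * φ (x + c.val • n₀) = φ x := by
    intro c
    rw [hφ x _ (N.nsmul_mem hn₀ _), H.ι_val_smul hn₀, ← mul_assoc,
      inv_mul_cancel₀ (peuChi_ne_zero hζ c), one_mul]
  rw [Finset.sum_congr rfl (fun c _ => h1 c), Finset.sum_const, Finset.card_univ, ZMod.card,
    nsmul_eq_mul]
  field_simp

/-- Comultiplication of the projector, both variables. -/
theorem peuE_comul₂ {n₀ : M} (hn₀ : n₀ ∈ N) (hζ1 : ι n₀ ≠ 1) {f : M → Kb} (hf : f ∈ B)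
    {n : ℕ} {g h : Fin n → M → Kb} (hgh : ∀ w w' : M, f (w + w') = ∑ i, g i w * h i w')
    (x y : M) :
    peuE p (ι n₀) n₀ f (x + y) =
      ∑ i, peuE p (ι n₀) n₀ (g i) x * peuE p (ι n₀) n₀ (h i) y := by
  -- `y ↦ E f (x + y)` has weight one
  have h1 := H.peuE_of_weight hn₀ (fun y => peuE p (ι n₀) n₀ f (x + y))
    (fun y n hn => by
      show peuE p (ι n₀) n₀ f (x + (y + n)) = ι n * peuE p (ι n₀) n₀ f (x + y)
      rw [← add_assoc]
      exact H.peuE_weight hn₀ hζ1 hf (x + y) hn) y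
  rw [← h1]
  show (p : Kb)⁻¹ * ∑ c : ZMod p, (peuChi p (ι n₀) c)⁻¹ *
    peuE p (ι n₀) n₀ f (x + (y + c.val • n₀)) = _
  have h2 : ∀ c : ZMod p, (peuChi p (ι n₀) c)⁻¹ * peuE p (ι n₀) n₀ f (x + (y + c.val • n₀)) =
      ∑ i, peuE p (ι n₀) n₀ (g i) x * ((peuChi p (ι n₀) c)⁻¹ * h i (y + c.val • n₀)) := by
    intro c
    rw [peuE_comul (ι n₀) n₀ hgh, Finset.mul_sum]
    exact Finset.sum_congr rfl fun i _ => by ring
  rw [Finset.sum_congr rfl (fun c _ => h2 c), Finset.sum_comm, Finset.mul_sum]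
  refine Finset.sum_congr rfl fun i _ => ?_
  unfold peuE
  rw [← Finset.mul_sum]
  ring

end PeuHyp

end Fermat.Agent.FFL
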