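/-
Lib/FFL seat FFL-PEU (helper6), file 4: the theorem.

`peu_abstract` : in the setting `PeuHyp p P act B N ι` (PeuProj.lean), if `B` is "full"
(`∃ f ∈ B, peuE p (ι n₀) n₀ f 0 ≠ 0` for every `n₀ ∈ N` with `ι n₀ ≠ 1`), then for every `m : M`
there is a UNIT `a` of `P` (`a ≠ 0`, `a, a⁻¹ ∈ P`) with `σ a = ι (act σ m - m) * a` for all `σ`
in the inertia group:
the Kummer class of the extension `0 → N → M → M/N → 0` (pushed out by `ι`) is a class of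
units = PEU RAMIFIÉE.   Valid for ALL primes `p` (`p = 2` included); uses only `unrProp`
and `dvdProp` (no `MainProp`, no `CycProp`).

`a` is a Lagrange resolvent `p⁻¹ ∑_c ζ^{-c} g (m + c n₀)` of a function `g ∈ B`.
-/
import Fermat.Agent.Lib.FFL.PeuProj
import Fermat.Agent.Lib.FFL.Unr
import Fermat.Agent.Lib.FFL.Arith

set_option autoImplicit false
set_option linter.unusedSectionVars false
set_option linter.unusedVariables false
set_option linter.style.haveILetI false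
set_option linter.unnecessarySimpa false

namespace Fermat.Agent.FFL

open Fermat.Agent.FlatMod GaloisRep

local notation "Kb" => AlgebraicClosure ℚ
local notation "GK" => (AlgebraicClosure ℚ ≃ₐ[ℚ] AlgebraicClosure ℚ)

variable {p : ℕ} {P : ValuationSubring Kb} [Fact p.Prime] {M : Type*} [AddCommGroup M]
  {act : GK → M → M} {B : Set (M → Kb)} {N : AddSubgroup M} {ι : M → Kb}

namespace PeuHyp

variable (H : PeuHyp p P act B N ι)
include H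

/-- The values at `0` of the projections lie in the inertia ring. -/
theorem peuE_zero_mem_inertiaRing (hP : P.LiesOverPrime p) (hunr : UnrProp p P)
    {n₀ : M} (hn₀ : n₀ ∈ N) (hζ1 : ι n₀ ≠ 1) (hred : ∀ f ∈ B, f n₀ - f 0 ∈ P.nonunits)
    {f : M → Kb} (hf : f ∈ B) : peuE p (ι n₀) n₀ f 0 ∈ inertiaRing P :=
  ⟨H.peuE_mem hP hunr hn₀ hζ1 hred hf 0, fun σ hσ => by
    rw [H.peuE_equiv hn₀ hζ1 hf hσ, H.act_zero hσ]⟩

/-- **S4**: some projection has a unit value at `0`. -/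
theorem exists_unit_value (hP : P.LiesOverPrime p) (hunr : UnrProp p P) (hdvd : DvdProp p P)
    {n₀ : M} (hn₀ : n₀ ∈ N) (hζ1 : ι n₀ ≠ 1) (hred : ∀ f ∈ B, f n₀ - f 0 ∈ P.nonunits)
    (hfull : ∃ f ∈ B, peuE p (ι n₀) n₀ f 0 ≠ 0) :
    ∃ f ∈ B, peuE p (ι n₀) n₀ f 0 ∉ P.nonunits := by
  classical
  have hp : p.Prime := Fact.out
  have hp0 : (p : Kb) ≠ 0 := Nat.cast_ne_zero.2 hp.ne_zero
  -- the possible valuations
  let Q : ℕ → Prop := fun k => ∃ f ∈ B, ∃ u : Kb, u ∈ P ∧ u⁻¹ ∈ P ∧ u ≠ 0 ∧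
    peuE p (ι n₀) n₀ f 0 = (p : Kb) ^ k * u
  have hfac : ∀ g ∈ B, peuE p (ι n₀) n₀ g 0 ≠ 0 → ∃ k, ∃ u : Kb, u ∈ P ∧ u⁻¹ ∈ P ∧ u ≠ 0 ∧
      peuE p (ι n₀) n₀ g 0 = (p : Kb) ^ k * u := by
    intro g hg hne
    obtain ⟨k, u, hu, hu', h⟩ := exists_eq_pow_mul_unit hp.ne_zero hP hunr hdvd
      (H.peuE_zero_mem_inertiaRing hP hunr hn₀ hζ1 hred hg) hne
    refine ⟨k, u, hu.1, hu'.1, ?_, h⟩
    rintro rfl
    rw [mul_zero] at h
    exact hne h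
  have hQ : ∃ k, Q k := by
    obtain ⟨f, hf, hne⟩ := hfull
    obtain ⟨k, u, hu, hu', hu0, h⟩ := hfac f hf hne
    exact ⟨k, f, hf, u, hu, hu', hu0, h⟩
  obtain ⟨f, hf, u, hu, hu', hu0, hfu⟩ := Nat.find_spec hQ
  set k := Nat.find hQ with hk
  -- all values are divisible by `p ^ k`
  have hmin : ∀ g ∈ B, peuE p (ι n₀) n₀ g 0 / (p : Kb) ^ k ∈ P := by
    intro g hg
    by_cases hne : peuE p (ι n₀) n₀ g 0 = 0
    · rw [hne, zero_div]
      exact P.zero_mem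
    · obtain ⟨k', u', hu1, hu2, hu3, h⟩ := hfac g hg hne
      have hle : k ≤ k' := Nat.find_min' hQ ⟨g, hg, u', hu1, hu2, hu3, h⟩
      obtain ⟨j, rfl⟩ : ∃ j, k' = k + j := ⟨k' - k, by omega⟩
      have e : peuE p (ι n₀) n₀ g 0 / (p : Kb) ^ k = (p : Kb) ^ j * u' := by
        rw [h, pow_add]
        field_simp
      rw [e]
      exact P.mul_mem _ _ (pow_mem (natCast_mem P p) j) hu1
  -- comultiplication at `(0, 0)`
  obtain ⟨n, g, h, hg, hh, hgh⟩ := H.comul f hf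
  have hcm := H.peuE_comul₂ hn₀ hζ1 hf hgh 0 0
  rw [add_zero] at hcm
  have hs : ∑ i, (peuE p (ι n₀) n₀ (g i) 0 / (p : Kb) ^ k) *
      (peuE p (ι n₀) n₀ (h i) 0 / (p : Kb) ^ k) ∈ P :=
    peu_sum_mem _ _ fun i _ => P.mul_mem _ _ (hmin _ (hg i)) (hmin _ (hh i))
  have hu_eq : u = (p : Kb) ^ k * ∑ i, (peuE p (ι n₀) n₀ (g i) 0 / (p : Kb) ^ k) *
      (peuE p (ι n₀) n₀ (h i) 0 / (p : Kb) ^ k) := by
    have h1 : (p : Kb) ^ k * u = ∑ i, peuE p (ι n₀) n₀ (g i) 0 * peuE p (ι n₀) n₀ (h i) 0 := by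
      rw [← hfu, hcm]
    have h2 : ∀ i, peuE p (ι n₀) n₀ (g i) 0 * peuE p (ι n₀) n₀ (h i) 0 =
        (p : Kb) ^ k * ((p : Kb) ^ k * ((peuE p (ι n₀) n₀ (g i) 0 / (p : Kb) ^ k) *
          (peuE p (ι n₀) n₀ (h i) 0 / (p : Kb) ^ k))) := by
      intro i
      field_simp
    rw [Finset.sum_congr rfl (fun i _ => h2 i), ← Finset.mul_sum, ← Finset.mul_sum] at h1
    exact mul_left_cancel₀ (pow_ne_zero k hp0) h1
  have hu_nu : u ∉ P.nonunits := by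
    intro hnu
    have h1 : (1 : Kb) ∈ P.nonunits := by
      have : (1 : Kb) = u * u⁻¹ := (mul_inv_cancel₀ hu0).symm
      rw [this]
      exact red_mul_mem_nonunits_right P hnu hu'
    exact Fermat.Agent.Cyclo.one_not_mem_nonunits P h1
  by_cases hk0 : k = 0
  · refine ⟨f, hf, ?_⟩
    rw [hfu, hk0, pow_zero, one_mul]
    exact hu_nu
  · exfalso
    apply hu_nu
    rw [hu_eq]
    refine red_mul_mem_nonunits_right P ?_ hs
    obtain ⟨j, hj⟩ : ∃ j, k = j + 1 := ⟨k - 1, by omega⟩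
    rw [hj, pow_succ]
    exact red_mul_mem_nonunits_left P (pow_mem (natCast_mem P p) j) hP

/-- **S5**: the torsor step. -/
theorem exists_unit_at (hP : P.LiesOverPrime p) (hunr : UnrProp p P) (hdvd : DvdProp p P)
    {n₀ : M} (hn₀ : n₀ ∈ N) (hζ1 : ι n₀ ≠ 1) (hred : ∀ f ∈ B, f n₀ - f 0 ∈ P.nonunits)
    (hfull : ∃ f ∈ B, peuE p (ι n₀) n₀ f 0 ≠ 0) (m : M) :
    ∃ a : Kb, a ∈ P ∧ a⁻¹ ∈ P ∧ a ≠ 0 ∧
      ∀ σ ∈ P.inertiaSubgroupIn ℚ, σ a = ι (act σ m - m) * a := by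
  obtain ⟨f, hf, hunit⟩ := H.exists_unit_value hP hunr hdvd hn₀ hζ1 hred hfull
  obtain ⟨n, g, h, hg, hh, hgh⟩ := H.comul f hf
  have hcm := H.peuE_comul₂ hn₀ hζ1 hf hgh m (-m)
  rw [add_neg_cancel] at hcm
  -- some `E (g i) m` is a unit
  have hex : ∃ i, peuE p (ι n₀) n₀ (g i) m ∉ P.nonunits := by
    by_contra hall
    push Not at hall
    apply hunit
    rw [hcm]
    exact peu_sum_mem_nonunits _ _ fun i _ =>
      red_mul_mem_nonunits_right P (hall i) (H.peuE_mem hP hunr hn₀ hζ1 hred (hh i) _)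
  obtain ⟨i, hi⟩ := hex
  have haP : peuE p (ι n₀) n₀ (g i) m ∈ P := H.peuE_mem hP hunr hn₀ hζ1 hred (hg i) m
  refine ⟨peuE p (ι n₀) n₀ (g i) m, haP, base_inv_mem_of_not_mem_nonunits haP hi,
    fun h0 => hi (h0 ▸ red_zero_mem_nonunits P), fun σ hσ => ?_⟩
  rw [H.peuE_equiv hn₀ hζ1 (hg i) hσ, ← H.peuE_weight hn₀ hζ1 (hg i) m (H.quot σ hσ m)]
  congr 1
  abel

/-- **PEU, abstract form** (all primes `p`). -/
theorem peu (hP : P.LiesOverPrime p)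
    (hfull : ∀ n₀ ∈ N, ι n₀ ≠ 1 → ∃ f ∈ B, peuE p (ι n₀) n₀ f 0 ≠ 0) (m : M) :
    ∃ a : Kb, a ∈ P ∧ a⁻¹ ∈ P ∧ a ≠ 0 ∧
      ∀ σ ∈ P.inertiaSubgroupIn ℚ, σ a = ι (act σ m - m) * a := by
  have hp : p.Prime := Fact.out
  have hunr : UnrProp p P := unrProp p hp P hP
  have hdvd : DvdProp p P := dvdProp hp hP
  by_cases hcase : ∃ n₀ ∈ N, ι n₀ ≠ 1 ∧ ∀ f ∈ B, f n₀ - f 0 ∈ P.nonunits
  · obtain ⟨n₀, hn₀, hζ1, hred⟩ := hcase
    exact H.exists_unit_at hP hunr hdvd hn₀ hζ1 hred (hfull n₀ hn₀ hζ1) m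
  · -- inertia acts trivially modulo `ker ι`
    refine ⟨1, P.one_mem, by rw [inv_one]; exact P.one_mem, one_ne_zero, fun σ hσ => ?_⟩
    rw [map_one, mul_one]
    by_contra hne
    have hwN : act σ m - m ∈ N := H.quot σ hσ m
    apply hcase
    refine ⟨act σ m - m, hwN, fun h => hne h.symm, ?_⟩
    by_contra hnot
    exact hne (H.ι_act_sub_eq_one hwN hnot hσ m).symm

end PeuHyp

end Fermat.Agent.FFL
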