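/-
Lib/FFL, layer 2, statement of FFL-PEU in the form consumed by S56-W4 (sub-architect helper80).
Definition only.  FIXED.  Proof: helper6 (`Lib/FFL/Peu*.lean`).

`PeuFlat p P`: let `M` be a flat Galois module, `N ≤ M` a subgroup containing all `σ m - m`
(`σ` in the inertia group `I` of `P`), and `ι : M → ℚ̄` a map which on `N` is multiplicative, with
values in the `p`-th roots of unity, and `I`-equivariant (`ι` need NOT be injective).  Then the
cocycle `σ ↦ ι (σ m - m)` on `I` is the Kummer cocycle of a UNIT `a` of `P` (`a ≠ 0`, `a, a⁻¹ ∈ P`):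
"an extension of an étale module by a module of multiplicative type is peu ramifiée".
-/
import Fermat.Agent.Lib.FFL.Defs

set_option autoImplicit false

namespace Fermat.Agent.FFL

open Fermat.Agent.FlatMod

/-- **FFL-PEU**, as a statement. -/
def PeuFlat (p : ℕ) (P : ValuationSubring (AlgebraicClosure ℚ)) : Prop :=
  ∀ (M : Type) [AddCommGroup M]
    (act : (AlgebraicClosure ℚ ≃ₐ[ℚ] AlgebraicClosure ℚ) → M → M),
    IsFlatGaloisModule p M act →
    ∀ (N : AddSubgroup M) (ι : M → AlgebraicClosure ℚ),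
      (∀ σ ∈ P.inertiaSubgroupIn ℚ, ∀ m : M, act σ m - m ∈ N) →
      (∀ x ∈ N, ∀ y ∈ N, ι (x + y) = ι x * ι y) →
      (∀ x ∈ N, ι x ^ p = 1) →
      (∀ σ ∈ P.inertiaSubgroupIn ℚ, ∀ x ∈ N, ι (act σ x) = σ (ι x)) →
      ∀ m : M, ∃ a : AlgebraicClosure ℚ, a ∈ P ∧ a⁻¹ ∈ P ∧ a ≠ 0 ∧
        ∀ σ ∈ P.inertiaSubgroupIn ℚ, σ a = ι (act σ m - m) * a

end Fermat.Agent.FFL
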