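/-
Lib/FFL seat FFL-PEU (helper6), file 5: the statement `PeuFlat p P` of Lib/FFL/PeuDefs.lean
(the form consumed by S56-W4 and by E' DESC-FL (mu)), for EVERY prime `p`:

  `peuFlat (hp : p.Prime) (hP : P.LiesOverPrime p) : PeuFlat p P`.

An extension of an unramified module by a module of multiplicative type inside a flat Galois
module is peu ramifiée.  Also `peu_of_hopfOrder` (the same for a Hopf order).
-/
import Fermat.Agent.Lib.FFL.Peu
import Fermat.Agent.Lib.FFL.PeuDefs
import Fermat.Agent.Lib.FFL.EtMax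

set_option autoImplicit false
set_option linter.unusedSectionVars false
set_option linter.unusedVariables false
set_option linter.style.haveILetI false
set_option linter.unnecessarySimpa false

namespace Fermat.Agent.FFL

open Fermat.Agent.FlatMod GaloisRep

local notation "Kb" => AlgebraicClosure ℚ
local notation "GK" => (AlgebraicClosure ℚ ≃ₐ[ℚ] AlgebraicClosure ℚ)

variable {p : ℕ} {P : ValuationSubring Kb}

/-- The kernel of `ι` on `N`. -/
def peuKer {M : Type*} [AddCommGroup M] (N : AddSubgroup M) (ι : M → Kb)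
    (hmul : ∀ x ∈ N, ∀ y ∈ N, ι (x + y) = ι x * ι y) (h0 : ι 0 = 1) : AddSubgroup M where
  carrier := {n | n ∈ N ∧ ι n = 1}
  zero_mem' := ⟨N.zero_mem, h0⟩
  add_mem' := fun {a b} ha hb => ⟨N.add_mem ha.1 hb.1, by
    rw [hmul a ha.1 b hb.1, ha.2, hb.2, one_mul]⟩
  neg_mem' := fun {a} ha => ⟨N.neg_mem ha.1, by
    have h := hmul (-a) (N.neg_mem ha.1) a ha.1
    rw [neg_add_cancel, h0, ha.2, mul_one] at h
    exact h.symm⟩

/-- **PEU for a Hopf order** (all primes `p`). -/
theorem peu_of_hopfOrder (hp : p.Prime) (hP : P.LiesOverPrime p) {M : Type*} [AddCommGroup M]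
    {act : GK → M → M} (O : HopfOrder p M act) (N : AddSubgroup M) (ι : M → Kb)
    (hquot : ∀ σ ∈ P.inertiaSubgroupIn ℚ, ∀ m : M, act σ m - m ∈ N)
    (hmul : ∀ x ∈ N, ∀ y ∈ N, ι (x + y) = ι x * ι y)
    (hpow : ∀ x ∈ N, ι x ^ p = 1)
    (hequiv : ∀ σ ∈ P.inertiaSubgroupIn ℚ, ∀ x ∈ N, ι (act σ x) = σ (ι x)) (m : M) :
    ∃ a : Kb, a ∈ P ∧ a⁻¹ ∈ P ∧ a ≠ 0 ∧
      ∀ σ ∈ P.inertiaSubgroupIn ℚ, σ a = ι (act σ m - m) * a := by
  classical
  haveI : Fact p.Prime := ⟨hp⟩
  have hp0 : (p : Kb) ≠ 0 := Nat.cast_ne_zero.2 hp.ne_zero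
  -- `ι 0 = 1`
  have h0 : ι 0 = 1 := by
    have h1 := hmul 0 N.zero_mem 0 N.zero_mem
    rw [add_zero] at h1
    have h2 := hpow 0 N.zero_mem
    have hne : ι 0 ≠ 0 := by
      intro h
      rw [h, zero_pow hp.ne_zero] at h2
      exact zero_ne_one h2
    have h3 : ι 0 * (ι 0 - 1) = 0 := by linear_combination -h1
    rcases mul_eq_zero.1 h3 with h | h
    · exact absurd h hne
    · exact sub_eq_zero.1 h
  have hstab : ∀ σ ∈ P.inertiaSubgroupIn ℚ, ∀ x ∈ N, act σ x ∈ N := by
    intro σ hσ x hx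
    have h := N.add_mem (hquot σ hσ x) hx
    rwa [sub_add_cancel] at h
  have hstab' : ∀ σ ∈ P.inertiaSubgroupIn ℚ, ∀ x, act σ x ∈ N → x ∈ N := by
    intro σ hσ x hx
    have h := N.sub_mem hx (hquot σ hσ x)
    rwa [sub_sub_cancel] at h
  set N' : AddSubgroup M := peuKer N ι hmul h0 with hN'
  -- the hypotheses of the abstract theorem for `B = etB1 P O N'`
  have H : PeuHyp p P act (etB1 P O N') N ι :=
    { act_add := fun σ _ x y => O.act_add σ x y
      val_mem := fun f hf x => spanB_mem P hP O hf.1 x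
      equiv := fun f hf σ hσ x => spanB_equiv P O hf.1 σ hσ x
      comul := etB1_comulClosed hp P hP O N'
      ι_pow := hpow
      ι_add := hmul
      act_mem := hstab
      ι_equiv := hequiv
      inv := fun f hf n hn h1 x => hf.2 x n ⟨hn, h1⟩
      quot := hquot }
  refine H.peu hP (fun n₀ hn₀ hζ1 => ?_) m
  -- fullness: the function `ι` extended by zero
  set φ : M → Kb := fun x => if x ∈ N then ι x else 0 with hφ
  have hφequiv : ∀ σ ∈ P.inertiaSubgroupIn ℚ, ∀ w, φ (act σ w) = σ (φ w) := by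
    intro σ hσ w
    simp only [hφ]
    by_cases hw : w ∈ N
    · rw [if_pos hw, if_pos (hstab σ hσ w hw), hequiv σ hσ w hw]
    · rw [if_neg hw, if_neg (fun h => hw (hstab' σ hσ w h)), map_zero]
  obtain ⟨K, hK⟩ := spanB_full P hP (dvdProp hp hP) O φ hφequiv
  have hφw : ∀ x, ∀ n ∈ N, φ (x + n) = ι n * φ x := by
    intro x n hn
    simp only [hφ]
    by_cases hx : x ∈ N
    · rw [if_pos hx, if_pos (N.add_mem hx hn), hmul x hx n hn, mul_comm]
    · have hx' : x + n ∉ N := fun h => hx (by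
        have := N.sub_mem h hn
        rwa [add_sub_cancel_right] at this)
      rw [if_neg hx, if_neg hx', mul_zero]
  set f : M → Kb := fun w => (p : Kb) ^ K * φ w with hf
  have hfw : ∀ x, ∀ n ∈ N, f (x + n) = ι n * f x := by
    intro x n hn
    simp only [hf]
    rw [hφw x n hn]
    ring
  have hfB : f ∈ etB1 P O N' := by
    refine ⟨hK K le_rfl, fun v w hw => ?_⟩
    rw [hfw v w hw.1, hw.2, one_mul]
  refine ⟨f, hfB, ?_⟩
  rw [H.peuE_of_weight hn₀ f hfw 0]
  simp only [hf, hφ]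
  rw [if_pos N.zero_mem, h0, mul_one]
  exact pow_ne_zero K hp0

/-- **FFL-PEU** in the form of Lib/FFL/PeuDefs.lean, for every prime `p`. -/
theorem peuFlat (hp : p.Prime) (hP : P.LiesOverPrime p) : PeuFlat p P := by
  intro M _ act hflat N ι hquot hmul hpow hequiv m
  obtain ⟨O⟩ := nonempty_hopfOrder_of_isFlat hflat
  exact peu_of_hopfOrder hp hP O N ι hquot hmul hpow hequiv m

end Fermat.Agent.FFL
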