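/-
Lib/FFL seat FFL-PEU (helper6), file 6: the GLOBAL form of PEU (for E' DESC-FL `mu_unit`, which
asks for the decomposition group).

`peu_global`: `O` a Hopf order on `M`, `N ≤ M` a Galois-stable subgroup, `ι` multiplicative on
`N` with values in `μ_p` and `G_ℚ`-equivariant, inertia at `P` trivial on `M / N`.  Then for
every `m : M` there is a unit `a` of `P` such that `σ a = ι (σ m - m) * a` for EVERY `σ ∈ G_ℚ`
with `σ m - m ∈ N` (in particular for the decomposition group of `P` if it acts trivially on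
`M / N`).  All primes `p`.

`a = c * peuE g m` with `g ∈ O.alg` invariant under `ker ι` and `c` a power of `p` (`c = 1`
unless `N` is étale, which happens only for `p = 2`).
-/
import Fermat.Agent.Lib.FFL.PeuFlat

set_option autoImplicit false
set_option linter.unusedSectionVars false
set_option linter.unusedVariables false
set_option linter.style.haveILetI false
set_option linter.unnecessarySimpa false

namespace Fermat.Agent.FFL

open Fermat.Agent.FlatMod GaloisRep

local notation "Kb" => AlgebraicClosure ℚ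
local notation "GK" => (AlgebraicClosure ℚ ≃ₐ[ℚ] AlgebraicClosure ℚ)

variable {p : ℕ} {P : ValuationSubring Kb} [Fact p.Prime] {M : Type*} [AddCommGroup M]
  {act : GK → M → M} {B : Set (M → Kb)} {N : AddSubgroup M} {ι : M → Kb}

namespace PeuHyp

variable (H : PeuHyp p P act B N ι)
include H

/-- The projector commutes with every `σ ∈ G_ℚ` which is compatible with the data. -/
theorem peuE_conj {n₀ : M} (hn₀ : n₀ ∈ N) (hζ1 : ι n₀ ≠ 1) {f : M → Kb} (hf : f ∈ B)
    (σ : GK) (hadd : ∀ x y, act σ (x + y) = act σ x + act σ y)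
    (hfσ : ∀ x, f (act σ x) = σ (f x)) (hmem : act σ n₀ ∈ N)
    (hισ : ι (act σ n₀) = σ (ι n₀)) (x : M) :
    σ (peuE p (ι n₀) n₀ f x) = peuE p (ι n₀) n₀ f (act σ x) := by
  have hζ : ι n₀ ^ p = 1 := H.ι_pow n₀ hn₀
  obtain ⟨t, ht0, ht⟩ := peu_exists_exp hζ hζ1 σ
  have hzero : act σ 0 = 0 := by
    have h := hadd 0 0
    rw [add_zero] at h
    exact left_eq_add.1 h
  have hnsmul : ∀ (k : ℕ) (y : M), act σ (k • y) = k • act σ y := by
    intro k y
    induction k with
    | zero => rw [zero_smul, zero_smul, hzero]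
    | succ k ih => rw [succ_nsmul, succ_nsmul, hadd, ih]
  unfold peuE
  rw [map_mul, map_inv₀, map_natCast, map_sum]
  congr 1
  have h1 : ∀ c : ZMod p, σ ((peuChi p (ι n₀) c)⁻¹ * f (x + c.val • n₀)) =
      (peuChi p (ι n₀) (t * c))⁻¹ * f (act σ x + (t * c).val • n₀) := by
    intro c
    rw [map_mul, map_inv₀, peu_conj_chi hζ ht, ← hfσ, hadd, hnsmul]
    have hmem' : c.val • act σ n₀ ∈ N := N.nsmul_mem hmem _
    have hι : ι (c.val • act σ n₀) = peuChi p (ι n₀) (t * c) := by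
      rw [H.ι_nsmul hmem, hισ, ht, ← peuChi_mul hζ]
    rw [H.normal_form hn₀ hf (act σ x) hmem' hι]
  rw [Finset.sum_congr rfl (fun c _ => h1 c)]
  exact Fintype.sum_equiv (Equiv.mulLeft₀ t ht0) _ _ (fun _ => rfl)

/-- Some projection does not vanish at `m`. -/
theorem exists_ne_zero_at {n₀ : M} (hn₀ : n₀ ∈ N) (hζ1 : ι n₀ ≠ 1)
    (hfull : ∃ f ∈ B, peuE p (ι n₀) n₀ f 0 ≠ 0) (m : M) :
    ∃ g ∈ B, peuE p (ι n₀) n₀ g m ≠ 0 := by
  obtain ⟨f, hf, hne⟩ := hfull
  obtain ⟨n, g, h, hg, hh, hgh⟩ := H.comul f hf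
  have hcm := H.peuE_comul₂ hn₀ hζ1 hf hgh m (-m)
  rw [add_neg_cancel] at hcm
  by_contra hall
  push Not at hall
  apply hne
  rw [hcm]
  exact Finset.sum_eq_zero fun i _ => by rw [hall _ (hg i), zero_mul]

/-- **The resolvent**: a unit of `P` of the form `c * peuE g m`, `c` a power of `p` or its
inverse, `g ∈ B`. -/
theorem exists_resolvent (hP : P.LiesOverPrime p) {n₀ : M} (hn₀ : n₀ ∈ N) (hζ1 : ι n₀ ≠ 1)
    (hfull : ∃ f ∈ B, peuE p (ι n₀) n₀ f 0 ≠ 0) (m : M) :
    ∃ g ∈ B, ∃ c : Kb, (∀ σ : GK, σ c = c) ∧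
      c * peuE p (ι n₀) n₀ g m ∈ P ∧ (c * peuE p (ι n₀) n₀ g m)⁻¹ ∈ P ∧
      c * peuE p (ι n₀) n₀ g m ≠ 0 := by
  have hp : p.Prime := Fact.out
  have hp0 : (p : Kb) ≠ 0 := Nat.cast_ne_zero.2 hp.ne_zero
  have hunr : UnrProp p P := unrProp p hp P hP
  have hdvd : DvdProp p P := dvdProp hp hP
  by_cases hred : ∀ f ∈ B, f n₀ - f 0 ∈ P.nonunits
  · -- the connected case: `c = 1`
    obtain ⟨f, hf, hunit⟩ := H.exists_unit_value hP hunr hdvd hn₀ hζ1 hred hfull
    obtain ⟨n, g, h, hg, hh, hgh⟩ := H.comul f hf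
    have hcm := H.peuE_comul₂ hn₀ hζ1 hf hgh m (-m)
    rw [add_neg_cancel] at hcm
    have hex : ∃ i, peuE p (ι n₀) n₀ (g i) m ∉ P.nonunits := by
      by_contra hall
      push Not at hall
      apply hunit
      rw [hcm]
      exact peu_sum_mem_nonunits _ _ fun i _ =>
        red_mul_mem_nonunits_right P (hall i) (H.peuE_mem hP hunr hn₀ hζ1 hred (hh i) _)
    obtain ⟨i, hi⟩ := hex
    have haP : peuE p (ι n₀) n₀ (g i) m ∈ P := H.peuE_mem hP hunr hn₀ hζ1 hred (hg i) m
    refine ⟨g i, hg i, 1, fun σ => map_one σ, ?_, ?_, ?_⟩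
    · rw [one_mul]; exact haP
    · rw [one_mul]; exact base_inv_mem_of_not_mem_nonunits haP hi
    · rw [one_mul]; exact fun h0 => hi (h0 ▸ red_zero_mem_nonunits P)
  · -- the étale case: the resolvent is inertia-fixed
    obtain ⟨g, hg, hne⟩ := H.exists_ne_zero_at hn₀ hζ1 hfull m
    set x := peuE p (ι n₀) n₀ g m with hx
    have hfix : ∀ σ ∈ P.inertiaSubgroupIn ℚ, σ x = x := by
      intro σ hσ
      have h1 := H.peuE_equiv hn₀ hζ1 hg hσ m
      have h2 := H.peuE_weight hn₀ hζ1 hg m (H.quot σ hσ m)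
      rw [H.ι_act_sub_eq_one hn₀ hred hσ m, one_mul] at h2
      rw [hx, h1, ← h2]
      congr 1
      abel
    rcases P.mem_or_inv_mem x with hxP | hxP
    · obtain ⟨k, u, hu, hu', h⟩ := exists_eq_pow_mul_unit hp.ne_zero hP hunr hdvd
        (⟨hxP, hfix⟩ : x ∈ inertiaRing P) hne
      have hu0 : u ≠ 0 := by
        rintro rfl
        rw [mul_zero] at h
        exact hne h
      have e : ((p : Kb) ^ k)⁻¹ * x = u := by
        rw [h]
        field_simp
      refine ⟨g, hg, ((p : Kb) ^ k)⁻¹, fun σ => by rw [map_inv₀, map_pow, map_natCast], ?_, ?_, ?_⟩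
      · rw [e]; exact hu.1
      · rw [e]; exact hu'.1
      · rw [e]; exact hu0
    · have hfix' : ∀ σ ∈ P.inertiaSubgroupIn ℚ, σ x⁻¹ = x⁻¹ := fun σ hσ => by
        rw [map_inv₀, hfix σ hσ]
      obtain ⟨k, u, hu, hu', h⟩ := exists_eq_pow_mul_unit hp.ne_zero hP hunr hdvd
        (⟨hxP, hfix'⟩ : x⁻¹ ∈ inertiaRing P) (inv_ne_zero hne)
      have hu0 : u ≠ 0 := by
        rintro rfl
        rw [mul_zero] at h
        exact inv_ne_zero hne h
      have e : (p : Kb) ^ k * x = u⁻¹ := by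
        have h1 : x = ((p : Kb) ^ k * u)⁻¹ := by rw [← h, inv_inv]
        rw [h1]
        field_simp
      refine ⟨g, hg, (p : Kb) ^ k, fun σ => by rw [map_pow, map_natCast], ?_, ?_, ?_⟩
      · rw [e]; exact hu'.1
      · rw [e, inv_inv]; exact hu.1
      · rw [e]; exact inv_ne_zero hu0

end PeuHyp

/-! ### The global statement for a Hopf order -/

section Global

variable {p : ℕ} {P : ValuationSubring Kb} {M : Type*} [AddCommGroup M] {act : GK → M → M}

/-- The `ℤ_(p)`-span of the basis functions is the Hopf order. -/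
theorem peu_span_range_eq [Fact p.Prime] (O : HopfOrder p M act) :
    Submodule.span (ratLocalizedAt p) (Set.range (spanFun O)) = Subalgebra.toSubmodule O.alg := by
  have hb := (spanBasis O).span_eq
  have hr : Set.range (spanFun O) =
      (Subalgebra.toSubmodule O.alg).subtype '' Set.range (spanBasis O) := by
    ext f
    constructor
    · rintro ⟨i, rfl⟩
      exact ⟨spanBasis O i, ⟨i, rfl⟩, rfl⟩
    · rintro ⟨_, ⟨i, rfl⟩, rfl⟩
      exact ⟨i, rfl⟩
  rw [hr, ← Submodule.map_span]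
  have hb' : Submodule.span (ratLocalizedAt p) (Set.range (spanBasis O)) =
      (⊤ : Submodule (ratLocalizedAt p) (Subalgebra.toSubmodule O.alg)) := hb
  rw [hb', Submodule.map_top, Submodule.range_subtype]

/-- The functions of the Hopf order which are invariant under `V₁`. -/
def peuInv (O : HopfOrder p M act) (V₁ : Set M) : Set (M → Kb) :=
  {f | f ∈ O.alg ∧ TransInv V₁ f}

theorem peuInv_comulClosed [Fact p.Prime] (O : HopfOrder p M act) (V₁ : Set M) :
    ComulClosed (peuInv O V₁) := by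
  have hfin : Finite M := O.finite_W
  have hcl : ComulClosed ((Submodule.span (ratLocalizedAt p) (Set.range (spanFun O)) :
      Submodule (ratLocalizedAt p) (M → Kb)) : Set (M → Kb)) := by
    rw [peu_span_range_eq O]
    exact hopfOrder_comulClosed O
  have h := comulClosed_transInv (R := ratLocalizedAt p) (spanFun O)
    (spanFun_linearIndependent O) hcl V₁
  have hset : peuInv O V₁ = {f : M → Kb |
      f ∈ Submodule.span (ratLocalizedAt p) (Set.range (spanFun O)) ∧ TransInv V₁ f} := by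
    unfold peuInv
    rw [peu_span_range_eq O]
    rfl
  rw [hset]
  exact h

/-- A Galois-equivariant function has a nonzero integer multiple in the Hopf order. -/
theorem peu_exists_int_mul_mem [Fact p.Prime] (O : HopfOrder p M act) (φ : M → Kb)
    (hφ : ∀ (σ : GK) (w : M), φ (act σ w) = σ (φ w)) :
    ∃ D : ℕ, D ≠ 0 ∧ (fun w => (D : Kb) * φ w) ∈ O.alg := by
  classical
  obtain ⟨a, rfl⟩ := exists_coeff O φ
  have hfix : ∀ (σ : GK) i, σ (a i) = a i := fun σ i => coeff_fixed O a σ (hφ σ) i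
  choose q hq using fun i => mem_range_of_galois_fixed (a i) (fun σ => hfix σ i)
  obtain ⟨D, m, hD, hm⟩ := exists_int_multiples q
  refine ⟨D, hD, ?_⟩
  have h1 : (fun w => (D : Kb) * (∑ i, a i • spanFun O i) w) =
      ∑ i, (m i : ratLocalizedAt p) • spanFun O i := by
    funext w
    simp only [Finset.sum_apply, Pi.smul_apply, smul_eq_mul, Finset.mul_sum]
    refine Finset.sum_congr rfl fun i _ => ?_
    rw [Algebra.smul_def, ← mul_assoc]
    congr 1
    rw [← hq i]
    have h2 := congrArg (algebraMap ℚ Kb) (hm i)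
    rw [map_mul, map_natCast, map_intCast] at h2
    rw [h2, map_intCast]
  rw [h1]
  exact Subalgebra.sum_mem _ fun i _ => Subalgebra.smul_mem _ (spanFun_mem O i) _

/-- **PEU, global form** (all primes `p`): the same unit works for every `σ ∈ G_ℚ` moving `m`
inside its class modulo `N`. -/
theorem peu_global (hp : p.Prime) (hP : P.LiesOverPrime p) (O : HopfOrder p M act)
    (N : AddSubgroup M) (ι : M → Kb)
    (hquot : ∀ σ ∈ P.inertiaSubgroupIn ℚ, ∀ m : M, act σ m - m ∈ N)
    (hstab : ∀ σ : GK, ∀ x ∈ N, act σ x ∈ N)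
    (hmul : ∀ x ∈ N, ∀ y ∈ N, ι (x + y) = ι x * ι y)
    (hpow : ∀ x ∈ N, ι x ^ p = 1)
    (hequiv : ∀ σ : GK, ∀ x ∈ N, ι (act σ x) = σ (ι x)) (m : M) :
    ∃ a : Kb, a ∈ P ∧ a⁻¹ ∈ P ∧ a ≠ 0 ∧
      ∀ σ : GK, act σ m - m ∈ N → σ a = ι (act σ m - m) * a := by
  classical
  haveI : Fact p.Prime := ⟨hp⟩
  have hp0 : (p : Kb) ≠ 0 := Nat.cast_ne_zero.2 hp.ne_zero
  have h0 : ι 0 = 1 := by
    have h1 := hmul 0 N.zero_mem 0 N.zero_mem
    rw [add_zero] at h1
    have h2 := hpow 0 N.zero_mem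
    have hne : ι 0 ≠ 0 := by
      intro h
      rw [h, zero_pow hp.ne_zero] at h2
      exact zero_ne_one h2
    have h3 : ι 0 * (ι 0 - 1) = 0 := by linear_combination -h1
    rcases mul_eq_zero.1 h3 with h | h
    · exact absurd h hne
    · exact sub_eq_zero.1 h
  have hstab' : ∀ (σ : GK) (x : M), act σ x ∈ N → x ∈ N := by
    intro σ x hx
    have h := hstab σ⁻¹ _ hx
    have e : act σ⁻¹ (act σ x) = x := by
      rw [← hopfOrder_act_mul O, inv_mul_cancel, hopfOrder_act_one O]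
    rwa [e] at h
  set N' : AddSubgroup M := peuKer N ι hmul h0 with hN'
  have H : PeuHyp p P act (peuInv O (N' : Set M)) N ι :=
    { act_add := fun σ _ x y => O.act_add σ x y
      val_mem := fun f hf x => apply_mem_of_hopfOrder O hP hf.1 x
      equiv := fun f hf σ _ x => O.equiv f hf.1 σ x
      comul := peuInv_comulClosed O _
      ι_pow := hpow
      ι_add := hmul
      act_mem := fun σ _ x hx => hstab σ x hx
      ι_equiv := fun σ _ x hx => hequiv σ x hx
      inv := fun f hf n hn h1 x => hf.2 x n ⟨hn, h1⟩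
      quot := hquot }
  by_cases hcase : ∃ n₀ ∈ N, ι n₀ ≠ 1
  swap
  · push Not at hcase
    refine ⟨1, P.one_mem, by rw [inv_one]; exact P.one_mem, one_ne_zero, fun σ hσ => ?_⟩
    rw [map_one, mul_one, hcase _ hσ]
  obtain ⟨n₀, hn₀, hζ1⟩ := hcase
  -- fullness
  have hfull : ∃ f ∈ peuInv O (N' : Set M), peuE p (ι n₀) n₀ f 0 ≠ 0 := by
    set φ : M → Kb := fun x => if x ∈ N then ι x else 0 with hφ
    have hφequiv : ∀ (σ : GK) (w : M), φ (act σ w) = σ (φ w) := by
      intro σ w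
      simp only [hφ]
      by_cases hw : w ∈ N
      · rw [if_pos hw, if_pos (hstab σ w hw), hequiv σ w hw]
      · rw [if_neg hw, if_neg (fun h => hw (hstab' σ w h)), map_zero]
    obtain ⟨D, hD, hmem⟩ := peu_exists_int_mul_mem O φ hφequiv
    have hφw : ∀ x, ∀ n ∈ N, φ (x + n) = ι n * φ x := by
      intro x n hn
      simp only [hφ]
      by_cases hx : x ∈ N
      · rw [if_pos hx, if_pos (N.add_mem hx hn), hmul x hx n hn, mul_comm]
      · have hx' : x + n ∉ N := fun h => hx (by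
          have := N.sub_mem h hn
          rwa [add_sub_cancel_right] at this)
        rw [if_neg hx, if_neg hx', mul_zero]
    set f : M → Kb := fun w => (D : Kb) * φ w with hf
    have hfw : ∀ x, ∀ n ∈ N, f (x + n) = ι n * f x := by
      intro x n hn
      simp only [hf]
      rw [hφw x n hn]
      ring
    have hfB : f ∈ peuInv O (N' : Set M) := by
      refine ⟨hmem, fun v w hw => ?_⟩
      rw [hfw v w hw.1, hw.2, one_mul]
    refine ⟨f, hfB, ?_⟩
    rw [H.peuE_of_weight hn₀ f hfw 0]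
    simp only [hf, hφ]
    rw [if_pos N.zero_mem, h0, mul_one]
    exact Nat.cast_ne_zero.2 hD
  obtain ⟨g, hg, c, hc, haP, haP', ha0⟩ := H.exists_resolvent hP hn₀ hζ1 hfull m
  refine ⟨c * peuE p (ι n₀) n₀ g m, haP, haP', ha0, fun σ hσ => ?_⟩
  rw [map_mul, hc σ, H.peuE_conj hn₀ hζ1 hg σ (O.act_add σ) (O.equiv g hg.1 σ)
    (hstab σ n₀ hn₀) (hequiv σ n₀ hn₀) m]
  have h1 := H.peuE_weight hn₀ hζ1 hg m hσ
  have e : act σ m = m + (act σ m - m) := by abel
  rw [e, h1]
  have e' : m + (act σ m - m) - m = act σ m - m := by abel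
  rw [e']
  ring

/-- **PEU, global form**, for a flat Galois module. -/
theorem peuFlat_global (hp : p.Prime) (hP : P.LiesOverPrime p) {M : Type} [AddCommGroup M]
    {act : GK → M → M} (hflat : IsFlatGaloisModule p M act)
    (N : AddSubgroup M) (ι : M → Kb)
    (hquot : ∀ σ ∈ P.inertiaSubgroupIn ℚ, ∀ m : M, act σ m - m ∈ N)
    (hstab : ∀ σ : GK, ∀ x ∈ N, act σ x ∈ N)
    (hmul : ∀ x ∈ N, ∀ y ∈ N, ι (x + y) = ι x * ι y)
    (hpow : ∀ x ∈ N, ι x ^ p = 1)
    (hequiv : ∀ σ : GK, ∀ x ∈ N, ι (act σ x) = σ (ι x)) (m : M) :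
    ∃ a : Kb, a ∈ P ∧ a⁻¹ ∈ P ∧ a ≠ 0 ∧
      ∀ σ : GK, act σ m - m ∈ N → σ a = ι (act σ m - m) * a := by
  obtain ⟨O⟩ := nonempty_hopfOrder_of_isFlat hflat
  exact peu_global hp hP O N ι hquot hstab hmul hpow hequiv m

end Global

end Fermat.Agent.FFL
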