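/-
Lib/FFL/PeuTwo (helper52): **PEU at `p = 2`** ("PEU2-weak" of cluster E', blueprint-E-S15-v2 §5).

`O` a Hopf order over `ℤ_(2)` on the finite Galois module `M`, `P` a valuation subring of `ℚ̄` over
`2`, `D` its decomposition group.  Let `n ∈ M` be `D`-fixed with `n + n = 0` and `m ∈ M` such that
`D` moves `m` inside `{m, m + n}`.  Then the character `σ ↦ (σ m = m ? 1 : -1)` of `D` is the Kummer
character of a UNIT of `P`:  there is `a ∈ Pˣ` with `σ a = a` or `-a` accordingly (`peuTwo`).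

All four cases (piece `ℤ/2` or `μ₂`, quotient `ℤ/2` or `μ₂`) are treated at once; the proof uses only
the integrality of the values, the explicit comultiplication, the antipode, and the arithmetic
leaves UNR + DVD of layer 1 (valid for `p = 2`).  No use of MAIN / CYC.

Proof.  For `g ∈ O` put `d g = g 0 - g n` (inertia-fixed) and `δ g = g m - g (m + n)`.
(1) comultiplication on `{0, n}²`: `2 d g = ∑ d aᵢ d bᵢ`; for `g₀` with `d g₀ ≠ 0` of minimal
    valuation this gives `2 / d g₀ ∈ P`  (`pt_exists_small`).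
(2) `g₀ (x - y)` on `{m, m + n}²`: `2 d g₀ = ∑ δ aᵢ δ bᵢ`  (`pt_comul_delta`).
(3) `(δ g)² = 2 ^ j u` is inertia-fixed.  `j` even: `δ g / 2 ^ (j/2)` is the unit.  `j = 1` is
    impossible (`g m * g (m + n) ∈ P`), so if no `j` is even then `(δ g)² ∈ 8 P` for all `g`, hence
    `2 d g₀ ∈ 8 P` by (2) and `4 ∈ 8 P` by (1): contradiction.
-/
import Mathlib
import Fermat.Agent.Lib.FFL.Base
import Fermat.Agent.Lib.FFL.Unr
import Fermat.Agent.Lib.FFL.Arith
import Fermat.Agent.Lib.FFL.Span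
import Fermat.Agent.Lib.FFL.Red

set_option autoImplicit false
set_option linter.unusedSectionVars false
set_option linter.unusedVariables false
set_option linter.style.haveILetI false
set_option linter.unnecessarySimpa false

namespace Fermat.Agent.FFL

open Fermat.Agent.FlatMod GaloisRep

local notation "Kb" => AlgebraicClosure ℚ
local notation "GK" => (AlgebraicClosure ℚ ≃ₐ[ℚ] AlgebraicClosure ℚ)

section Arith

variable {P : ValuationSubring Kb}

/-- A valuation ring is integrally closed: `x ^ 2 ∈ P → x ∈ P`. -/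
theorem pt_mem_of_sq_mem {x : Kb} (h : x ^ 2 ∈ P) : x ∈ P := by
  by_contra hx
  have h1 : 1 < P.valuation x := by
    rw [← not_le, P.valuation_le_one_iff]
    exact hx
  have h2 : P.valuation (x ^ 2) ≤ 1 := (P.valuation_le_one_iff _).2 h
  rw [map_pow] at h2
  have h3 : 1 < P.valuation x ^ 2 := one_lt_pow' h1 two_ne_zero
  exact absurd h2 (not_le.2 h3)

/-- A nonunit square has a nonunit root. -/
theorem pt_mem_nonunits_of_sq {x : Kb} (h : x ^ 2 ∈ P.nonunits) : x ∈ P.nonunits := by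
  rw [P.mem_nonunits_iff] at h ⊢
  rw [map_pow] at h
  by_contra hx
  rw [not_lt] at hx
  have h3 : 1 ≤ P.valuation x ^ 2 := one_le_pow_of_one_le' hx 2
  exact absurd h (not_lt.2 h3)

theorem pt_two_mem_nonunits (hP : P.LiesOverPrime 2) : (2 : Kb) ∈ P.nonunits := by
  have h : ((2 : ℕ) : Kb) ∈ P.nonunits := hP
  simpa using h

theorem pt_half_not_mem (hP : P.LiesOverPrime 2) : (2 : Kb)⁻¹ ∉ P := by
  have h := inv_natCast_not_mem (p := 2) (P := P) two_ne_zero hP
  simpa using h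

theorem pt_two_ne_zero : (2 : Kb) ≠ 0 := two_ne_zero

/-- the factorisation `x = 2 ^ j * u` of an inertia-fixed element. -/
theorem pt_factor (hP : P.LiesOverPrime 2) {x : Kb} (hx : x ∈ inertiaRing P) (hx0 : x ≠ 0) :
    ∃ (j : ℕ) (u : Kb), u ∈ P ∧ u⁻¹ ∈ P ∧ u ≠ 0 ∧ x = (2 : Kb) ^ j * u := by
  obtain ⟨j, u, hu, hu', hxu⟩ := exists_eq_pow_mul_unit (p := 2) two_ne_zero hP
    (unrProp 2 Nat.prime_two P hP) (dvdProp Nat.prime_two hP) hx hx0
  refine ⟨j, u, hu.1, hu'.1, ?_, by simpa using hxu⟩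
  rintro rfl
  apply hx0
  rw [hxu, mul_zero]

end Arith

section Order

variable {P : ValuationSubring Kb} {M : Type*} [AddCommGroup M] {act : GK → M → M}
  (O : HopfOrder 2 M act)

/-- `d g = g 0 - g n` is inertia-fixed and integral. -/
theorem pt_d_mem (hP : P.LiesOverPrime 2) {n : M}
    (hn : ∀ σ ∈ P.decompositionSubgroup ℚ, act σ n = n) {g : M → Kb} (hg : g ∈ O.alg) :
    g 0 - g n ∈ inertiaRing P := by
  have hF : Fact (Nat.Prime 2) := ⟨Nat.prime_two⟩
  refine ⟨sub_mem (apply_mem_of_hopfOrder O hP hg 0) (apply_mem_of_hopfOrder O hP hg n),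
    fun σ hσ => ?_⟩
  have hσD : σ ∈ P.decompositionSubgroup ℚ := by
    obtain ⟨τ, _, rfl⟩ := hσ
    exact τ.2
  rw [map_sub, ← O.equiv g hg σ 0, ← O.equiv g hg σ n, O.act_zero σ, hn σ hσD]

/-- comultiplication on `{0, n}²`. -/
theorem pt_comul_d {n : M} (hn2 : n + n = 0) {g : M → Kb} (hg : g ∈ O.alg) :
    ∃ (k : ℕ) (a b : Fin k → (M → Kb)), (∀ i, a i ∈ O.alg) ∧ (∀ i, b i ∈ O.alg) ∧
      2 * (g 0 - g n) = ∑ i, (a i 0 - a i n) * (b i 0 - b i n) := by
  obtain ⟨k, a, b, ha, hb, hab⟩ := hopfOrder_comulClosed O g hg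
  refine ⟨k, a, b, ha, hb, ?_⟩
  have h00 := hab 0 0
  have hn0 := hab n 0
  have h0n := hab 0 n
  have hnn := hab n n
  rw [add_zero] at h00 hn0
  rw [zero_add] at h0n
  rw [hn2] at hnn
  have e : ∑ i, (a i 0 - a i n) * (b i 0 - b i n) =
      (∑ i, a i 0 * b i 0) - (∑ i, a i n * b i 0) - (∑ i, a i 0 * b i n)
        + (∑ i, a i n * b i n) := by
    rw [← Finset.sum_sub_distrib, ← Finset.sum_sub_distrib, ← Finset.sum_add_distrib]
    refine Finset.sum_congr rfl fun i _ => ?_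
    ring
  rw [e, ← h00, ← hn0, ← h0n, ← hnn]
  ring

/-- the torsor identity on `{m, m + n}²`. -/
theorem pt_comul_delta {n : M} (m : M) (hn2 : n + n = 0) {g : M → Kb} (hg : g ∈ O.alg) :
    ∃ (k : ℕ) (a b : Fin k → (M → Kb)), (∀ i, a i ∈ O.alg) ∧ (∀ i, b i ∈ O.alg) ∧
      2 * (g 0 - g n) = ∑ i, (a i m - a i (m + n)) * (b i m - b i (m + n)) := by
  obtain ⟨k, a, b, ha, hb, hab⟩ := hopfOrder_comulClosed O g hg
  refine ⟨k, a, fun i w => b i (-w), ha, fun i => O.neg (b i) (hb i), ?_⟩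
  have hneg : -n = n := neg_eq_of_add_eq_zero_left hn2
  have h1 := hab m (-m)
  have h2 := hab (m + n) (-m)
  have h3 := hab m (-(m + n))
  have h4 := hab (m + n) (-(m + n))
  have e1 : m + -m = 0 := add_neg_cancel m
  have e2 : m + n + -m = n := by abel
  have e3 : m + -(m + n) = n := by
    have : m + -(m + n) = -n := by abel
    rw [this, hneg]
  have e4 : m + n + -(m + n) = 0 := add_neg_cancel _
  rw [e1] at h1
  rw [e2] at h2
  rw [e3] at h3
  rw [e4] at h4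
  have e : ∑ i, (a i m - a i (m + n)) * (b i (-m) - b i (-(m + n))) =
      (∑ i, a i m * b i (-m)) - (∑ i, a i (m + n) * b i (-m)) - (∑ i, a i m * b i (-(m + n)))
        + (∑ i, a i (m + n) * b i (-(m + n))) := by
    rw [← Finset.sum_sub_distrib, ← Finset.sum_sub_distrib, ← Finset.sum_add_distrib]
    refine Finset.sum_congr rfl fun i _ => ?_
    ring
  show 2 * (g 0 - g n) = ∑ i, (a i m - a i (m + n)) * (b i (-m) - b i (-(m + n)))
  rw [e, ← h1, ← h2, ← h3, ← h4]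
  ring

/-- **Step 1**: the subgroup `{0, n}` is "`ℤ/2` or `μ₂`": some `g₀` has `2 / d g₀ ∈ P`. -/
theorem pt_exists_small (hP : P.LiesOverPrime 2) {n : M} (hn2 : n + n = 0) (hn0 : n ≠ 0)
    (hn : ∀ σ ∈ P.decompositionSubgroup ℚ, act σ n = n) :
    ∃ g ∈ O.alg, g 0 - g n ≠ 0 ∧ 2 / (g 0 - g n) ∈ P := by
  classical
  -- the exponents that occur
  let Q : ℕ → Prop := fun j => ∃ g ∈ O.alg, ∃ u : Kb, u ∈ P ∧ u⁻¹ ∈ P ∧ u ≠ 0 ∧
    g 0 - g n = (2 : Kb) ^ j * u
  have hex : ∃ j, Q j := by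
    have hsep : ∃ g ∈ O.alg, g 0 ≠ g n := by
      by_contra hcon
      refine hn0 (O.sep 0 n fun h hh => ?_).symm
      by_contra hne
      exact hcon ⟨h, hh, hne⟩
    obtain ⟨g, hg, hgn⟩ := hsep
    obtain ⟨j, u, hu, hu', hu0, hju⟩ := pt_factor hP (pt_d_mem O hP hn hg) (sub_ne_zero.2 hgn)
    exact ⟨j, g, hg, u, hu, hu', hu0, hju⟩
  obtain ⟨g₀, hg₀, u₀, hu₀, hu₀', hu₀0, hd₀⟩ := Nat.find_spec hex
  set j₀ := Nat.find hex with hj₀
  have h20 : (2 : Kb) ≠ 0 := two_ne_zero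
  have hd₀0 : g₀ 0 - g₀ n ≠ 0 := by
    rw [hd₀]
    exact mul_ne_zero (pow_ne_zero _ h20) hu₀0
  -- every `d g` is divisible by `d g₀`
  have hdiv : ∀ g ∈ O.alg, (g 0 - g n) / (g₀ 0 - g₀ n) ∈ P := by
    intro g hg
    by_cases hg0 : g 0 - g n = 0
    · rw [hg0, zero_div]
      exact P.zero_mem
    · obtain ⟨j, u, hu, hu', hu0, hju⟩ := pt_factor hP (pt_d_mem O hP hn hg) hg0
      have hle : j₀ ≤ j := Nat.find_min' hex ⟨g, hg, u, hu, hu', hu0, hju⟩
      obtain ⟨i, rfl⟩ := Nat.exists_eq_add_of_le hle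
      have e : (g 0 - g n) / (g₀ 0 - g₀ n) = (2 : Kb) ^ i * u * u₀⁻¹ := by
        rw [hju, hd₀, pow_add]
        field_simp
      rw [e]
      have h2P : (2 : Kb) ∈ P := by
        have : ((2 : ℕ) : Kb) ∈ P := natCast_mem P 2
        exact_mod_cast this
      exact P.mul_mem _ _ (P.mul_mem _ _ (pow_mem h2P i) hu) hu₀'
  refine ⟨g₀, hg₀, hd₀0, ?_⟩
  obtain ⟨k, a, b, ha, hb, hab⟩ := pt_comul_d O hn2 hg₀
  have e : 2 / (g₀ 0 - g₀ n) =
      ∑ i, ((a i 0 - a i n) / (g₀ 0 - g₀ n)) * ((b i 0 - b i n) / (g₀ 0 - g₀ n)) := by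
    have e1 : ∀ i, ((a i 0 - a i n) / (g₀ 0 - g₀ n)) * ((b i 0 - b i n) / (g₀ 0 - g₀ n)) =
        ((a i 0 - a i n) * (b i 0 - b i n)) / (g₀ 0 - g₀ n) ^ 2 := fun i => by
      field_simp
    rw [Finset.sum_congr rfl (fun i _ => e1 i), ← Finset.sum_div, ← hab]
    field_simp
  rw [e]
  exact sum_mem fun i _ => P.mul_mem _ _ (hdiv _ (ha i)) (hdiv _ (hb i))

end Order

section Main

variable {P : ValuationSubring Kb} {M : Type*} [AddCommGroup M] {act : GK → M → M}
  (O : HopfOrder 2 M act)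

/-- the decomposition group acts on `δ g = g m - g (m + n)` through the sign of `σ` on `m`. -/
theorem pt_delta_conj {n m : M} (hn2 : n + n = 0)
    (hn : ∀ σ ∈ P.decompositionSubgroup ℚ, act σ n = n)
    (hm : ∀ σ ∈ P.decompositionSubgroup ℚ, act σ m = m ∨ act σ m = m + n)
    {g : M → Kb} (hg : g ∈ O.alg) {σ : GK} (hσ : σ ∈ P.decompositionSubgroup ℚ) :
    (act σ m = m → σ (g m - g (m + n)) = g m - g (m + n)) ∧
      (act σ m ≠ m → σ (g m - g (m + n)) = -(g m - g (m + n))) := by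
  have h1 : σ (g m) = g (act σ m) := (O.equiv g hg σ m).symm
  have h2 : σ (g (m + n)) = g (act σ m + n) := by
    rw [← O.equiv g hg σ (m + n), O.act_add σ m n, hn σ hσ]
  rw [map_sub, h1, h2]
  refine ⟨fun h => by rw [h], fun h => ?_⟩
  rcases hm σ hσ with h' | h'
  · exact absurd h' h
  · rw [h', add_assoc, hn2, add_zero]
    ring

/-- `τ g = g m + g (m + n)` is fixed by the decomposition group. -/
theorem pt_tau_conj {n m : M} (hn2 : n + n = 0)
    (hn : ∀ σ ∈ P.decompositionSubgroup ℚ, act σ n = n)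
    (hm : ∀ σ ∈ P.decompositionSubgroup ℚ, act σ m = m ∨ act σ m = m + n)
    {g : M → Kb} (hg : g ∈ O.alg) {σ : GK} (hσ : σ ∈ P.decompositionSubgroup ℚ) :
    σ (g m + g (m + n)) = g m + g (m + n) := by
  have h1 : σ (g m) = g (act σ m) := (O.equiv g hg σ m).symm
  have h2 : σ (g (m + n)) = g (act σ m + n) := by
    rw [← O.equiv g hg σ (m + n), O.act_add σ m n, hn σ hσ]
  rw [map_add, h1, h2]
  rcases hm σ hσ with h' | h'
  · rw [h']
  · rw [h', add_assoc, hn2, add_zero]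
    ring

theorem pt_inertia_le {σ : GK} (hσ : σ ∈ P.inertiaSubgroupIn ℚ) :
    σ ∈ P.decompositionSubgroup ℚ := by
  obtain ⟨τ, _, rfl⟩ := hσ
  exact τ.2

theorem pt_one_not_mem_nonunits : (1 : Kb) ∉ P.nonunits := by
  rw [P.mem_nonunits_iff, map_one]
  exact lt_irrefl _

/-- **Step 3**: `δ g` is a power of `2` times a unit, or its square is divisible by `8`. -/
theorem pt_good_or_bad (hP : P.LiesOverPrime 2) {n m : M} (hn2 : n + n = 0)
    (hn : ∀ σ ∈ P.decompositionSubgroup ℚ, act σ n = n)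
    (hm : ∀ σ ∈ P.decompositionSubgroup ℚ, act σ m = m ∨ act σ m = m + n)
    {g : M → Kb} (hg : g ∈ O.alg) (hδ : g m - g (m + n) ≠ 0) :
    (∃ (k : ℕ) (a : Kb), a ∈ P ∧ a⁻¹ ∈ P ∧ a ≠ 0 ∧ g m - g (m + n) = (2 : Kb) ^ k * a) ∨
      (g m - g (m + n)) ^ 2 / 8 ∈ P := by
  have hF : Fact (Nat.Prime 2) := ⟨Nat.prime_two⟩
  have h20 : (2 : Kb) ≠ 0 := two_ne_zero
  have h2P : (2 : Kb) ∈ P := by
    have : ((2 : ℕ) : Kb) ∈ P := natCast_mem P 2
    exact_mod_cast this
  have hgm : g m ∈ P := apply_mem_of_hopfOrder O hP hg m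
  have hgmn : g (m + n) ∈ P := apply_mem_of_hopfOrder O hP hg (m + n)
  set δ := g m - g (m + n) with hδdef
  set τ := g m + g (m + n) with hτdef
  have hδ2 : δ ^ 2 ∈ inertiaRing P := by
    refine ⟨pow_mem (sub_mem hgm hgmn) 2, fun σ hσ => ?_⟩
    have hc := pt_delta_conj O hn2 hn hm hg (pt_inertia_le hσ)
    rw [map_pow]
    by_cases h : act σ m = m
    · rw [hc.1 h]
    · rw [hc.2 h]
      ring
  have hτ : τ ∈ inertiaRing P :=
    ⟨add_mem hgm hgmn, fun σ hσ => pt_tau_conj O hn2 hn hm hg (pt_inertia_le hσ)⟩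
  obtain ⟨j, u, hu, hu', hu0, hju⟩ := pt_factor hP hδ2 (pow_ne_zero 2 hδ)
  rcases Nat.even_or_odd' j with ⟨k, rfl | rfl⟩
  · -- even exponent: the unit
    left
    have ha2 : (δ / (2 : Kb) ^ k) ^ 2 = u := by
      rw [div_pow, hju, ← pow_mul, mul_comm k 2]
      field_simp
    have ha0 : δ / (2 : Kb) ^ k ≠ 0 := div_ne_zero hδ (pow_ne_zero _ h20)
    refine ⟨k, δ / (2 : Kb) ^ k, ?_, ?_, ha0, ?_⟩
    · exact pt_mem_of_sq_mem (by rw [ha2]; exact hu)
    · exact pt_mem_of_sq_mem (by rw [inv_pow, ha2]; exact hu')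
    · field_simp
  · -- odd exponent
    rcases Nat.eq_zero_or_pos k with rfl | hk
    · -- `j = 1` is impossible
      exfalso
      have hju' : δ ^ 2 = 2 * u := by simpa using hju
      have hid : τ ^ 2 = 2 * (u + 2 * (g m * g (m + n))) := by
        have : τ ^ 2 = δ ^ 2 + 4 * (g m * g (m + n)) := by
          rw [hδdef, hτdef]
          ring
        rw [this, hju']
        ring
      have hτ2 : τ ^ 2 ∈ P.nonunits := by
        rw [hid]
        exact red_mul_mem_nonunits_right P (pt_two_mem_nonunits hP)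
          (add_mem hu (P.mul_mem _ _ h2P (P.mul_mem _ _ hgm hgmn)))
      have hτn : τ ∈ P.nonunits := pt_mem_nonunits_of_sq hτ2
      have hτh : τ / 2 ∈ P := by
        have := unrProp 2 Nat.prime_two P hP τ hτn hτ.2
        simpa using this
      have hu2 : u = 2 * ((τ / 2) ^ 2 - g m * g (m + n)) := by
        have h1 : (2 : Kb) * u = 2 * (2 * ((τ / 2) ^ 2 - g m * g (m + n))) := by
          have h2 : (τ / 2) ^ 2 = τ ^ 2 / 4 := by ring
          rw [h2, hid]
          ring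
        exact mul_left_cancel₀ h20 h1
      have hun : u ∈ P.nonunits := by
        rw [hu2]
        exact red_mul_mem_nonunits_right P (pt_two_mem_nonunits hP)
          (sub_mem (pow_mem hτh 2) (P.mul_mem _ _ hgm hgmn))
      have h1 : u * u⁻¹ ∈ P.nonunits := red_mul_mem_nonunits_right P hun hu'
      rw [mul_inv_cancel₀ hu0] at h1
      exact pt_one_not_mem_nonunits h1
    · right
      obtain ⟨i, rfl⟩ : ∃ i, k = i + 1 := ⟨k - 1, by omega⟩
      have e : δ ^ 2 / 8 = (2 : Kb) ^ (2 * i) * u := by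
        rw [hju]
        have : (2 : Kb) ^ (2 * (i + 1) + 1) = 8 * 2 ^ (2 * i) := by ring
        rw [this]
        field_simp
      rw [e]
      exact P.mul_mem _ _ (pow_mem h2P _) hu

/-- **PEU at `p = 2`** (decomposition-group form): in a flat Galois module (Hopf order over
`ℤ_(2)`), if `D` fixes `n`, `n + n = 0`, and `D` moves `m` inside `{m, m + n}`, then the character
`σ ↦ ±1` of `D` recording whether `σ m = m` is the Kummer character of a unit `a` of `P`. -/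
theorem peuTwo (O : HopfOrder 2 M act) (hP : P.LiesOverPrime 2) (n m : M) (hn2 : n + n = 0)
    (hn : ∀ σ ∈ P.decompositionSubgroup ℚ, act σ n = n)
    (hm : ∀ σ ∈ P.decompositionSubgroup ℚ, act σ m = m ∨ act σ m = m + n) :
    ∃ a : Kb, a ∈ P ∧ a⁻¹ ∈ P ∧ a ≠ 0 ∧
      ∀ σ ∈ P.decompositionSubgroup ℚ, (act σ m = m → σ a = a) ∧ (act σ m ≠ m → σ a = -a) := by
  classical
  have h20 : (2 : Kb) ≠ 0 := two_ne_zero
  by_cases hall : ∀ σ ∈ P.decompositionSubgroup ℚ, act σ m = m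
  · refine ⟨1, P.one_mem, by rw [inv_one]; exact P.one_mem, one_ne_zero, fun σ hσ => ?_⟩
    exact ⟨fun _ => map_one σ, fun h => absurd (hall σ hσ) h⟩
  · have hex : ∃ σ₀ ∈ P.decompositionSubgroup ℚ, act σ₀ m ≠ m := by
      by_contra hcon
      refine hall fun σ hσ => ?_
      by_contra hne
      exact hcon ⟨σ, hσ, hne⟩
    obtain ⟨σ₀, hσ₀, hσ₀m⟩ := hex
    have hn0 : n ≠ 0 := by
      rintro rfl
      rcases hm σ₀ hσ₀ with h | h
      · exact hσ₀m h
      · exact hσ₀m (by rw [h, add_zero])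
    by_cases hgood : ∃ g ∈ O.alg, ∃ (k : ℕ) (a : Kb), a ∈ P ∧ a⁻¹ ∈ P ∧ a ≠ 0 ∧
        g m - g (m + n) = (2 : Kb) ^ k * a
    · obtain ⟨g, hg, k, a, ha, ha', ha0, hδ⟩ := hgood
      refine ⟨a, ha, ha', ha0, fun σ hσ => ?_⟩
      have hc := pt_delta_conj O hn2 hn hm hg hσ
      rw [hδ, map_mul, map_pow, map_ofNat] at hc
      have hk : (2 : Kb) ^ k ≠ 0 := pow_ne_zero k h20
      refine ⟨fun h => mul_left_cancel₀ hk (hc.1 h), fun h => ?_⟩
      apply mul_left_cancel₀ hk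
      rw [hc.2 h]
      ring
    · exfalso
      have hbad : ∀ g ∈ O.alg, (g m - g (m + n)) ^ 2 / 8 ∈ P := by
        intro g hg
        by_cases h0 : g m - g (m + n) = 0
        · rw [h0]
          simp only [ne_eq, OfNat.ofNat_ne_zero, not_false_eq_true, zero_pow, zero_div]
          exact P.zero_mem
        · rcases pt_good_or_bad O hP hn2 hn hm hg h0 with h | h
          · exact absurd ⟨g, hg, h⟩ hgood
          · exact h
      have hprod : ∀ a ∈ O.alg, ∀ b ∈ O.alg,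
          (a m - a (m + n)) * (b m - b (m + n)) / 8 ∈ P := by
        intro a ha b hb
        apply pt_mem_of_sq_mem
        have e : ((a m - a (m + n)) * (b m - b (m + n)) / 8) ^ 2 =
            ((a m - a (m + n)) ^ 2 / 8) * ((b m - b (m + n)) ^ 2 / 8) := by ring
        rw [e]
        exact P.mul_mem _ _ (hbad a ha) (hbad b hb)
      obtain ⟨g₀, hg₀, hd₀, hsmall⟩ := pt_exists_small O hP hn2 hn0 hn
      obtain ⟨k, a, b, ha, hb, hab⟩ := pt_comul_delta O m hn2 hg₀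
      have h8 : 2 * (g₀ 0 - g₀ n) / 8 ∈ P := by
        rw [hab, Finset.sum_div]
        exact sum_mem fun i _ => hprod _ (ha i) _ (hb i)
      have e : (2 : Kb)⁻¹ = (2 * (g₀ 0 - g₀ n) / 8) * (2 / (g₀ 0 - g₀ n)) := by
        field_simp
        ring
      exact pt_half_not_mem hP (e ▸ P.mul_mem _ _ h8 hsmall)

/-- `peuTwo` for the inertia group. -/
theorem peuTwo_inertia (O : HopfOrder 2 M act) (hP : P.LiesOverPrime 2) (n m : M)
    (hn2 : n + n = 0) (hn : ∀ σ ∈ P.decompositionSubgroup ℚ, act σ n = n)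
    (hm : ∀ σ ∈ P.decompositionSubgroup ℚ, act σ m = m ∨ act σ m = m + n) :
    ∃ a : Kb, a ∈ P ∧ a⁻¹ ∈ P ∧ a ≠ 0 ∧
      ∀ σ ∈ P.inertiaSubgroupIn ℚ, (act σ m = m → σ a = a) ∧ (act σ m ≠ m → σ a = -a) := by
  obtain ⟨a, ha, ha', ha0, h⟩ := peuTwo O hP n m hn2 hn hm
  exact ⟨a, ha, ha', ha0, fun σ hσ => h σ (pt_inertia_le hσ)⟩

end Main

/-- **PEU at `p = 2`** for a flat Galois module (`IsFlatGaloisModule 2`). -/
theorem peuTwo_of_isFlat {P : ValuationSubring Kb} {M : Type} [AddCommGroup M]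
    {act : GK → M → M} (hflat : IsFlatGaloisModule 2 M act) (hP : P.LiesOverPrime 2) (n m : M)
    (hn2 : n + n = 0) (hn : ∀ σ ∈ P.decompositionSubgroup ℚ, act σ n = n)
    (hm : ∀ σ ∈ P.decompositionSubgroup ℚ, act σ m = m ∨ act σ m = m + n) :
    ∃ a : Kb, a ∈ P ∧ a⁻¹ ∈ P ∧ a ≠ 0 ∧
      ∀ σ ∈ P.decompositionSubgroup ℚ, (act σ m = m → σ a = a) ∧ (act σ m ≠ m → σ a = -a) := by
  obtain ⟨O⟩ := nonempty_hopfOrder_of_isFlat hflat
  exact peuTwo O hP n m hn2 hn hm

end Fermat.Agent.FFL
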